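import Mathlib

/-!
# The patching theorem for the raising steps: the data (block R7 of S59)

The main theorem (`Supp/Main.lean`, `chain_main`) says that data as in `CDatum` cannot exist for
all `n`.

There are two sorts of blocks (primes `l ∈ Σ`, at which the residual representation is unramified
(or flat, if `l = p`) and `W` is Steinberg):

* *scalar* blocks `t ∈ π.S`: `l ≡ 1 mod p`, `ρbar(Frob_l)` scalar; six variables `f_t, s_t` (entries
  of the traceless parts of Frobenius and of the tame generator), weight 3; unramified: `s = 0`,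
  Steinberg: the six relations `stRel`;
* *simple* blocks `t ∈ π.X`: three variables `x_t, n_t, b_t`, weight 1; unramified: `n = b = 0`;
  Steinberg (with the sign of `W`): `x = b = 0`; opposite Steinberg (only if `l ≡ -1 mod p`):
  `x = c, n = 0` (if `l` is not `≡ -1 mod p`, take `b = 0`, `c` any nonzero element of `𝔪`).

The blocks are ordered; `A i` is the module in which the blocks number `0, …, i - 1` have been
switched on.
-/

set_option autoImplicit false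

namespace Fermat.Agent.Supp

open IsLocalRing

/-- The Steinberg relations between the traceless part `F = (f₀ f₁; f₂ -f₀)` of Frobenius and
`S = (s₀ s₁; s₂ -s₀)` (`τ = 1 + S`): `S² = 0`, `F² = h²`, `F S = h S = - S F`. -/
def stRel {R : Type*} [CommRing R] (h : R) (f s : Fin 3 → R) : Fin 6 → R := ![
  s 0 ^ 2 + s 1 * s 2,
  f 0 ^ 2 + f 1 * f 2 - h ^ 2,
  f 0 * s 0 + f 1 * s 2 - h * s 0,
  f 0 * s 1 - f 1 * s 0 - h * s 1,
  f 2 * s 0 - f 0 * s 2 - h * s 2,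
  f 2 * s 1 + f 0 * s 0 + h * s 0]

/-- parameters which do not depend on the level -/
structure Params (𝒪 : Type) [CommRing 𝒪] [IsLocalRing 𝒪] where
  p : ℕ
  p_prime : p.Prime
  p_mem : (p : 𝒪) ∈ maximalIdeal 𝒪
  /-- scalar blocks -/
  S : Type
  [fintypeS : Fintype S]
  h : S → 𝒪
  h_mem : ∀ t, h t ∈ maximalIdeal 𝒪
  /-- simple blocks -/
  X : Type
  [fintypeX : Fintype X]
  c : X → 𝒪
  c_mem : ∀ t, c t ∈ maximalIdeal 𝒪
  c_ne : ∀ t, c t ≠ 0
  /-- the order of the blocks -/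
  m : ℕ
  ord : Fin m ≃ S ⊕ X
  /-- number of the other generators of the ring -/
  g : ℕ
  /-- number of Taylor--Wiles primes -/
  r : ℕ
  r_eq : r = 3 * Fintype.card S + Fintype.card X + g
  /-- bound for the ranks -/
  D : ℕ
  cθ : 𝒪
  cθ_ne : cθ ≠ 0

attribute [instance] Params.fintypeS Params.fintypeX

/-- the number of a block -/
def Params.num {𝒪 : Type} [CommRing 𝒪] [IsLocalRing 𝒪] (π : Params 𝒪) (t : π.S ⊕ π.X) : ℕ :=
  (π.ord.symm t : ℕ)

/-- `N` is free over `𝒪[Δ]` (acting through `κ`), with basis `b`. -/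
def IsBasis {𝒪 Δ R N : Type} [CommRing 𝒪] [CommGroup Δ] [CommRing R] [Algebra 𝒪 R]
    [AddCommGroup N] [Module R N] (κ : Δ →* R) {d : ℕ} (b : Fin d → N) : Prop :=
  Function.Bijective fun u : Fin d → MonoidAlgebra 𝒪 Δ => ∑ i, MonoidAlgebra.lift 𝒪 R Δ κ (u i) • b i

/-- The data at level `n`. -/
structure CDatum {𝒪 : Type} [CommRing 𝒪] [IsLocalRing 𝒪] (π : Params 𝒪) (n : ℕ) where
  /-- the ring -/
  R : Type
  [instCommRing : CommRing R]
  [instLocal : IsLocalRing R]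
  [instNoeth : IsNoetherianRing R]
  [instComplete : IsAdicComplete (maximalIdeal R) R]
  [instAlg : Algebra 𝒪 R]
  [instLocalHom : IsLocalHom (algebraMap 𝒪 R)]
  residue_surj : ∀ b : R, ∃ a : 𝒪, algebraMap 𝒪 R a - b ∈ maximalIdeal R
  /-- variables at the scalar blocks -/
  f : π.S → Fin 3 → R
  s : π.S → Fin 3 → R
  /-- variables at the simple blocks -/
  x : π.X → R
  nn : π.X → R
  b : π.X → R
  /-- the other generators -/
  y : Fin π.g → R
  f_mem : ∀ t i, f t i ∈ maximalIdeal R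
  s_mem : ∀ t i, s t i ∈ maximalIdeal R
  x_mem : ∀ t, x t ∈ maximalIdeal R
  nn_mem : ∀ t, nn t ∈ maximalIdeal R
  b_mem : ∀ t, b t ∈ maximalIdeal R
  y_mem : ∀ j, y j ∈ maximalIdeal R
  gen : maximalIdeal R ≤ (maximalIdeal 𝒪).map (algebraMap 𝒪 R) ⊔
    Ideal.span ({z | ∃ t i, z = f t i} ∪ {z | ∃ t i, z = s t i} ∪ Set.range x ∪ Set.range nn ∪
      Set.range b ∪ Set.range y) ⊔ maximalIdeal R ^ 2
  /-- the group of diamond operators -/
  Δ : Type
  [instGroup : CommGroup Δ]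
  [instFinite : Finite Δ]
  isPGroup : IsPGroup π.p Δ
  δ : Fin π.r → Δ
  closure_δ : Subgroup.closure (Set.range δ) = ⊤
  χ : Δ →* (Fin π.r → Multiplicative (ZMod (π.p ^ n)))
  χ_δ : ∀ j, χ (δ j) = Pi.mulSingle j (Multiplicative.ofAdd 1)
  κ : Δ →* R
  κ_mem : ∀ γ, κ γ - 1 ∈ maximalIdeal R
  /-- the modules `A 0, …, A m`, free over `𝒪[Δ]` -/
  A : ℕ → Type
  [instAddA : ∀ i, AddCommGroup (A i)]
  [instModuleA : ∀ i, Module R (A i)]
  d : ℕ → ℕ
  d_zero : 0 < d 0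
  d_le : ∀ i, i ≤ π.m → d i ≤ π.D
  bA : ∀ i, Fin (d i) → A i
  bA_basis : ∀ i, i ≤ π.m → IsBasis (𝒪 := 𝒪) κ (bA i)
  /-- blocks which are not yet switched on are unramified -/
  rel_s : ∀ i, i ≤ π.m → ∀ t : π.S, i ≤ π.num (Sum.inl t) → ∀ j (v : A i), s t j • v = 0
  rel_nn : ∀ i, i ≤ π.m → ∀ t : π.X, i ≤ π.num (Sum.inr t) → ∀ v : A i, nn t • v = 0
  rel_b : ∀ i, i ≤ π.m → ∀ t : π.X, i ≤ π.num (Sum.inr t) → ∀ v : A i, b t • v = 0
  /-- relations at the blocks which are switched on -/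
  rel_s_st : ∀ i, i ≤ π.m → ∀ t : π.S, π.num (Sum.inl t) < i → ∀ j k (v : A i),
    (s t j * stRel (algebraMap 𝒪 R (π.h t)) (f t) (s t) k) • v = 0
  rel_nn_b : ∀ i, i ≤ π.m → ∀ t : π.X, π.num (Sum.inr t) < i → ∀ v : A i, (nn t * b t) • v = 0
  rel_nn_x : ∀ i, i ≤ π.m → ∀ t : π.X, π.num (Sum.inr t) < i → ∀ v : A i, (nn t * x t) • v = 0
  rel_b_x : ∀ i, i ≤ π.m → ∀ t : π.X, π.num (Sum.inr t) < i → ∀ v : A i,
    (b t * (x t - algebraMap 𝒪 R (π.c t))) • v = 0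
  /-- degeneracy maps `A i ⊕ A i → A (i + 1)` -/
  α : ∀ i, Fin 2 → (A i →+ A (i + 1))
  α_smul : ∀ i, i < π.m → ∀ k (a : R) v, α i k (a • v) = a • α i k v
  /-- `𝒪[Δ]`-linear retraction of the degeneracy maps -/
  ρ : ∀ i, Fin 2 → (A (i + 1) →+ A i)
  ρ_smul : ∀ i, i < π.m → ∀ k (a : MonoidAlgebra 𝒪 Δ) v,
    ρ i k (MonoidAlgebra.lift 𝒪 R Δ κ a • v) = MonoidAlgebra.lift 𝒪 R Δ κ a • ρ i k v
  ρ_α : ∀ i, i < π.m → ∀ k l v, ρ i k (α i l v) = if k = l then v else 0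
  /-- traces `A (i + 1) → A i ⊕ A i`, jointly surjective -/
  τ : ∀ i, Fin 2 → (A (i + 1) →+ A i)
  τ_smul : ∀ i, i < π.m → ∀ k (a : R) v, τ i k (a • v) = a • τ i k v
  τ_surj : ∀ i, i < π.m → ∀ v w, ∃ z, τ i 0 z = v ∧ τ i 1 z = w
  /-- the matrix of `τ α` -/
  mat : ∀ _ : ℕ, Matrix (Fin 2) (Fin 2) R
  τ_α : ∀ i, i < π.m → ∀ k l v, τ i k (α i l v) = mat i k l • v
  det_S : ∀ (i : Fin π.m) (t : π.S), π.ord i = Sum.inl t →
    ∃ a, (mat i).det = a * (f t 0 ^ 2 + f t 1 * f t 2 - algebraMap 𝒪 R (π.h t) ^ 2)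
  det_X : ∀ (i : Fin π.m) (t : π.X), π.ord i = Sum.inr t → ∃ a, (mat i).det = a * x t
  /-- the cokernel of the degeneracy maps is Steinberg -/
  coker_S : ∀ (i : Fin π.m) (t : π.S), π.ord i = Sum.inl t → ∀ k (v : A (i + 1)),
    ∃ v₀ v₁, stRel (algebraMap 𝒪 R (π.h t)) (f t) (s t) k • v = α i 0 v₀ + α i 1 v₁
  coker_X : ∀ (i : Fin π.m) (t : π.X), π.ord i = Sum.inr t → ∀ (v : A (i + 1)),
    ∃ v₀ v₁, (x t * (x t - algebraMap 𝒪 R (π.c t))) • v = α i 0 v₀ + α i 1 v₁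
  /-- the point `W` -/
  wW : R →+* 𝒪
  wW_alg : ∀ a, wW (algebraMap 𝒪 R a) = a
  wW_κ : ∀ γ, wW (κ γ) = 1
  wW_S : ∀ t k, wW (stRel (algebraMap 𝒪 R (π.h t)) (f t) (s t) k) = 0
  wW_x : ∀ t, wW (x t) = 0
  wW_b : ∀ t, wW (b t) = 0
  /-- an element which kills `A m / (aug)` but not `W` -/
  θ : R
  θ_wW : wW θ = π.cθ
  θ_A : ∀ v : A π.m, θ • v ∈ Ideal.span {z : R | ∃ γ, z = κ γ - 1} • (⊤ : Submodule R (A π.m))

attribute [instance] CDatum.instCommRing CDatum.instLocal CDatum.instNoeth CDatum.instComplete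
  CDatum.instAlg CDatum.instLocalHom CDatum.instGroup CDatum.instFinite CDatum.instAddA
  CDatum.instModuleA

/-- **Main theorem** (to be proved in `Supp/Main.lean`). -/
def ChainMain : Prop :=
  ∀ (𝒪 : Type) [CommRing 𝒪] [IsDomain 𝒪] [IsDiscreteValuationRing 𝒪]
    [IsAdicComplete (maximalIdeal 𝒪) 𝒪] [Finite (ResidueField 𝒪)] (π : Params 𝒪),
    (∀ n, Nonempty (CDatum π n)) → False

/-! ## Local algebra (block of helper13) -/

/-- index set of the variables -/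
abbrev Var {𝒪 : Type} [CommRing 𝒪] [IsLocalRing 𝒪] (π : Params 𝒪) : Type :=
  (π.S × Bool × Fin 3) ⊕ (π.X × Fin 3) ⊕ Fin π.g

/-- the power series ring -/
abbrev PP {𝒪 : Type} [CommRing 𝒪] [IsLocalRing 𝒪] (π : Params 𝒪) : Type := MvPowerSeries (Var π) 𝒪

section

variable {𝒪 : Type} [CommRing 𝒪] [IsLocalRing 𝒪] (π : Params 𝒪)

noncomputable def vf (t : π.S) (i : Fin 3) : PP π := MvPowerSeries.X (Sum.inl (t, false, i))
noncomputable def vs (t : π.S) (i : Fin 3) : PP π := MvPowerSeries.X (Sum.inl (t, true, i))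
noncomputable def vx (t : π.X) : PP π := MvPowerSeries.X (Sum.inr (Sum.inl (t, 0)))
noncomputable def vn (t : π.X) : PP π := MvPowerSeries.X (Sum.inr (Sum.inl (t, 1)))
noncomputable def vb (t : π.X) : PP π := MvPowerSeries.X (Sum.inr (Sum.inl (t, 2)))
noncomputable def vy (j : Fin π.g) : PP π := MvPowerSeries.X (Sum.inr (Sum.inr j))

/-- the relations of the state `e` (`true` = Steinberg, `false` = unramified) -/
noncomputable def Rel (e : π.S ⊕ π.X → Bool) : Ideal (PP π) := Ideal.span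
  ({z | ∃ t i, e (Sum.inl t) = false ∧ z = vs π t i} ∪
   {z | ∃ t k, e (Sum.inl t) = true ∧ z = stRel (MvPowerSeries.C (π.h t)) (vf π t) (vs π t) k} ∪
   {z | ∃ t, e (Sum.inr t) = false ∧ z = vn π t} ∪
   {z | ∃ t, e (Sum.inr t) = true ∧ z = vx π t} ∪
   {z | ∃ t, z = vb π t})

end

/-- **(C1)** a prime of full dimension containing the relations of a state is contained in every
prime containing them. -/
def CompStmt : Prop :=
  ∀ (𝒪 : Type) [CommRing 𝒪] [IsDomain 𝒪] [IsDiscreteValuationRing 𝒪]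
    [IsAdicComplete (maximalIdeal 𝒪) 𝒪] [Finite (ResidueField 𝒪)] (π : Params 𝒪)
    (e : π.S ⊕ π.X → Bool) (q : Ideal (PP π)), q.IsPrime → Rel π e ≤ q →
    (∀ a : 𝒪, MvPowerSeries.C a ∈ q → a = 0) →
    ((3 * Fintype.card π.S + Fintype.card π.X + π.g + 1 : ℕ) : WithBot ℕ∞) ≤
      ringKrullDim (PP π ⧸ q) →
  ∀ q' : Ideal (PP π), q'.IsPrime → Rel π e ≤ q' → q ≤ q'

end Fermat.Agent.Supp
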