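import Fermat.Agent.Supp.CompK
import Fermat.Agent.Patch.Block
import Fermat.Agent.Patch.Final

/-!
# Local algebra for the raising steps: `CompStmt`
-/

set_option autoImplicit false

namespace Fermat.Agent.Supp

open MvPolynomial IsLocalRing

/-- dimension bound by parameters -/
theorem ringKrullDim_le_of_params {P : Type*} [CommRing P] [IsLocalRing P] [IsNoetherianRing P]
    (J : Ideal P) [hJ : J.IsPrime] (s : Finset P) (hs : ∀ x ∈ s, x ∈ maximalIdeal P)
    (hprim : ∀ q : Ideal P, q.IsPrime → J ≤ q → (∀ x ∈ s, x ∈ q) → q = maximalIdeal P) :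
    ringKrullDim (P ⧸ J) ≤ s.card := by
  classical
  have hDloc : IsLocalRing (P ⧸ J) :=
    IsLocalRing.of_surjective' (Ideal.Quotient.mk _) Ideal.Quotient.mk_surjective
  rw [← IsLocalRing.maximalIdeal_height_eq_ringKrullDim]
  have h3 : maximalIdeal (P ⧸ J) ∈ (Ideal.span
      ((s.image (Ideal.Quotient.mk J) : Finset (P ⧸ J)) : Set (P ⧸ J))).minimalPrimes := by
    refine ⟨⟨(maximalIdeal.isMaximal (P ⧸ J)).isPrime, ?_⟩, ?_⟩
    · rw [Ideal.span_le]
      intro y hy
      rw [Finset.mem_coe, Finset.mem_image] at hy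
      obtain ⟨x', hx', rfl⟩ := hy
      have h4 : IsLocalHom (Ideal.Quotient.mk J) :=
        IsLocalHom.of_surjective _ Ideal.Quotient.mk_surjective
      exact map_nonunit (Ideal.Quotient.mk J) _ (hs x' hx')
    · rintro q' ⟨hq'1, hq'2⟩ -
      have h4 : q'.comap (Ideal.Quotient.mk J) = maximalIdeal P := by
        apply hprim
        · exact Ideal.comap_isPrime _ _
        · intro r hr
          rw [Ideal.mem_comap, (Ideal.Quotient.eq_zero_iff_mem).mpr hr]
          exact Ideal.zero_mem _
        · intro x' hx'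
          rw [Ideal.mem_comap]
          apply hq'2
          apply Ideal.subset_span
          rw [Finset.mem_coe]
          exact Finset.mem_image_of_mem _ hx'
      intro y hy
      obtain ⟨y', rfl⟩ := Ideal.Quotient.mk_surjective y
      rw [← Ideal.mem_comap, h4]
      rw [mem_maximalIdeal, mem_nonunits_iff] at hy ⊢
      exact fun hu => hy (hu.map _)
  have h4 := Ideal.height_le_card_of_mem_minimalPrimes_span_finset h3
  have h5 := h4.trans (Nat.cast_le.mpr Finset.card_image_le)
  exact_mod_cast h5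

section

variable {𝒪 : Type} [CommRing 𝒪] [IsDomain 𝒪] [IsDiscreteValuationRing 𝒪]
    [IsAdicComplete (maximalIdeal 𝒪) 𝒪] (π : Params 𝒪) (e : π.S ⊕ π.X → Bool)

/-- reduction of power series -/
noncomputable def redP : PP π →+* MvPowerSeries (Var π) (ResidueField 𝒪) :=
  MvPowerSeries.map (residue 𝒪)

theorem redP_coeff (g : PP π) (m : Var π →₀ ℕ) :
    MvPowerSeries.coeff m (redP π g) = residue 𝒪 (MvPowerSeries.coeff m g) := rfl

theorem redP_X (v : Var π) : redP π (MvPowerSeries.X v) = MvPowerSeries.X v :=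
  MvPowerSeries.map_X _ _

theorem redP_C (a : 𝒪) : redP π (MvPowerSeries.C a) = MvPowerSeries.C (residue 𝒪 a) :=
  MvPowerSeries.map_C _ _

theorem redP_surjective : Function.Surjective (redP π) := by
  intro g
  choose b hb using fun m => residue_surjective (MvPowerSeries.coeff m g)
  refine ⟨DefRing.ofCoeff b, ?_⟩
  ext m
  rw [redP_coeff, DefRing.coeff_ofCoeff]
  exact hb m

theorem mem_span_of_redP_eq_zero {ϖ : 𝒪} (hϖ : Irreducible ϖ) {g : PP π} (hg : redP π g = 0) :
    g ∈ Ideal.span {(MvPowerSeries.C ϖ : PP π)} := by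
  have h1 := Patch.mem_map_C_of_coeff (σ := Var π) (Ideal.span {ϖ}) (Submodule.fg_span_singleton _)
    g (by
      intro m
      have h2 := congrArg (MvPowerSeries.coeff m) hg
      rw [redP_coeff, map_zero, residue_eq_zero_iff, hϖ.maximalIdeal_eq] at h2
      exact h2)
  rwa [Ideal.map_span, Set.image_singleton] at h1

theorem redP_stRel (h : 𝒪) (hh : h ∈ maximalIdeal 𝒪) (t : π.S) (l : Fin 6) :
    redP π (stRel (MvPowerSeries.C h) (vf π t) (vs π t) l) =
      stRel 0 (fun i => MvPowerSeries.X (Sum.inl (t, false, i)))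
        (fun i => MvPowerSeries.X (Sum.inl (t, true, i))) l := by
  rw [map_stRel, redP_C, (residue_eq_zero_iff h).mpr hh, map_zero]
  congr 1
  · funext i; exact redP_X π _
  · funext i; exact redP_X π _

/-- the relations of the residue field come from `Rel` -/
theorem map_relK_le : (relK π e (ResidueField 𝒪)).map
    (MvPolynomial.coeToMvPowerSeries.ringHom (σ := Var π) (R := ResidueField 𝒪)) ≤
    (Rel π e).map (redP π) := by
  rw [relK, Ideal.map_span, Ideal.span_le]
  have hX : ∀ v, MvPolynomial.coeToMvPowerSeries.ringHom (σ := Var π) (R := ResidueField 𝒪)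
      (X v) = redP π (MvPowerSeries.X v) := by
    intro v
    rw [redP_X]
    exact MvPolynomial.coe_X v
  rintro _ ⟨z, hz, rfl⟩
  rcases hz with (((⟨t, i, h, rfl⟩ | ⟨t, l, h, rfl⟩) | ⟨t, h, rfl⟩) | ⟨t, h, rfl⟩) | ⟨t, rfl⟩
  · rw [hX]
    exact Ideal.mem_map_of_mem _ (Ideal.subset_span (Or.inl (Or.inl (Or.inl (Or.inl ⟨t, i, h, rfl⟩)))))
  · rw [map_stRel, map_zero]
    simp only [hX, redP_X]
    rw [← redP_stRel π (π.h t) (π.h_mem t)]
    exact Ideal.mem_map_of_mem _ (Ideal.subset_span (Or.inl (Or.inl (Or.inl (Or.inr ⟨t, l, h, rfl⟩)))))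
  · rw [hX]
    exact Ideal.mem_map_of_mem _ (Ideal.subset_span (Or.inl (Or.inl (Or.inr ⟨t, h, rfl⟩))))
  · rw [hX]
    exact Ideal.mem_map_of_mem _ (Ideal.subset_span (Or.inl (Or.inr ⟨t, h, rfl⟩)))
  · rw [hX]
    exact Ideal.mem_map_of_mem _ (Ideal.subset_span (Or.inr ⟨t, rfl⟩))

/-- the nilpotent parametrisation satisfies the Steinberg relations -/
theorem stRel_param {A : Type*} [CommRing A] (a b : A) (μ : Fin 3 → A)
    (hμ : μ 0 ^ 2 + μ 1 * μ 2 = 0) (l : Fin 6) :
    stRel 0 (fun i => a * μ i) (fun i => b * μ i) l = 0 := by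
  fin_cases l <;> simp [stRel] <;> grind

/-- **The special fibre of a state.** -/
theorem exists_special {ϖ : 𝒪} (hϖ : Irreducible ϖ) :
    ∃ J : Ideal (PP π), J.IsPrime ∧ Rel π e ≤ J ∧ MvPowerSeries.C ϖ ∈ J ∧
      J ≤ Rel π e ⊔ Ideal.span {MvPowerSeries.C ϖ} := by
  classical
  have hcompl : IsAdicComplete (maximalIdeal (ResidueField 𝒪)) (ResidueField 𝒪) := by
    have : maximalIdeal (ResidueField 𝒪) = ⊥ := (IsLocalRing.isField_iff_maximalIdeal_eq).mp
      (Field.toIsField _)
    rw [this]
    infer_instance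
  obtain ⟨Θ, hΘ⟩ := exists_Theta (k := ResidueField 𝒪) (D := kD π e)
    (c := kc π e (ResidueField 𝒪)) (M := kM π e) (kω π e) (fun v _ => wgt_kM π e v)
  have hdom : IsDomain (MvPowerSeries (Tau π) (ResidueField 𝒪)) := NoZeroDivisors.to_isDomain _
  let Ψ : PP π →+* MvPowerSeries (Tau π) (ResidueField 𝒪) := (Θ : _ →+* _).comp (redP π)
  have hΨ : ∀ g, Ψ g = Θ (redP π g) := fun g => rfl
  have hΨX : ∀ v, Ψ (MvPowerSeries.X v) =
      (mimg (kD π e) (kc π e (ResidueField 𝒪)) (kM π e) v : MvPowerSeries _ _) := by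
    intro v
    rw [hΨ, redP_X, hΘ]
  have hdead : ∀ v, kD π e v → Ψ (MvPowerSeries.X v) = 0 := by
    intro v hv
    rw [hΨX, mimg, if_pos hv]
    exact MvPolynomial.coe_zero
  refine ⟨RingHom.ker Ψ, RingHom.ker_isPrime Ψ, ?_, ?_, ?_⟩
  · rw [Rel, Ideal.span_le]
    rintro z ((((⟨t, i, h, rfl⟩ | ⟨t, l, h, rfl⟩) | ⟨t, h, rfl⟩) | ⟨t, h, rfl⟩) | ⟨t, rfl⟩)
    · exact hdead _ ⟨rfl, h⟩
    · show Ψ _ = 0
      rw [map_stRel, hΨ (MvPowerSeries.C _), redP_C,
        (residue_eq_zero_iff _).mpr (π.h_mem t), map_zero, map_zero]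
      let μ : Fin 3 → MvPowerSeries (Tau π) (ResidueField 𝒪) := ![
        MvPowerSeries.X (Sum.inl (t, 2)) * MvPowerSeries.X (Sum.inl (t, 3)),
        - MvPowerSeries.X (Sum.inl (t, 2)) ^ 2, MvPowerSeries.X (Sum.inl (t, 3)) ^ 2]
      have himg : ∀ (b : Bool) (i : Fin 3), Ψ (MvPowerSeries.X (Sum.inl (t, b, i))) =
          MvPowerSeries.X (Sum.inl (t, bif b then 1 else 0)) * μ i := by
        intro b i
        rw [hΨX, mimg, if_neg (by rintro ⟨-, h'⟩; rw [h] at h'; exact absurd h' (by simp)), kM, kc]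
        rw [if_pos h, MvPolynomial.coe_monomial]
        simp only [h, true_and]
        fin_cases i
        · simp [μ, kmu, MvPowerSeries.X_def, MvPowerSeries.monomial_mul_monomial]
        · simp [μ, kmu, MvPowerSeries.X_def, MvPowerSeries.monomial_mul_monomial,
            MvPowerSeries.monomial_pow]
        · simp [μ, kmu, MvPowerSeries.X_def, MvPowerSeries.monomial_mul_monomial,
            MvPowerSeries.monomial_pow]
      have h1 : (fun i => Ψ (vf π t i)) = fun i =>
          MvPowerSeries.X (Sum.inl (t, 0)) * μ i := funext fun i => himg false i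
      have h2 : (fun i => Ψ (vs π t i)) = fun i =>
          MvPowerSeries.X (Sum.inl (t, 1)) * μ i := funext fun i => himg true i
      rw [h1, h2]
      apply stRel_param
      simp [μ]; ring
    · exact hdead _ (Or.inr (Or.inl ⟨rfl, h⟩))
    · exact hdead _ (Or.inr (Or.inr ⟨rfl, h⟩))
    · exact hdead _ (Or.inl rfl)
  · rw [RingHom.mem_ker, hΨ, redP_C, (residue_eq_zero_iff _).mpr (by
      rw [hϖ.maximalIdeal_eq]; exact Ideal.mem_span_singleton_self _), map_zero, map_zero]
  · intro g hg
    rw [RingHom.mem_ker, hΨ] at hg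
    have h1 := mem_of_Theta_eq_zero Θ hΘ (kω π e) (fun v _ => wgt_kM π e v)
      (I := relK π e (ResidueField 𝒪)) (kc_mul_self π e _) (X_mem_relK π e _)
      (signed_congr π e _) (redP π g) hg
    have h2 := map_relK_le π e h1
    rw [Ideal.mem_map_iff_of_surjective _ (redP_surjective π)] at h2
    obtain ⟨r, hr, hrg⟩ := h2
    have h3 : g - r ∈ Ideal.span {(MvPowerSeries.C ϖ : PP π)} := by
      apply mem_span_of_redP_eq_zero π hϖ
      rw [map_sub, hrg, sub_self]
    have h4 : g = r + (g - r) := by ring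
    rw [h4]
    exact Submodule.add_mem_sup hr h3

/-- parameters of the special fibre -/
noncomputable def prm : (π.S × Fin 3) ⊕ π.X ⊕ Fin π.g → PP π
  | Sum.inl (t, i) => if e (Sum.inl t) = true then
      ![vf π t 0, vf π t 1 + vs π t 2, vf π t 2 + vs π t 1] i else vf π t i
  | Sum.inr (Sum.inl t) => if e (Sum.inr t) = true then vn π t else vx π t
  | Sum.inr (Sum.inr j) => vy π j

theorem dim_special {ϖ : 𝒪} (hϖ : Irreducible ϖ) (J : Ideal (PP π)) [hJ : J.IsPrime]
    (hrel : Rel π e ≤ J) (hϖJ : MvPowerSeries.C ϖ ∈ J) :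
    ringKrullDim (PP π ⧸ J) ≤ ((3 * Fintype.card π.S + Fintype.card π.X + π.g : ℕ) : WithBot ℕ∞) := by
  classical
  have hXm : ∀ v, (MvPowerSeries.X v : PP π) ∈ maximalIdeal (PP π) :=
    fun v => DefRing.X_mem_maximalIdeal v
  have hcard : (Finset.univ.image (prm π e)).card ≤
      3 * Fintype.card π.S + Fintype.card π.X + π.g := by
    refine Finset.card_image_le.trans ?_
    rw [Finset.card_univ]
    simp only [Fintype.card_sum, Fintype.card_prod, Fintype.card_fin]
    omega
  refine (ringKrullDim_le_of_params J (Finset.univ.image (prm π e)) ?_ ?_).trans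
    (by exact_mod_cast hcard)
  · intro x hx
    rw [Finset.mem_image] at hx
    obtain ⟨o, -, rfl⟩ := hx
    match o with
    | Sum.inl (t, i) =>
      rw [prm]
      split_ifs
      · fin_cases i
        · exact hXm _
        · exact Ideal.add_mem _ (hXm _) (hXm _)
        · exact Ideal.add_mem _ (hXm _) (hXm _)
      · exact hXm _
    | Sum.inr (Sum.inl t) =>
      rw [prm]
      split_ifs <;> exact hXm _
    | Sum.inr (Sum.inr j) => exact hXm _
  · intro q hq hJq hSq
    have hpar : ∀ o, prm π e o ∈ q := fun o =>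
      hSq _ (Finset.mem_image_of_mem _ (Finset.mem_univ _))
    have hϖq : (MvPowerSeries.C ϖ : PP π) ∈ q := hJq hϖJ
    have hmq : ∀ a ∈ maximalIdeal 𝒪, (MvPowerSeries.C a : PP π) ∈ q := by
      intro a ha
      rw [hϖ.maximalIdeal_eq, Ideal.mem_span_singleton'] at ha
      obtain ⟨a', rfl⟩ := ha
      rw [map_mul]
      exact Ideal.mul_mem_left _ _ hϖq
    apply Patch.eq_maximalIdeal_of_mem
    · exact hmq
    · have hscalar : ∀ t : π.S, (∀ i, vf π t i ∈ q) ∧ ∀ i, vs π t i ∈ q := by
        intro t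
        cases he : e (Sum.inl t)
        · refine ⟨fun i => ?_, fun i => ?_⟩
          · have := hpar (Sum.inl (t, i))
            rw [prm, if_neg (by rw [he]; simp)] at this
            exact this
          · exact hJq (hrel (Ideal.subset_span (Or.inl (Or.inl (Or.inl (Or.inl ⟨t, i, he, rfl⟩))))))
        · have hst : ∀ l, stRel (MvPowerSeries.C (π.h t)) (vf π t) (vs π t) l ∈ q := fun l =>
            hJq (hrel (Ideal.subset_span (Or.inl (Or.inl (Or.inl (Or.inr ⟨t, l, he, rfl⟩))))))
          have hh := hmq _ (π.h_mem t)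
          have h0 := hst 0
          have h1 := hst 1
          have h2 := hst 2
          have h3 := hst 3
          have h4 := hst 4
          have h5 := hst 5
          simp only [stRel, Matrix.cons_val, Matrix.cons_val_zero, Matrix.cons_val_one] at h0 h1 h2 h3 h4 h5
          have m01 : vf π t 0 * vs π t 1 - vf π t 1 * vs π t 0 ∈ q := by
            have := Ideal.add_mem _ h3 (Ideal.mul_mem_right (vs π t 1) _ hh)
            convert this using 1; ring
          have m20 : vf π t 2 * vs π t 0 - vf π t 0 * vs π t 2 ∈ q := by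
            have := Ideal.add_mem _ h4 (Ideal.mul_mem_right (vs π t 2) _ hh)
            convert this using 1; ring
          have m12 : vf π t 1 * vs π t 2 - vf π t 2 * vs π t 1 ∈ q := by
            have := Ideal.add_mem _ (Ideal.sub_mem _ h2 h5)
              (Ideal.mul_mem_right (2 * vs π t 0) _ hh)
            convert this using 1; ring
          have hm : ∀ i j, vf π t i * vs π t j - vf π t j * vs π t i ∈ q := by
            intro i j
            have a01 := neg_mem m01
            have a20 := neg_mem m20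
            have a12 := neg_mem m12
            rw [neg_sub] at a01 a20 a12
            fin_cases i <;> fin_cases j
            · simp
            · exact m01
            · exact a20
            · exact a01
            · simp
            · exact m12
            · exact m20
            · exact a12
            · simp
          have p0 := hpar (Sum.inl (t, 0))
          have p1 := hpar (Sum.inl (t, 1))
          have p2 := hpar (Sum.inl (t, 2))
          rw [prm, if_pos he] at p0 p1 p2
          exact Patch.block_zero q _ _ hm h0 p0 p1 p2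
      rintro (⟨t, b, i⟩ | ⟨t, j⟩ | j)
      · cases b
        · exact (hscalar t).1 i
        · exact (hscalar t).2 i
      · have hb : vb π t ∈ q := hJq (hrel (Ideal.subset_span (Or.inr ⟨t, rfl⟩)))
        have hp := hpar (Sum.inr (Sum.inl t))
        cases he : e (Sum.inr t)
        · have hn : vn π t ∈ q := hJq (hrel (Ideal.subset_span
            (Or.inl (Or.inl (Or.inr ⟨t, he, rfl⟩)))))
          rw [prm, if_neg (by rw [he]; simp)] at hp
          fin_cases j
          · exact hp
          · exact hn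
          · exact hb
        · have hx : vx π t ∈ q := hJq (hrel (Ideal.subset_span (Or.inl (Or.inr ⟨t, he, rfl⟩))))
          rw [prm, if_pos he] at hp
          fin_cases j
          · exact hx
          · exact hp
          · exact hb
      · exact hpar (Sum.inr (Sum.inr j))

end

/-- **(C1)** -/
theorem compStmt : CompStmt := by
  intro 𝒪 _ _ _ _ _ π e q hq hrel hC hdim q' hq' hrel'
  refine le_trans ?_ hrel'
  obtain ⟨ϖ, hϖ⟩ := IsDiscreteValuationRing.exists_irreducible 𝒪
  obtain ⟨J, hJ, hJrel, hϖJ, hJle⟩ := exists_special π e hϖ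
  have hϖq : (MvPowerSeries.C ϖ : PP π) ∉ q := fun h => hϖ.ne_zero (hC ϖ h)
  have hϖm : (MvPowerSeries.C ϖ : PP π) ∈ maximalIdeal (PP π) := by
    rw [mem_maximalIdeal, mem_nonunits_iff, MvPowerSeries.isUnit_iff_constantCoeff,
      MvPowerSeries.constantCoeff_C]
    exact hϖ.not_isUnit
  have hDdim := dim_special π e hϖ J hJrel hϖJ
  set q₁ : Ideal (PP π) := q ⊔ Ideal.span {MvPowerSeries.C ϖ} with hq₁
  have hJq₁ : J ≤ q₁ := hJle.trans (sup_le_sup_right hrel _)
  -- `q₁ = J` by dimension
  have hq₁J : q₁ ≤ J := by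
    by_contra hne
    obtain ⟨x, hx, hxJ⟩ := SetLike.not_le_iff_exists.mp hne
    have h1 : ringKrullDim (PP π ⧸ q₁) + 1 ≤ ringKrullDim (PP π ⧸ J) := by
      refine ringKrullDim_succ_le_of_surjective (Ideal.Quotient.factor hJq₁)
        (Ideal.Quotient.factor_surjective hJq₁) (r := Ideal.Quotient.mk _ x) ?_ ?_
      · rw [mem_nonZeroDivisors_iff_ne_zero]
        intro h0
        exact hxJ ((Ideal.Quotient.eq_zero_iff_mem).mp h0)
      · rw [Ideal.Quotient.factor_mk]
        exact (Ideal.Quotient.eq_zero_iff_mem).mpr hx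
    have hloc : IsLocalRing (PP π ⧸ q) :=
      IsLocalRing.of_surjective' (Ideal.Quotient.mk q) Ideal.Quotient.mk_surjective
    have h2 : ringKrullDim (PP π ⧸ q) ≤ ringKrullDim (PP π ⧸ q₁) + 1 := by
      rw [← IsLocalRing.maximalIdeal_height_eq_ringKrullDim]
      have h3 : Ideal.Quotient.mk q (MvPowerSeries.C ϖ) ∈ maximalIdeal (PP π ⧸ q) := by
        have h4 : IsLocalHom (Ideal.Quotient.mk q) :=
          IsLocalHom.of_surjective _ Ideal.Quotient.mk_surjective
        exact map_nonunit (Ideal.Quotient.mk q) _ hϖm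
      refine (Ideal.height_le_ringKrullDim_quotient_add_one h3).trans ?_
      gcongr
      have hle : q₁ ≤ RingHom.ker ((Ideal.Quotient.mk (Ideal.span
          {Ideal.Quotient.mk q (MvPowerSeries.C ϖ)})).comp (Ideal.Quotient.mk q)) := by
        rw [hq₁, sup_le_iff]
        constructor
        · intro y hy
          rw [RingHom.mem_ker, RingHom.comp_apply, Ideal.Quotient.eq_zero_iff_mem.mpr hy, map_zero]
        · rw [Ideal.span_singleton_le_iff_mem, RingHom.mem_ker, RingHom.comp_apply,
            Ideal.Quotient.eq_zero_iff_mem]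
          exact Ideal.mem_span_singleton_self _
      exact ringKrullDim_le_of_surjective (Ideal.Quotient.lift q₁ _ hle)
        (Ideal.Quotient.lift_surjective_of_surjective _ _
          (Ideal.Quotient.mk_surjective.comp Ideal.Quotient.mk_surjective))
    have h3 := h1.trans hDdim
    have h4 := hdim.trans h2
    have h5 : ringKrullDim (PP π ⧸ q₁) + 1 + 1 ≤
        ((3 * Fintype.card π.S + Fintype.card π.X + π.g : ℕ) : WithBot ℕ∞) + 1 := by gcongr
    have h6 : ((3 * Fintype.card π.S + Fintype.card π.X + π.g + 1 : ℕ) : WithBot ℕ∞) ≤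
        ((3 * Fintype.card π.S + Fintype.card π.X + π.g : ℕ) : WithBot ℕ∞) := h4.trans h3
    have h7 : 3 * Fintype.card π.S + Fintype.card π.X + π.g + 1 ≤
      3 * Fintype.card π.S + Fintype.card π.X + π.g := by exact_mod_cast h6
    omega
  -- Nakayama
  have h1 : q ≤ Rel π e ⊔ Ideal.span {(MvPowerSeries.C ϖ : PP π)} • q := by
    intro x hx
    have h2 : x ∈ Rel π e ⊔ Ideal.span {MvPowerSeries.C ϖ} :=
      hJle (hq₁J (Ideal.mem_sup_left hx))
    obtain ⟨a, ha, b, hb, rfl⟩ := Submodule.mem_sup.mp h2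
    rw [Ideal.mem_span_singleton'] at hb
    obtain ⟨y, rfl⟩ := hb
    have h3 : y * MvPowerSeries.C ϖ ∈ q := by
      have := Ideal.sub_mem _ hx (hrel ha)
      simpa using this
    have h4 : y ∈ q := (hq.mem_or_mem h3).resolve_right hϖq
    refine Submodule.add_mem_sup ha ?_
    rw [mul_comm]
    exact Submodule.smul_mem_smul (Ideal.mem_span_singleton_self _) h4
  refine Submodule.le_of_le_smul_of_le_jacobson_bot (IsNoetherian.noetherian q) ?_ h1
  rw [IsLocalRing.jacobson_eq_maximalIdeal _ bot_ne_top, Ideal.span_singleton_le_iff_mem]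
  exact hϖm

end Fermat.Agent.Supp
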