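import Fermat.Agent.Supp.Main
import Fermat.Agent.Supp.Comp

/-!
# The main theorem of the support argument, unconditional
-/

set_option autoImplicit false

namespace Fermat.Agent.Supp

theorem chainMain : ChainMain := chain_main compStmt

end Fermat.Agent.Supp
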