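import Mathlib
import Fermat.Agent.Patch.Core

/-!
# Supports: commutative algebra
-/

set_option autoImplicit false

namespace Fermat.Agent.Supp

open IsLocalRing Polynomial

/-- Cayley--Hamilton: an element which maps a finite module into `η M` lies in `η`. -/
theorem mem_of_smul_le {P M : Type*} [CommRing P] [AddCommGroup M] [Module P M] [Module.Finite P M]
    (η : Ideal P) [hη : η.IsPrime] (hann : Module.annihilator P M ≤ η) (a : P)
    (ha : ∀ v : M, a • v ∈ η • (⊤ : Submodule P M)) : a ∈ η := by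
  obtain ⟨q, hq, -, hc, h0⟩ :=
    LinearMap.exists_monic_and_natDegree_eq_and_coeff_mem_pow_and_aeval_eq_zero P
      (algebraMap P (Module.End P M) a) η (by
        rintro _ ⟨v, rfl⟩
        exact ha v)
  have h1 : q.eval a ∈ Module.annihilator P M := by
    rw [Module.mem_annihilator]
    intro v
    have h2 : aeval (algebraMap P (Module.End P M) a) q = algebraMap P (Module.End P M) (q.eval a) := by
      rw [aeval_algebraMap_apply, Polynomial.aeval_def, Algebra.algebraMap_self, eval₂_id]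
    rw [h2] at h0
    have := congrArg (fun f : Module.End P M => f v) h0
    simpa [Module.algebraMap_end_apply] using this
  have h2 : q.eval a ∈ η := hann h1
  have h3 : q.eval a - a ^ q.natDegree ∈ η := by
    rw [Polynomial.eval_eq_sum_range, Finset.sum_range_succ, hq.coeff_natDegree, one_mul,
      add_sub_cancel_right]
    refine Ideal.sum_mem _ fun k hk => Ideal.mul_mem_right _ _ ?_
    have hk' : q.natDegree - k ≠ 0 := by
      rw [Finset.mem_range] at hk; omega
    exact Ideal.pow_le_self hk' (hc k)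
  have h4 : a ^ q.natDegree ∈ η := by
    have := Ideal.sub_mem _ h2 h3
    simpa using this
  exact hη.mem_of_pow_mem _ h4

/-- **KEY lemma.** -/
theorem key {P M M' : Type*} [CommRing P] [AddCommGroup M] [Module P M] [AddCommGroup M']
    [Module P M'] [Module.Finite P M'] (τ : Fin 2 → M → M') (β : Fin 2 → M' → M)
    (A : Matrix (Fin 2) (Fin 2) P)
    (hτ : ∀ k (a : P) v, τ k (a • v) = a • τ k v)
    (hτadd : ∀ k v w, τ k (v + w) = τ k v + τ k w)
    (hτβ : ∀ k l v, τ k (β l v) = A k l • v) (hsurj : ∀ v w, ∃ z, τ 0 z = v ∧ τ 1 z = w)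
    (η : Ideal P) [hη : η.IsPrime] (hann : Module.annihilator P M' ≤ η) (hdet : A.det ∈ η)
    (s : P) (hs : ∀ v : M, ∃ v₀ v₁, s • v = β 0 v₀ + β 1 v₁) : s ∈ η := by
  by_contra hsη
  -- `s w ∈ A M'²`
  have h1 : ∀ w₀ w₁ : M', ∃ v₀ v₁ : M', s • w₀ = A 0 0 • v₀ + A 0 1 • v₁ ∧
      s • w₁ = A 1 0 • v₀ + A 1 1 • v₁ := by
    intro w₀ w₁
    obtain ⟨z, hz0, hz1⟩ := hsurj w₀ w₁
    obtain ⟨v₀, v₁, hv⟩ := hs z
    refine ⟨v₀, v₁, ?_, ?_⟩
    · rw [← hz0, ← hτ, hv, hτadd, hτβ, hτβ]
    · rw [← hz1, ← hτ, hv, hτadd, hτβ, hτβ]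
  have hdet' : A 0 0 * A 1 1 - A 0 1 * A 1 0 ∈ η := by rwa [Matrix.det_fin_two] at hdet
  have hM : ∀ v : M', (A 0 0 * A 1 1 - A 0 1 * A 1 0) • v ∈ η • (⊤ : Submodule P M') := fun v =>
    Submodule.smul_mem_smul hdet' trivial
  have h11 : A 1 1 ∈ η := by
    refine (hη.mem_or_mem (mem_of_smul_le η hann (s * A 1 1) fun v => ?_)).resolve_left hsη
    obtain ⟨v₀, v₁, e0, e1⟩ := h1 v 0
    have : (s * A 1 1) • v = (A 0 0 * A 1 1 - A 0 1 * A 1 0) • v₀ := by
      have e1' : A 1 1 • v₁ = -(A 1 0 • v₀) := by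
        rw [smul_zero] at e1
        exact eq_neg_of_add_eq_zero_right e1.symm
      rw [mul_comm, mul_smul, e0, smul_add, sub_smul, mul_comm (A 0 0), mul_smul, mul_smul,
        smul_comm (A 1 1) (A 0 1), e1', smul_neg, sub_eq_add_neg]
    rw [this]; exact hM _
  have h10 : A 1 0 ∈ η := by
    refine (hη.mem_or_mem (mem_of_smul_le η hann (s * A 1 0) fun v => ?_)).resolve_left hsη
    obtain ⟨v₀, v₁, e0, e1⟩ := h1 v 0
    have : (s * A 1 0) • v = -((A 0 0 * A 1 1 - A 0 1 * A 1 0) • v₁) := by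
      have e1' : A 1 0 • v₀ = -(A 1 1 • v₁) := by
        rw [smul_zero] at e1
        exact eq_neg_of_add_eq_zero_left e1.symm
      rw [mul_comm, mul_smul, e0, smul_add, smul_comm (A 1 0) (A 0 0), e1', smul_neg, sub_smul,
        mul_smul, smul_smul (A 1 0), mul_comm (A 1 0), neg_sub, neg_add_eq_sub]
    rw [this]; exact Submodule.neg_mem _ (hM _)
  have h01 : A 0 1 ∈ η := by
    refine (hη.mem_or_mem (mem_of_smul_le η hann (s * A 0 1) fun v => ?_)).resolve_left hsη
    obtain ⟨v₀, v₁, e0, e1⟩ := h1 0 v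
    have : (s * A 0 1) • v = -((A 0 0 * A 1 1 - A 0 1 * A 1 0) • v₀) := by
      have e0' : A 0 1 • v₁ = -(A 0 0 • v₀) := by
        rw [smul_zero] at e0
        exact eq_neg_of_add_eq_zero_right e0.symm
      rw [mul_comm, mul_smul, e1, smul_add, smul_comm (A 0 1) (A 1 1), e0', smul_neg, sub_smul,
        mul_comm (A 0 0), mul_smul, mul_smul, neg_sub, sub_eq_add_neg]
    rw [this]; exact Submodule.neg_mem _ (hM _)
  have h00 : A 0 0 ∈ η := by
    refine (hη.mem_or_mem (mem_of_smul_le η hann (s * A 0 0) fun v => ?_)).resolve_left hsη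
    obtain ⟨v₀, v₁, e0, e1⟩ := h1 0 v
    have : (s * A 0 0) • v = (A 0 0 * A 1 1 - A 0 1 * A 1 0) • v₁ := by
      have e0' : A 0 0 • v₀ = -(A 0 1 • v₁) := by
        rw [smul_zero] at e0
        exact eq_neg_of_add_eq_zero_left e0.symm
      rw [mul_comm, mul_smul, e1, smul_add, smul_comm (A 0 0) (A 1 0), e0', smul_neg, sub_smul,
        mul_comm (A 0 1), mul_smul, mul_smul, neg_add_eq_sub]
    rw [this]; exact hM _
  refine hsη (mem_of_smul_le η hann s fun v => ?_)
  obtain ⟨v₀, v₁, e0, -⟩ := h1 v 0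
  rw [e0]
  exact Submodule.add_mem _ (Submodule.smul_mem_smul h00 trivial)
    (Submodule.smul_mem_smul h01 trivial)

section

variable {Λ P M : Type*} [CommRing Λ] [IsDomain Λ] [CommRing P] [Algebra Λ P]
  [AddCommGroup M] [Module Λ M] [Module P M] [IsScalarTower Λ P M]

/-- A prime containing the annihilator of a finite torsion-free `Λ`-module contains a prime of full
dimension. -/
theorem exists_minprime [Module.Finite Λ M] (htf : ∀ s : Λ, s ≠ 0 → ∀ v : M, s • v = 0 → v = 0)
    (η : Ideal P) [hη : η.IsPrime] (hann : Module.annihilator P M ≤ η) :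
    ∃ Q : Ideal P, Q.IsPrime ∧ Module.annihilator P M ≤ Q ∧ Q ≤ η ∧
      (∀ s : Λ, algebraMap Λ P s ∈ Q → s = 0) ∧ ringKrullDim Λ ≤ ringKrullDim (P ⧸ Q) := by
  obtain ⟨Q, hQmin, hQη⟩ := Ideal.exists_minimalPrimes_le hann
  have hQ : Q.IsPrime := hQmin.1.1
  have hle : Module.annihilator P M ≤ Q := hQmin.1.2
  have h0 : ∀ s : Λ, algebraMap Λ P s ∈ Q → s = 0 := by
    intro s hs
    by_contra hs0
    refine IsSMulRegular.notMem_of_mem_minimalPrimes (M := M) (x := algebraMap Λ P s) ?_ hQmin hs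
    intro v w hvw
    simp only [algebraMap_smul] at hvw
    have : s • (v - w) = 0 := by rw [smul_sub, hvw, sub_self]
    exact sub_eq_zero.mp (htf s hs0 _ this)
  refine ⟨Q, hQ, hle, hQη, h0, ?_⟩
  have hinj : Function.Injective (algebraMap Λ (P ⧸ Q)) := by
    rw [injective_iff_map_eq_zero]
    intro s hs
    exact h0 s (Ideal.Quotient.eq_zero_iff_mem.mp hs)
  have hint : Algebra.IsIntegral Λ (P ⧸ Q) := by
    constructor
    intro x
    obtain ⟨f, rfl⟩ := Ideal.Quotient.mk_surjective x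
    obtain ⟨q, hq, hq0⟩ := LinearMap.exists_monic_and_aeval_eq_zero Λ
      (((Module.toModuleEnd Λ (S := P) M) f : Module.End Λ M))
    refine ⟨q, hq, ?_⟩
    have h1 : aeval f q ∈ Module.annihilator P M := by
      rw [Module.mem_annihilator]
      intro v
      have h2 : ∀ q : Λ[X], ∀ v : M, (aeval f q) • v =
          (aeval (((Module.toModuleEnd Λ (S := P) M) f : Module.End Λ M)) q) v := by
        intro q
        induction q using Polynomial.induction_on' with
        | add a b ha hb =>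
          intro v
          rw [map_add, add_smul, ha, hb, map_add, LinearMap.add_apply]
        | monomial n a =>
          intro v
          rw [aeval_monomial, aeval_monomial, mul_smul, algebraMap_smul, Module.End.mul_apply,
            Module.algebraMap_end_apply]
          congr 1
          rw [← map_pow]
          rfl
      rw [h2, hq0]
      rfl
    have h3 : aeval (Ideal.Quotient.mk Q f) q = Ideal.Quotient.mk Q (aeval f q) := by
      have := Polynomial.aeval_algHom_apply (Ideal.Quotient.mkₐ Λ Q) f q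
      exact this
    rw [← aeval_def, h3]
    exact Ideal.Quotient.eq_zero_iff_mem.mpr (hle h1)
  exact Patch.dim_le_of_integral hinj

end

end Fermat.Agent.Supp
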