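import Fermat.Agent.Supp.Spec
import Fermat.Agent.Patch.Toric

/-!
# Monomials modulo the Steinberg relations (special fibre)
-/

set_option autoImplicit false

namespace Fermat.Agent.Supp

open MvPolynomial

section

variable {Q : Type*} [CommRing Q] (f s : Fin 3 → Q)

/-- the variables of a block -/
def gvar (v : Bool × Fin 3) : Q := if v.1 then s v.2 else f v.2

theorem gvar_false (i : Fin 3) : gvar f s (false, i) = f i := rfl
theorem gvar_true (i : Fin 3) : gvar f s (true, i) = s i := rfl

/-- value of a monomial -/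
noncomputable def bval (m : Bool × Fin 3 →₀ ℕ) : Q :=
  aeval (R := ℤ) (gvar f s) (monomial m (1 : ℤ))

theorem bval_add (m m' : Bool × Fin 3 →₀ ℕ) : bval f s (m + m') = bval f s m * bval f s m' := by
  rw [bval, bval, bval, ← map_mul, monomial_mul, one_mul]

theorem bval_single (v : Bool × Fin 3) : bval f s (Finsupp.single v 1) = gvar f s v := by
  rw [bval]
  exact aeval_X _ _

theorem bval_eq_prod (m : Bool × Fin 3 →₀ ℕ) : bval f s m = ∏ v, gvar f s v ^ m v := by
  rw [bval, aeval_monomial, map_one, one_mul, Finsupp.prod_fintype _ _ (fun v => pow_zero _)]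

variable {f s}

/-- minors -/
theorem minor_of_stRel (h : ∀ k, stRel 0 f s k = 0) (i j : Fin 3) :
    f i * s j - f j * s i = 0 := by
  have h2 := h 2
  have h3 := h 3
  have h4 := h 4
  have h5 := h 5
  simp only [stRel, Matrix.cons_val, zero_mul, sub_zero, add_zero] at h2 h3 h4 h5
  fin_cases i <;> fin_cases j <;> simp <;> grind

theorem bval_eq_of_kexp (h : ∀ k, stRel 0 f s k = 0) {m m' : Bool × Fin 3 →₀ ℕ}
    (hm : Patch.kexp m = Patch.kexp m') : bval f s m = bval f s m' := by
  have h1 := Patch.monomial_sub_mem ℤ _ m m' hm rfl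
  have h2 : Patch.minorsIdeal ℤ ≤ RingHom.ker (aeval (R := ℤ) (gvar f s)) := by
    rw [Patch.minorsIdeal, Ideal.span_le]
    rintro _ ⟨⟨i, j⟩, rfl⟩
    show aeval (gvar f s) _ = 0
    rw [map_sub, map_mul, map_mul, aeval_X, aeval_X, aeval_X, aeval_X]
    exact minor_of_stRel h i j
  have h3 := h2 h1
  rw [RingHom.mem_ker, map_sub, sub_eq_zero] at h3
  exact h3

/-- number of letters `i` -/
def cnt (m : Bool × Fin 3 →₀ ℕ) (i : Fin 3) : ℕ := m (false, i) + m (true, i)

/-- one reduction step -/
theorem exists_reduce (h : ∀ k, stRel 0 f s k = 0) (m : Bool × Fin 3 →₀ ℕ) (hm : 2 ≤ cnt m 0) :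
    ∃ m₁ : Bool × Fin 3 →₀ ℕ, (∀ b, ∑ i, m₁ (b, i) = ∑ i, m (b, i)) ∧ cnt m₁ 0 + 2 = cnt m 0 ∧
      cnt m₁ 1 = cnt m 1 + 1 ∧ bval f s m₁ = - bval f s m := by
  have h0 := h 0
  have h1 := h 1
  have h2 := h 2
  simp only [stRel, Matrix.cons_val, Matrix.cons_val_zero, Matrix.cons_val_one, zero_mul, sub_zero,
    add_zero, ne_eq, OfNat.ofNat_ne_zero, not_false_eq_true, zero_pow] at h0 h1 h2
  have key : ∀ (u v u' v' : Bool × Fin 3) (r : Bool × Fin 3 →₀ ℕ),
      m = r + (Finsupp.single u 1 + Finsupp.single v 1) →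
      gvar f s u' * gvar f s v' = - (gvar f s u * gvar f s v) →
      bval f s (r + (Finsupp.single u' 1 + Finsupp.single v' 1)) = - bval f s m := by
    intro u v u' v' r hr hg
    rw [hr, bval_add, bval_add, bval_add, bval_add, bval_single, bval_single, bval_single,
      bval_single, hg]
    ring
  rw [cnt] at hm
  by_cases c1 : 2 ≤ m (false, 0)
  · set r : Bool × Fin 3 →₀ ℕ := m - (Finsupp.single (false, 0) 1 + Finsupp.single (false, 0) 1)
    have hr : m = r + (Finsupp.single (false, 0) 1 + Finsupp.single (false, 0) 1) := by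
      rw [tsub_add_cancel_of_le]
      rw [← Finsupp.single_add, Finsupp.single_le_iff]
      exact c1
    refine ⟨r + (Finsupp.single (false, 1) 1 + Finsupp.single (false, 2) 1), ?_, ?_, ?_,
      key _ _ _ _ r hr ?_⟩
    · intro b
      conv_rhs => rw [hr]
      rw [Fin.sum_univ_three, Fin.sum_univ_three]
      cases b <;> simp [Finsupp.single_apply] <;> omega
    · conv_rhs => rw [hr]
      simp [cnt, Finsupp.single_apply]; omega
    · conv_rhs => rw [hr]
      simp [cnt, Finsupp.single_apply]; omega
    · simp only [gvar_false]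
      linear_combination h1
  by_cases c2 : 2 ≤ m (true, 0)
  · set r : Bool × Fin 3 →₀ ℕ := m - (Finsupp.single (true, 0) 1 + Finsupp.single (true, 0) 1)
    have hr : m = r + (Finsupp.single (true, 0) 1 + Finsupp.single (true, 0) 1) := by
      rw [tsub_add_cancel_of_le]
      rw [← Finsupp.single_add, Finsupp.single_le_iff]
      exact c2
    refine ⟨r + (Finsupp.single (true, 1) 1 + Finsupp.single (true, 2) 1), ?_, ?_, ?_,
      key _ _ _ _ r hr ?_⟩
    · intro b
      conv_rhs => rw [hr]
      rw [Fin.sum_univ_three, Fin.sum_univ_three]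
      cases b <;> simp [Finsupp.single_apply] <;> omega
    · conv_rhs => rw [hr]
      simp [cnt, Finsupp.single_apply]; omega
    · conv_rhs => rw [hr]
      simp [cnt, Finsupp.single_apply]; omega
    · simp only [gvar_true]
      linear_combination h0
  · set r : Bool × Fin 3 →₀ ℕ := m - (Finsupp.single (false, 0) 1 + Finsupp.single (true, 0) 1)
    have hr : m = r + (Finsupp.single (false, 0) 1 + Finsupp.single (true, 0) 1) := by
      rw [tsub_add_cancel_of_le]
      intro v
      rw [Finsupp.add_apply]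
      by_cases hv : v = (false, 0)
      · subst hv
        simp [Finsupp.single_apply]; omega
      · by_cases hv' : v = (true, 0)
        · subst hv'
          simp [Finsupp.single_apply]; omega
        · rw [Finsupp.single_eq_of_ne hv, Finsupp.single_eq_of_ne hv']
          omega
    refine ⟨r + (Finsupp.single (false, 1) 1 + Finsupp.single (true, 2) 1), ?_, ?_, ?_,
      key _ _ _ _ r hr ?_⟩
    · intro b
      conv_rhs => rw [hr]
      rw [Fin.sum_univ_three, Fin.sum_univ_three]
      cases b <;> simp [Finsupp.single_apply] <;> omega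
    · conv_rhs => rw [hr]
      simp [cnt, Finsupp.single_apply]; omega
    · conv_rhs => rw [hr]
      simp [cnt, Finsupp.single_apply]; omega
    · simp only [gvar_true, gvar_false]
      linear_combination h2

theorem bval_congr_aux (h : ∀ k, stRel 0 f s k = 0) (n : ℕ) :
    ∀ m m' : Bool × Fin 3 →₀ ℕ, cnt m 0 + cnt m' 0 = n →
      (∀ b, ∑ i, m (b, i) = ∑ i, m' (b, i)) →
      cnt m 0 + 2 * cnt m 1 = cnt m' 0 + 2 * cnt m' 1 →
      (-1) ^ cnt m 1 * bval f s m = (-1) ^ cnt m' 1 * bval f s m' := by
  induction n using Nat.strong_induction_on with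
  | _ n ih =>
    intro m m' hn hb hU
    by_cases h1 : 2 ≤ cnt m 0
    · obtain ⟨m₁, e1, e2, e3, e4⟩ := exists_reduce h m h1
      have h2 := ih (cnt m₁ 0 + cnt m' 0) (by omega) m₁ m' rfl
        (fun b => (e1 b).trans (hb b)) (by omega)
      rw [← h2, e4, e3]
      ring
    by_cases h1' : 2 ≤ cnt m' 0
    · obtain ⟨m₁, e1, e2, e3, e4⟩ := exists_reduce h m' h1'
      have h2 := ih (cnt m 0 + cnt m₁ 0) (by omega) m m₁ rfl
        (fun b => (hb b).trans (e1 b).symm) (by omega)
      rw [h2, e4, e3]
      ring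
    · have e0 : cnt m 0 = cnt m' 0 := by omega
      have e1 : cnt m 1 = cnt m' 1 := by omega
      have hf := hb false
      have ht := hb true
      rw [Fin.sum_univ_three, Fin.sum_univ_three] at hf ht
      have e2 : cnt m 2 = cnt m' 2 := by
        simp only [cnt] at e0 e1 ⊢
        omega
      have hk : Patch.kexp m = Patch.kexp m' := by
        ext x
        rcases x with i | b
        · rw [Patch.kexp_inl, Patch.kexp_inl]
          fin_cases i
          · exact e0
          · exact e1
          · exact e2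
        · rw [Patch.kexp_inr, Patch.kexp_inr]
          exact hb b
      rw [e1, bval_eq_of_kexp h hk]

/-- **Monomials with the same invariants agree up to sign modulo the Steinberg relations.** -/
theorem prod_congr_of_stRel (h : ∀ k, stRel 0 f s k = 0) (m m' : Bool × Fin 3 → ℕ)
    (hb : ∀ b, ∑ i, m (b, i) = ∑ i, m' (b, i))
    (hU : m (false, 0) + m (true, 0) + 2 * (m (false, 1) + m (true, 1)) =
      m' (false, 0) + m' (true, 0) + 2 * (m' (false, 1) + m' (true, 1))) :
    (-1) ^ (m (false, 1) + m (true, 1)) * ∏ v, gvar f s v ^ m v =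
      (-1) ^ (m' (false, 1) + m' (true, 1)) * ∏ v, gvar f s v ^ m' v := by
  have := bval_congr_aux h _ (Finsupp.equivFunOnFinite.symm m) (Finsupp.equivFunOnFinite.symm m')
    rfl hb hU
  rw [bval_eq_prod, bval_eq_prod] at this
  exact this

end

end Fermat.Agent.Supp
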