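import Fermat.Agent.Supp.ToricPS
import Fermat.Agent.Supp.BlockId

/-!
# The special fibre of a state is a domain
-/

set_option autoImplicit false

namespace Fermat.Agent.Supp

open MvPolynomial IsLocalRing

section

variable {𝒪 : Type} [CommRing 𝒪] [IsLocalRing 𝒪] (π : Params 𝒪) (e : π.S ⊕ π.X → Bool)

/-- target variables -/
abbrev Tau : Type := (π.S × Fin 4) ⊕ π.X ⊕ Fin π.g

/-- killed variables -/
def kD : Var π → Prop
  | Sum.inl (t, b, _) => b = true ∧ e (Sum.inl t) = false
  | Sum.inr (Sum.inl (t, j)) => j = 2 ∨ (j = 1 ∧ e (Sum.inr t) = false) ∨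
      (j = 0 ∧ e (Sum.inr t) = true)
  | Sum.inr (Sum.inr _) => False

/-- signs -/
def kc (k : Type*) [CommRing k] : Var π → k
  | Sum.inl (t, _, i) => if e (Sum.inl t) = true ∧ i = 1 then -1 else 1
  | Sum.inr _ => 1

/-- exponents of the coordinates of the nilpotent cone -/
noncomputable def kmu (t : π.S) : Fin 3 → (Tau π →₀ ℕ) := ![
  Finsupp.single (Sum.inl (t, 2)) 1 + Finsupp.single (Sum.inl (t, 3)) 1,
  Finsupp.single (Sum.inl (t, 2)) 2,
  Finsupp.single (Sum.inl (t, 3)) 2]

/-- target monomials -/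
noncomputable def kM : Var π → (Tau π →₀ ℕ)
  | Sum.inl (t, b, i) => if e (Sum.inl t) = true then
      Finsupp.single (Sum.inl (t, bif b then 1 else 0)) 1 + kmu π t i
      else Finsupp.single (Sum.inl (t, i.castSucc)) 1
  | Sum.inr (Sum.inl (t, _)) => Finsupp.single (Sum.inr (Sum.inl t)) 1
  | Sum.inr (Sum.inr j) => Finsupp.single (Sum.inr (Sum.inr j)) 1

/-- weights -/
def kω : Tau π → ℕ
  | Sum.inl (t, a) => if e (Sum.inl t) = true ∧ 2 ≤ a.val then 0 else 1
  | Sum.inr _ => 1

theorem wgt_kM (v : Var π) : wgt (kω π e) (kM π e v) = 1 := by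
  rcases v with ⟨t, b, i⟩ | ⟨t, j⟩ | j
  · rw [kM]
    split_ifs with h
    · rw [map_add, wgt_single]
      have h1 : wgt (kω π e) (kmu π t i) = 0 := by
        fin_cases i
        · simp [kmu, wgt_single, kω, h]
        · simp [kmu, wgt_single, kω, h]
        · simp [kmu, wgt_single, kω, h]
      rw [h1]
      cases b <;> simp [kω]
    · rw [wgt_single]
      simp [kω, h]
  · rw [kM, wgt_single]; simp [kω]
  · rw [kM, wgt_single]; simp [kω]

theorem kc_mul_self (k : Type*) [CommRing k] (v : Var π) : kc π e k v * kc π e k v = 1 := by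
  rcases v with ⟨t, b, i⟩ | v
  · rw [kc]; split_ifs <;> simp
  · rw [kc]; simp

/-- value of the exponent map at a target variable of a scalar block -/
theorem mexp_inl (m : Var π →₀ ℕ) (t : π.S) (a : Fin 4) :
    mexp (kM π e) m (Sum.inl (t, a)) =
      ∑ b : Bool, ∑ i : Fin 3, m (Sum.inl (t, b, i)) * kM π e (Sum.inl (t, b, i)) (Sum.inl (t, a)) := by
  classical
  rw [mexp, Finsupp.finsetSum_apply, Fintype.sum_sum_type, Fintype.sum_sum_type,
    Fintype.sum_prod_type]
  have h1 : ∀ v : π.X × Fin 3, (m (Sum.inr (Sum.inl v)) • kM π e (Sum.inr (Sum.inl v)))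
      (Sum.inl (t, a)) = 0 := by
    rintro ⟨t', j⟩
    rw [kM, Finsupp.smul_apply, Finsupp.single_eq_of_ne (by simp), smul_zero]
  have h2 : ∀ v : Fin π.g, (m (Sum.inr (Sum.inr v)) • kM π e (Sum.inr (Sum.inr v)))
      (Sum.inl (t, a)) = 0 := by
    intro j
    rw [kM, Finsupp.smul_apply, Finsupp.single_eq_of_ne (by simp), smul_zero]
  rw [Finset.sum_eq_zero (fun v _ => h1 v), Finset.sum_eq_zero (fun v _ => h2 v), add_zero,
    add_zero, Finset.sum_eq_single t, Fintype.sum_prod_type]
  · rfl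
  · intro t' _ ht
    rw [Finset.sum_eq_zero]
    rintro ⟨b, i⟩ _
    rw [Finsupp.smul_apply, kM]
    have hne : ∀ a', (Sum.inl (t, a) : Tau π) ≠ Sum.inl (t', a') := by
      intro a' h
      exact ht (Prod.mk.inj (Sum.inl.inj h)).1.symm
    split_ifs with h
    · rw [Finsupp.add_apply, Finsupp.single_eq_of_ne (hne _), kmu]
      fin_cases i
      · simp [Finsupp.single_eq_of_ne (hne _)]
      · simp [Finsupp.single_eq_of_ne (hne _)]
      · simp [Finsupp.single_eq_of_ne (hne _)]
    · rw [Finsupp.single_eq_of_ne (hne _), smul_zero]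
  · intro h
    exact absurd (Finset.mem_univ t) h

theorem mexp_inr_inl (m : Var π →₀ ℕ) (t : π.X) :
    mexp (kM π e) m (Sum.inr (Sum.inl t)) = ∑ j : Fin 3, m (Sum.inr (Sum.inl (t, j))) := by
  classical
  rw [mexp, Finsupp.finsetSum_apply, Fintype.sum_sum_type, Fintype.sum_sum_type,
    Fintype.sum_prod_type (f := fun v : π.X × Fin 3 => _)]
  have h1 : ∀ v : π.S × Bool × Fin 3, (m (Sum.inl v) • kM π e (Sum.inl v))
      (Sum.inr (Sum.inl t)) = 0 := by
    rintro ⟨t', b, i⟩
    rw [kM, Finsupp.smul_apply]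
    split_ifs with h
    · rw [Finsupp.add_apply, Finsupp.single_eq_of_ne (by simp), kmu]
      fin_cases i
      · simp
      · simp
      · simp
    · rw [Finsupp.single_eq_of_ne (by simp), smul_zero]
  have h2 : ∀ v : Fin π.g, (m (Sum.inr (Sum.inr v)) • kM π e (Sum.inr (Sum.inr v)))
      (Sum.inr (Sum.inl t)) = 0 := by
    intro j
    rw [kM, Finsupp.smul_apply, Finsupp.single_eq_of_ne (by simp), smul_zero]
  rw [Finset.sum_eq_zero (fun v _ => h1 v), Finset.sum_eq_zero (fun v _ => h2 v), add_zero,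
    zero_add, Finset.sum_eq_single t]
  · refine Finset.sum_congr rfl fun j _ => ?_
    rw [kM, Finsupp.smul_apply, Finsupp.single_eq_same, smul_eq_mul, mul_one]
  · intro t' _ ht
    rw [Finset.sum_eq_zero]
    intro j _
    rw [kM, Finsupp.smul_apply, Finsupp.single_eq_of_ne, smul_zero]
    intro h
    exact ht (Sum.inl.inj (Sum.inr.inj h)).symm
  · intro h
    exact absurd (Finset.mem_univ t) h

theorem mexp_inr_inr (m : Var π →₀ ℕ) (j : Fin π.g) :
    mexp (kM π e) m (Sum.inr (Sum.inr j)) = m (Sum.inr (Sum.inr j)) := by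
  classical
  rw [mexp, Finsupp.finsetSum_apply, Fintype.sum_sum_type, Fintype.sum_sum_type]
  have h1 : ∀ v : π.S × Bool × Fin 3, (m (Sum.inl v) • kM π e (Sum.inl v))
      (Sum.inr (Sum.inr j)) = 0 := by
    rintro ⟨t', b, i⟩
    rw [kM, Finsupp.smul_apply]
    split_ifs with h
    · rw [Finsupp.add_apply, Finsupp.single_eq_of_ne (by simp), kmu]
      fin_cases i
      · simp
      · simp
      · simp
    · rw [Finsupp.single_eq_of_ne (by simp), smul_zero]
  have h2 : ∀ v : π.X × Fin 3, (m (Sum.inr (Sum.inl v)) • kM π e (Sum.inr (Sum.inl v)))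
      (Sum.inr (Sum.inr j)) = 0 := by
    rintro ⟨t', j'⟩
    rw [kM, Finsupp.smul_apply, Finsupp.single_eq_of_ne (by simp), smul_zero]
  rw [Finset.sum_eq_zero (fun v _ => h1 v), Finset.sum_eq_zero (fun v _ => h2 v), zero_add,
    zero_add, Finset.sum_eq_single j]
  · rw [kM, Finsupp.smul_apply, Finsupp.single_eq_same, smul_eq_mul, mul_one]
  · intro j' _ hj
    rw [kM, Finsupp.smul_apply, Finsupp.single_eq_of_ne, smul_zero]
    intro h
    exact hj (Sum.inr.inj (Sum.inr.inj h)).symm
  · intro h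
    exact absurd (Finset.mem_univ j) h

/-! ### the relations over a ring -/

variable (k : Type*) [CommRing k]

/-- relations in the polynomial ring -/
noncomputable def relK : Ideal (MvPolynomial (Var π) k) := Ideal.span
  ({z | ∃ t i, e (Sum.inl t) = false ∧ z = X (Sum.inl (t, true, i))} ∪
   {z | ∃ t l, e (Sum.inl t) = true ∧ z = stRel 0 (fun i => X (Sum.inl (t, false, i)))
      (fun i => X (Sum.inl (t, true, i))) l} ∪
   {z | ∃ t, e (Sum.inr t) = false ∧ z = X (Sum.inr (Sum.inl (t, 1)))} ∪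
   {z | ∃ t, e (Sum.inr t) = true ∧ z = X (Sum.inr (Sum.inl (t, 0)))} ∪
   {z | ∃ t, z = X (Sum.inr (Sum.inl (t, 2)))})

theorem X_mem_relK (v : Var π) (hv : kD π e v) : X v ∈ relK π e k := by
  apply Ideal.subset_span
  rcases v with ⟨t, b, i⟩ | ⟨t, j⟩ | j
  · obtain ⟨rfl, h⟩ := hv
    exact Or.inl (Or.inl (Or.inl (Or.inl ⟨t, i, h, rfl⟩)))
  · rcases hv with rfl | ⟨rfl, h⟩ | ⟨rfl, h⟩
    · exact Or.inr ⟨t, rfl⟩
    · exact Or.inl (Or.inl (Or.inr ⟨t, h, rfl⟩))
    · exact Or.inl (Or.inr ⟨t, h, rfl⟩)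
  · exact hv.elim

theorem map_stRel {A B : Type*} [CommRing A] [CommRing B] (φ : A →+* B) (h : A) (f s : Fin 3 → A)
    (l : Fin 6) : φ (stRel h f s l) = stRel (φ h) (fun i => φ (f i)) (fun i => φ (s i)) l := by
  fin_cases l <;> simp [stRel]

theorem mk_signed (m : Var π →₀ ℕ) :
    Ideal.Quotient.mk (relK π e k) (MvPolynomial.C (msgn (kc π e k) m) * monomial m 1) =
      ∏ v, (kc π e (MvPolynomial (Var π) k ⧸ relK π e k) v *
        Ideal.Quotient.mk (relK π e k) (X v)) ^ m v := by
  rw [map_mul, msgn, map_prod, map_prod, monomial_eq, map_one, one_mul,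
    Finsupp.prod_fintype _ _ (fun v => pow_zero _), map_prod, ← Finset.prod_mul_distrib]
  refine Finset.prod_congr rfl fun v _ => ?_
  rw [map_pow, map_pow, map_pow, ← mul_pow]
  congr 2
  rcases v with ⟨t, b, i⟩ | v
  · rw [kc, kc]
    split_ifs <;> simp
  · rw [kc, kc]; simp

theorem prod_var {Q : Type*} [CommRing Q] (F : Var π → Q) :
    ∏ v, F v = (∏ t, ∏ w, F (Sum.inl (t, w))) *
      ((∏ t, ∏ j, F (Sum.inr (Sum.inl (t, j)))) * ∏ j, F (Sum.inr (Sum.inr j))) := by
  rw [Fintype.prod_sum_type, Fintype.prod_sum_type, Fintype.prod_prod_type,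
    Fintype.prod_prod_type]

theorem signed_congr (m m' : Var π →₀ ℕ) (hm : Alive (kD π e) m) (hm' : Alive (kD π e) m')
    (h : mexp (kM π e) m = mexp (kM π e) m') :
    MvPolynomial.C (msgn (kc π e k) m) * monomial m 1 -
      MvPolynomial.C (msgn (kc π e k) m') * monomial m' 1 ∈ relK π e k := by
  rw [← Ideal.Quotient.eq, mk_signed, mk_signed, prod_var, prod_var]
  set Q := MvPolynomial (Var π) k ⧸ relK π e k
  set q := Ideal.Quotient.mk (relK π e k)
  congr 1
  · refine Finset.prod_congr rfl fun t _ => ?_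
    cases he : e (Sum.inl t)
    · -- unramified
      have hs : ∀ i, m (Sum.inl (t, true, i)) = 0 := fun i => hm _ ⟨rfl, he⟩
      have hs' : ∀ i, m' (Sum.inl (t, true, i)) = 0 := fun i => hm' _ ⟨rfl, he⟩
      have hf : ∀ i, m (Sum.inl (t, false, i)) = m' (Sum.inl (t, false, i)) := by
        intro i
        have h1 := DFunLike.congr_fun h (Sum.inl (t, i.castSucc))
        rw [mexp_inl, mexp_inl] at h1
        simp only [Fintype.sum_bool, hs, hs', zero_mul, Finset.sum_const_zero, zero_add, kM, he,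
          Bool.false_eq_true, if_false, Finsupp.single_apply] at h1
        rw [Fin.sum_univ_three, Fin.sum_univ_three] at h1
        fin_cases i <;> simpa using h1
      refine Finset.prod_congr rfl fun w _ => ?_
      obtain ⟨b, i⟩ := w
      cases b
      · rw [hf]
      · rw [hs, hs']
    · -- Steinberg
      have h0 := DFunLike.congr_fun h (Sum.inl (t, 0))
      have h1 := DFunLike.congr_fun h (Sum.inl (t, 1))
      have h2 := DFunLike.congr_fun h (Sum.inl (t, 2))
      rw [mexp_inl, mexp_inl] at h0 h1 h2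
      simp only [Fintype.sum_bool, Fin.sum_univ_three, kM, he, if_true, kmu, Finsupp.add_apply,
        Finsupp.single_apply, cond_true, cond_false, Matrix.cons_val_zero, Matrix.cons_val_one,
        Matrix.cons_val, Sum.inl.injEq, Prod.mk.injEq, true_and] at h0 h1 h2
      have hrel : ∀ l, stRel (0 : Q) (fun i => q (X (Sum.inl (t, false, i))))
          (fun i => q (X (Sum.inl (t, true, i)))) l = 0 := by
        intro l
        have h3 := map_stRel q 0 (fun i => X (Sum.inl (t, false, i)))
          (fun i => X (Sum.inl (t, true, i))) l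
        rw [map_zero] at h3
        rw [← h3]
        exact Ideal.Quotient.eq_zero_iff_mem.mpr (Ideal.subset_span
          (Or.inl (Or.inl (Or.inl (Or.inr ⟨t, l, he, rfl⟩)))))
      have key := prod_congr_of_stRel hrel (fun w => m (Sum.inl (t, w)))
        (fun w => m' (Sum.inl (t, w))) (by
          intro b
          cases b
          · simp at h0
            rw [Fin.sum_univ_three, Fin.sum_univ_three]
            omega
          · simp at h1
            rw [Fin.sum_univ_three, Fin.sum_univ_three]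
            omega) (by
          simp at h2
          omega)
      have hsplit : ∀ μ : Var π →₀ ℕ,
          ∏ w : Bool × Fin 3, (kc π e Q (Sum.inl (t, w)) * q (X (Sum.inl (t, w)))) ^
            μ (Sum.inl (t, w)) =
          (-1) ^ (μ (Sum.inl (t, false, 1)) + μ (Sum.inl (t, true, 1))) *
            ∏ w, gvar (fun i => q (X (Sum.inl (t, false, i))))
              (fun i => q (X (Sum.inl (t, true, i)))) w ^ μ (Sum.inl (t, w)) := by
        intro μ
        rw [Fintype.prod_prod_type, Fintype.prod_prod_type, Fintype.prod_bool, Fintype.prod_bool,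
          Fin.prod_univ_three, Fin.prod_univ_three, Fin.prod_univ_three, Fin.prod_univ_three]
        simp [kc, he, gvar, mul_pow, pow_add]
        ring
      rw [hsplit, hsplit]
      exact key
  · congr 1
    · refine Finset.prod_congr rfl fun t _ => ?_
      have h1 := DFunLike.congr_fun h (Sum.inr (Sum.inl t))
      rw [mexp_inr_inl, mexp_inr_inl, Fin.sum_univ_three, Fin.sum_univ_three] at h1
      have h2 : m (Sum.inr (Sum.inl (t, 2))) = 0 := hm _ (Or.inl rfl)
      have h2' : m' (Sum.inr (Sum.inl (t, 2))) = 0 := hm' _ (Or.inl rfl)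
      rw [Fin.prod_univ_three, Fin.prod_univ_three, h2, h2']
      cases he : e (Sum.inr t)
      · have h3 : m (Sum.inr (Sum.inl (t, 1))) = 0 := hm _ (Or.inr (Or.inl ⟨rfl, he⟩))
        have h3' : m' (Sum.inr (Sum.inl (t, 1))) = 0 := hm' _ (Or.inr (Or.inl ⟨rfl, he⟩))
        rw [h3, h3', show m (Sum.inr (Sum.inl (t, 0))) = m' (Sum.inr (Sum.inl (t, 0))) by omega]
      · have h3 : m (Sum.inr (Sum.inl (t, 0))) = 0 := hm _ (Or.inr (Or.inr ⟨rfl, he⟩))
        have h3' : m' (Sum.inr (Sum.inl (t, 0))) = 0 := hm' _ (Or.inr (Or.inr ⟨rfl, he⟩))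
        rw [h3, h3', show m (Sum.inr (Sum.inl (t, 1))) = m' (Sum.inr (Sum.inl (t, 1))) by omega]
    · refine Finset.prod_congr rfl fun j _ => ?_
      have h1 := DFunLike.congr_fun h (Sum.inr (Sum.inr j))
      rw [mexp_inr_inr, mexp_inr_inr] at h1
      rw [h1]

end

end Fermat.Agent.Supp
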