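import Fermat.Agent.Supp.Core
import Fermat.Agent.Patch.Core

/-!
# Reduction of `CompStmt` to primality modulo the uniformizer
-/

set_option autoImplicit false
set_option linter.unusedSectionVars false
set_option linter.style.haveILetI false

namespace Fermat.Agent.Supp

open IsLocalRing

/-- a prime of full dimension is generated by the relations -/
theorem le_of_dim {P : Type*} [CommRing P] [IsLocalRing P] [IsNoetherianRing P] (I q : Ideal P)
    [hq : q.IsPrime] (ϖ : P) (hϖ : ϖ ∈ maximalIdeal P) (hϖq : ϖ ∉ q) (hI : I ≤ q)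
    (hprime : (I ⊔ Ideal.span {ϖ}).IsPrime) (r : ℕ)
    (hdim : ringKrullDim (P ⧸ (I ⊔ Ideal.span {ϖ})) ≤ r)
    (hd : ((r + 1 : ℕ) : WithBot ℕ∞) ≤ ringKrullDim (P ⧸ q)) : q ≤ I := by
  have h1 : q ≤ I ⊔ Ideal.span {ϖ} := by
    by_contra hcon
    obtain ⟨x, hx, hx'⟩ := SetLike.not_le_iff_exists.mp hcon
    -- the quotient by `q + ϖ`
    have h2 : I ⊔ Ideal.span {ϖ} ≤ q ⊔ Ideal.span {ϖ} := sup_le_sup_right hI _
    have h3 : ringKrullDim (P ⧸ (q ⊔ Ideal.span {ϖ})) + 1 ≤
        ringKrullDim (P ⧸ (I ⊔ Ideal.span {ϖ})) := by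
      have hdom : IsDomain (P ⧸ (I ⊔ Ideal.span {ϖ})) := Ideal.Quotient.isDomain _
      refine ringKrullDim_succ_le_of_surjective (Ideal.Quotient.factor h2)
        (Ideal.Quotient.factor_surjective h2) (r := Ideal.Quotient.mk _ x) ?_ ?_
      · rw [mem_nonZeroDivisors_iff_ne_zero, ne_eq, Ideal.Quotient.eq_zero_iff_mem]
        exact hx'
      · rw [Ideal.Quotient.factor_mk, Ideal.Quotient.eq_zero_iff_mem]
        exact Ideal.mem_sup_left hx
    have h4 : ringKrullDim (P ⧸ q) ≤ ringKrullDim (P ⧸ (q ⊔ Ideal.span {ϖ})) + 1 := by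
      have hloc : IsLocalRing (P ⧸ q) :=
        IsLocalRing.of_surjective' (Ideal.Quotient.mk q) Ideal.Quotient.mk_surjective
      have hm : ({Ideal.Quotient.mk q ϖ} : Set (P ⧸ q)) ⊆ Ring.jacobson (P ⧸ q) := by
        rw [IsLocalRing.ringJacobson_eq_maximalIdeal, Set.singleton_subset_iff]
        rw [SetLike.mem_coe, mem_maximalIdeal, mem_nonunits_iff]
        intro hu
        have hsurj : IsLocalHom (Ideal.Quotient.mk q) :=
          IsLocalHom.of_surjective (Ideal.Quotient.mk q) Ideal.Quotient.mk_surjective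
        exact (mem_nonunits_iff.mp ((mem_maximalIdeal _).mp hϖ)) (hsurj.map_nonunit _ hu)
      have h5 := ringKrullDim_le_ringKrullDim_quotient_add_encard
        ({Ideal.Quotient.mk q ϖ} : Set (P ⧸ q)) hm
      rw [Set.encard_singleton] at h5
      refine h5.trans ?_
      have h6 : ringKrullDim ((P ⧸ q) ⧸ Ideal.span {Ideal.Quotient.mk q ϖ}) =
          ringKrullDim (P ⧸ (q ⊔ Ideal.span {ϖ})) := by
        have h7 : Ideal.span {Ideal.Quotient.mk q ϖ} =
            (Ideal.span {ϖ}).map (Ideal.Quotient.mk q) := by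
          rw [Ideal.map_span, Set.image_singleton]
        rw [h7]
        exact ringKrullDim_eq_of_ringEquiv (DoubleQuot.quotQuotEquivQuotSup q (Ideal.span {ϖ}))
      rw [h6]
      exact le_rfl
    have h8 : ((r + 1 : ℕ) : WithBot ℕ∞) ≤ (r : ℕ) := hd.trans (h4.trans (h3.trans hdim))
    have h9 : r + 1 ≤ r := by exact_mod_cast h8
    omega
  refine Submodule.le_of_le_smul_of_le_jacobson_bot (I := maximalIdeal P)
    (IsNoetherian.noetherian q) (by rw [IsLocalRing.jacobson_eq_maximalIdeal _ bot_ne_top]) ?_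
  intro x hx
  obtain ⟨a, ha, b, hb, rfl⟩ := Submodule.mem_sup.mp (h1 hx)
  obtain ⟨y, rfl⟩ := Ideal.mem_span_singleton'.mp hb
  have h2 : y * ϖ ∈ q := by
    have := Ideal.sub_mem _ hx (hI ha)
    rwa [add_sub_cancel_left] at this
  have h3 : y ∈ q := (hq.mem_or_mem h2).resolve_right hϖq
  refine Submodule.add_mem_sup ha ?_
  rw [mul_comm]
  exact Submodule.smul_mem_smul hϖ h3

theorem dim_le_zero_of {P R' : Type*} [CommRing P] [CommRing R'] (f : P →+* R')
    (hf : Function.Surjective f) (m : Ideal P)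
    (h : ∀ Q : Ideal P, Q.IsPrime → RingHom.ker f ≤ Q → Q = m) : ringKrullDim R' ≤ 0 := by
  haveI : Subsingleton (PrimeSpectrum R') := by
    constructor
    intro I J
    apply PrimeSpectrum.ext
    apply Ideal.comap_injective_of_surjective f hf
    have hI : (I.asIdeal.comap f).IsPrime := Ideal.IsPrime.comap f
    have hJ : (J.asIdeal.comap f).IsPrime := Ideal.IsPrime.comap f
    rw [h _ hI ?_, h _ hJ ?_]
    · intro x hx
      rw [Ideal.mem_comap, show f x = 0 from hx]; exact Ideal.zero_mem _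
    · intro x hx
      rw [Ideal.mem_comap, show f x = 0 from hx]; exact Ideal.zero_mem _
  exact Order.krullDim_nonpos_of_subsingleton

/-- dimension bound by a system of parameters -/
theorem dim_le_of_params {P : Type*} [CommRing P] [IsLocalRing P] [IsNoetherianRing P] (I : Ideal P)
    {ι : Type*} [Fintype ι] (z : ι → P) (hz : ∀ i, z i ∈ maximalIdeal P)
    (h : ∀ Q : Ideal P, Q.IsPrime → I ≤ Q → (∀ i, z i ∈ Q) → Q = maximalIdeal P) :
    ringKrullDim (P ⧸ I) ≤ (Fintype.card ι : ℕ) := by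
  classical
  by_cases hI : I = ⊤
  · haveI : Subsingleton (P ⧸ I) := by rw [hI]; infer_instance
    rw [ringKrullDim_eq_bot_of_subsingleton]
    exact bot_le
  have hloc : IsLocalRing (P ⧸ I) := by
    haveI : Nontrivial (P ⧸ I) := Ideal.Quotient.nontrivial_iff.mpr hI
    exact IsLocalRing.of_surjective' (Ideal.Quotient.mk I) Ideal.Quotient.mk_surjective
  have hsurj : IsLocalHom (Ideal.Quotient.mk I) :=
    haveI : Nontrivial (P ⧸ I) := Ideal.Quotient.nontrivial_iff.mpr hI
    IsLocalHom.of_surjective (Ideal.Quotient.mk I) Ideal.Quotient.mk_surjective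
  let s : Set (P ⧸ I) := Set.range fun i => Ideal.Quotient.mk I (z i)
  have hs : s ⊆ Ring.jacobson (P ⧸ I) := by
    rw [IsLocalRing.ringJacobson_eq_maximalIdeal]
    rintro _ ⟨i, rfl⟩
    rw [SetLike.mem_coe, mem_maximalIdeal, mem_nonunits_iff]
    intro hu
    exact (mem_nonunits_iff.mp ((mem_maximalIdeal _).mp (hz i))) (hsurj.map_nonunit _ hu)
  have h1 := ringKrullDim_le_ringKrullDim_quotient_add_encard s hs
  have h2 : ringKrullDim ((P ⧸ I) ⧸ Ideal.span s) ≤ 0 := by
    refine dim_le_zero_of ((Ideal.Quotient.mk (Ideal.span s)).comp (Ideal.Quotient.mk I))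
      (Ideal.Quotient.mk_surjective.comp Ideal.Quotient.mk_surjective) (maximalIdeal P) ?_
    intro Q hQ hk
    refine h Q hQ (fun x hx => hk ?_) (fun i => hk ?_)
    · rw [RingHom.mem_ker, RingHom.comp_apply, Ideal.Quotient.eq_zero_iff_mem.mpr hx, map_zero]
    · rw [RingHom.mem_ker, RingHom.comp_apply, Ideal.Quotient.eq_zero_iff_mem]
      exact Ideal.subset_span ⟨i, rfl⟩
  have h3 : s.encard ≤ (Fintype.card ι : ℕ) := by
    have h4 : s = ((Finset.univ.image fun i => Ideal.Quotient.mk I (z i) : Finset (P ⧸ I)) :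
        Set (P ⧸ I)) := by
      ext x; simp [s]
    rw [h4, Set.encard_coe_eq_coe_finsetCard]
    exact_mod_cast Finset.card_image_le
  calc ringKrullDim (P ⧸ I) ≤ ringKrullDim ((P ⧸ I) ⧸ Ideal.span s) + s.encard := h1
    _ ≤ 0 + ((Fintype.card ι : ℕ) : WithBot ℕ∞) := by
        refine add_le_add h2 ?_
        exact_mod_cast h3
    _ = (Fintype.card ι : ℕ) := zero_add _

section

variable {𝒪 : Type} [CommRing 𝒪] [IsDomain 𝒪] [IsDiscreteValuationRing 𝒪]
  [IsAdicComplete (maximalIdeal 𝒪) 𝒪] [Finite (ResidueField 𝒪)] (π : Params 𝒪)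

theorem dim_rel (ϖ : 𝒪) (hϖ : Irreducible ϖ) (e : π.S ⊕ π.X → Bool) :
    ringKrullDim (PP π ⧸ (Rel π e ⊔ Ideal.span {MvPowerSeries.C ϖ})) ≤
      ((3 * Fintype.card π.S + Fintype.card π.X + π.g : ℕ) : WithBot ℕ∞) := by
  classical
  let z : (π.S × Fin 3) ⊕ (π.X ⊕ Fin π.g) → PP π := Sum.elim
    (fun q => if e (Sum.inl q.1) then
      (![vf π q.1 1, vs π q.1 2, vf π q.1 2 + vs π q.1 1] : Fin 3 → PP π) q.2 else vf π q.1 q.2)
    (Sum.elim (fun t => if e (Sum.inr t) then vn π t else vx π t) (vy π))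
  have hX : ∀ v : Var π, (MvPowerSeries.X v : PP π) ∈ maximalIdeal (PP π) := fun v =>
    DefRing.X_mem_maximalIdeal v
  have hz : ∀ i, z i ∈ maximalIdeal (PP π) := by
    rintro (⟨t, j⟩ | t | j)
    · simp only [z, Sum.elim_inl]
      split_ifs
      · fin_cases j
        · exact hX _
        · exact hX _
        · exact Ideal.add_mem _ (hX _) (hX _)
      · exact hX _
    · simp only [z, Sum.elim_inl, Sum.elim_inr]
      split_ifs
      · exact hX _
      · exact hX _
    · exact hX _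
  have hcard : Fintype.card ((π.S × Fin 3) ⊕ (π.X ⊕ Fin π.g)) =
      3 * Fintype.card π.S + Fintype.card π.X + π.g := by
    rw [Fintype.card_sum, Fintype.card_prod, Fintype.card_sum, Fintype.card_fin, Fintype.card_fin]
    ring
  rw [← hcard]
  refine dim_le_of_params _ z hz fun Q hQ hIQ hzQ => ?_
  have hRel : Rel π e ≤ Q := le_sup_left.trans hIQ
  have hϖQ : MvPowerSeries.C ϖ ∈ Q := hIQ (Ideal.mem_sup_right (Ideal.mem_span_singleton_self _))
  have hCQ : ∀ a ∈ maximalIdeal 𝒪, (MvPowerSeries.C a : PP π) ∈ Q := by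
    intro a ha
    rw [hϖ.maximalIdeal_eq, Ideal.mem_span_singleton'] at ha
    obtain ⟨b, rfl⟩ := ha
    rw [map_mul]
    exact Ideal.mul_mem_left _ _ hϖQ
  refine Patch.eq_maximalIdeal_of_mem Q hCQ ?_
  rintro (⟨t, b, j⟩ | ⟨t, j⟩ | j)
  · by_cases ht : e (Sum.inl t) = true
    · have h0 : vf π t 1 ∈ Q := by
        have := hzQ (Sum.inl (t, 0)); simpa [z, ht] using this
      have h1 : vs π t 2 ∈ Q := by
        have := hzQ (Sum.inl (t, 1)); simpa [z, ht] using this
      have h2 : vf π t 2 + vs π t 1 ∈ Q := by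
        have := hzQ (Sum.inl (t, 2)); simpa [z, ht] using this
      have hh : (MvPowerSeries.C (π.h t) : PP π) ∈ Q := hCQ _ (π.h_mem t)
      have hst : ∀ k, stRel (MvPowerSeries.C (π.h t)) (vf π t) (vs π t) k ∈ Q := fun k =>
        hRel (Ideal.subset_span (Or.inl (Or.inl (Or.inl (Or.inr ⟨t, k, ht, rfl⟩)))))
      have hf0 : vf π t 0 ∈ Q := by
        have h3 : vf π t 0 ^ 2 + vf π t 1 * vf π t 2 - MvPowerSeries.C (π.h t) ^ 2 ∈ Q := hst 1
        have h4 : vf π t 0 ^ 2 = (vf π t 0 ^ 2 + vf π t 1 * vf π t 2 -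
          MvPowerSeries.C (π.h t) ^ 2) - vf π t 1 * vf π t 2 +
          MvPowerSeries.C (π.h t) * MvPowerSeries.C (π.h t) := by ring
        refine hQ.mem_of_pow_mem 2 ?_
        rw [h4]
        exact Ideal.add_mem _ (Ideal.sub_mem _ h3 (Ideal.mul_mem_right _ _ h0))
          (Ideal.mul_mem_left _ _ hh)
      have hs0 : vs π t 0 ∈ Q := by
        have h3 : vs π t 0 ^ 2 + vs π t 1 * vs π t 2 ∈ Q := hst 0
        refine hQ.mem_of_pow_mem 2 ?_
        have h4 : vs π t 0 ^ 2 = (vs π t 0 ^ 2 + vs π t 1 * vs π t 2) -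
          vs π t 1 * vs π t 2 := by ring
        rw [h4]
        exact Ideal.sub_mem _ h3 (Ideal.mul_mem_left _ _ h1)
      have h5 : vf π t 2 * vs π t 1 ∈ Q := by
        have h3 : vf π t 2 * vs π t 1 + vf π t 0 * vs π t 0 +
          MvPowerSeries.C (π.h t) * vs π t 0 ∈ Q := hst 5
        have h4 : vf π t 2 * vs π t 1 = (vf π t 2 * vs π t 1 + vf π t 0 * vs π t 0 +
          MvPowerSeries.C (π.h t) * vs π t 0) - (vf π t 0 + MvPowerSeries.C (π.h t)) *
          vs π t 0 := by ring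
        rw [h4]
        exact Ideal.sub_mem _ h3 (Ideal.mul_mem_left _ _ hs0)
      have h6 : vf π t 2 ∈ Q ∧ vs π t 1 ∈ Q := by
        rcases hQ.mem_or_mem h5 with h | h
        · refine ⟨h, ?_⟩
          have := Ideal.sub_mem _ h2 h
          rwa [add_sub_cancel_left] at this
        · refine ⟨?_, h⟩
          have := Ideal.sub_mem _ h2 h
          rwa [add_sub_cancel_right] at this
      cases b
      · fin_cases j
        · exact hf0
        · exact h0
        · exact h6.1
      · fin_cases j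
        · exact hs0
        · exact h6.2
        · exact h1
    · have ht' : e (Sum.inl t) = false := by simpa using ht
      cases b
      · have h0 : vf π t j ∈ Q := by
          have := hzQ (Sum.inl (t, j)); simpa [z, ht'] using this
        exact h0
      · exact hRel (Ideal.subset_span (Or.inl (Or.inl (Or.inl (Or.inl ⟨t, j, ht', rfl⟩)))))
  · have hb : vb π t ∈ Q := hRel (Ideal.subset_span (Or.inr ⟨t, rfl⟩))
    by_cases ht : e (Sum.inr t) = true
    · have hx : vx π t ∈ Q := hRel (Ideal.subset_span (Or.inl (Or.inr ⟨t, ht, rfl⟩)))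
      have hn : vn π t ∈ Q := by
        have := hzQ (Sum.inr (Sum.inl t)); simpa [z, ht] using this
      fin_cases j
      · exact hx
      · exact hn
      · exact hb
    · have ht' : e (Sum.inr t) = false := by simpa using ht
      have hn : vn π t ∈ Q := hRel (Ideal.subset_span (Or.inl (Or.inl (Or.inr ⟨t, ht', rfl⟩))))
      have hx : vx π t ∈ Q := by
        have := hzQ (Sum.inr (Sum.inl t)); simpa [z, ht'] using this
      fin_cases j
      · exact hx
      · exact hn
      · exact hb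
  · exact hzQ (Sum.inr (Sum.inr j))

end

/-- **Reduction of `CompStmt`.** -/
theorem comp_of (hprime : ∀ (𝒪 : Type) [CommRing 𝒪] [IsDomain 𝒪] [IsDiscreteValuationRing 𝒪]
    [IsAdicComplete (maximalIdeal 𝒪) 𝒪] [Finite (ResidueField 𝒪)] (π : Params 𝒪)
    (e : π.S ⊕ π.X → Bool) (ϖ : 𝒪), Irreducible ϖ →
    (Rel π e ⊔ Ideal.span {MvPowerSeries.C ϖ}).IsPrime) : CompStmt := by
  intro 𝒪 _ _ _ _ _ π e q hq hRel hC hd q' hq' hRel'
  obtain ⟨ϖ, hϖ⟩ := IsDiscreteValuationRing.exists_irreducible 𝒪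
  have h1 : q ≤ Rel π e := by
    refine le_of_dim (Rel π e) q (MvPowerSeries.C ϖ) ?_ (fun h => hϖ.ne_zero (hC ϖ h)) hRel
      (hprime 𝒪 π e ϖ hϖ) (3 * Fintype.card π.S + Fintype.card π.X + π.g) (dim_rel π ϖ hϖ e) hd
    rw [mem_maximalIdeal, mem_nonunits_iff, MvPowerSeries.isUnit_iff_constantCoeff,
      MvPowerSeries.constantCoeff_C]
    exact hϖ.not_isUnit
  exact h1.trans hRel'

end Fermat.Agent.Supp
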