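import Fermat.Agent.Supp.Spec
import Fermat.Agent.Supp.Alg
import Fermat.Agent.Patch.Eval

/-!
# The core of the support argument
-/

set_option autoImplicit false
set_option linter.unusedSectionVars false
set_option linter.style.haveILetI false

namespace Fermat.Agent.Supp

open IsLocalRing

section stRel

variable {R R' : Type*} [CommRing R] [CommRing R']

theorem stRel_map (g : R →+* R') (h : R) (f s : Fin 3 → R) (k : Fin 6) :
    g (stRel h f s k) = stRel (g h) (fun i => g (f i)) (fun i => g (s i)) k := by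
  fin_cases k <;> simp [stRel]

theorem stRel_eq_zero_one (h ϖ : R) (k : Fin 6) :
    stRel h ![h, 0, 0] ![0, ϖ, 0] k = 0 := by
  fin_cases k <;> simp [stRel]

end stRel

section

variable {𝒪 : Type} [CommRing 𝒪] [IsDomain 𝒪] [IsDiscreteValuationRing 𝒪]
  [IsAdicComplete (maximalIdeal 𝒪) 𝒪] [Finite (ResidueField 𝒪)] (π : Params 𝒪)

/-- the state after the first `i` blocks have been switched on -/
def est (i : ℕ) (t : π.S ⊕ π.X) : Bool := decide (π.num t < i)

theorem est_true {i : ℕ} {t : π.S ⊕ π.X} : est π i t = true ↔ π.num t < i := by simp [est]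

theorem est_false {i : ℕ} {t : π.S ⊕ π.X} : est π i t = false ↔ i ≤ π.num t := by simp [est]

theorem num_lt (t : π.S ⊕ π.X) : π.num t < π.m := (π.ord.symm t).2

theorem num_eq {i : Fin π.m} {t : π.S ⊕ π.X} (h : π.num t = i) : π.ord i = t := by
  have : π.ord.symm t = i := Fin.ext h
  rw [← this, Equiv.apply_symm_apply]

theorem num_ord (i : Fin π.m) : π.num (π.ord i) = i := by simp [Params.num]

theorem Rel_le {e : π.S ⊕ π.X → Bool} {Q : Ideal (PP π)}
    (h1 : ∀ t i, e (Sum.inl t) = false → vs π t i ∈ Q)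
    (h2 : ∀ t k, e (Sum.inl t) = true →
      stRel (MvPowerSeries.C (π.h t)) (vf π t) (vs π t) k ∈ Q)
    (h3 : ∀ t, e (Sum.inr t) = false → vn π t ∈ Q)
    (h4 : ∀ t, e (Sum.inr t) = true → vx π t ∈ Q)
    (h5 : ∀ t, vb π t ∈ Q) : Rel π e ≤ Q := by
  rw [Rel, Ideal.span_le]
  rintro z ((((⟨t, i, he, rfl⟩ | ⟨t, k, he, rfl⟩) | ⟨t, he, rfl⟩) | ⟨t, he, rfl⟩) | ⟨t, rfl⟩)
  · exact h1 t i he
  · exact h2 t k he
  · exact h3 t he
  · exact h4 t he
  · exact h5 t

/-- the test point for step `i` -/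
theorem exists_test (i : ℕ) : ∃ γ : PP π →+* 𝒪, Rel π (est π i) ≤ RingHom.ker γ ∧
    (∀ a, γ (MvPowerSeries.C a) = a) ∧
    (∀ t : π.S, π.num (Sum.inl t) = i →
      γ (vf π t 0 ^ 2 + vf π t 1 * vf π t 2 - MvPowerSeries.C (π.h t) ^ 2) = 0) ∧
    (∀ t : π.S, π.num (Sum.inl t) < i → γ (vs π t 1) ≠ 0) ∧
    (∀ t : π.X, π.num (Sum.inr t) < i → γ (vn π t) ≠ 0) ∧
    (∀ t : π.X, γ (vx π t) = 0) := by
  classical
  obtain ⟨ϖ, hϖ⟩ := IsDiscreteValuationRing.exists_irreducible 𝒪
  have hϖ0 : ϖ ≠ 0 := hϖ.ne_zero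
  have hϖm : ϖ ∈ maximalIdeal 𝒪 := (mem_maximalIdeal _).mpr hϖ.not_isUnit
  haveI : IsLocalHom (algebraMap 𝒪 𝒪) := inferInstanceAs (IsLocalHom (RingHom.id 𝒪))
  let val : Var π → 𝒪 := Sum.elim
    (fun q => if q.2.1 then (if π.num (Sum.inl q.1) < i then (![0, ϖ, 0] : Fin 3 → 𝒪) q.2.2 else 0)
      else (![π.h q.1, 0, 0] : Fin 3 → 𝒪) q.2.2)
    (Sum.elim (fun q => if q.2 = 1 then (if π.num (Sum.inr q.1) < i then ϖ else 0) else 0)
      (fun _ => 0))
  have hval : ∀ v, val v ∈ maximalIdeal 𝒪 := by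
    rintro (⟨t, b, j⟩ | ⟨t, j⟩ | j)
    · cases b
      · simp only [val, Sum.elim_inl]
        fin_cases j <;> simp [π.h_mem]
      · simp only [val, Sum.elim_inl, if_true]
        split_ifs
        · fin_cases j <;> simp
          exact hϖ.not_isUnit
        · simp
    · simp only [val, Sum.elim_inr, Sum.elim_inl]
      split_ifs
      · exact hϖm
      · exact Ideal.zero_mem _
      · exact Ideal.zero_mem _
    · exact Ideal.zero_mem _
  obtain ⟨γ, hγ, -⟩ := Patch.exists_eval (A := 𝒪) (R := 𝒪) val hval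
  have hC : ∀ a, γ (MvPowerSeries.C a) = a := fun a => γ.commutes a
  have hf : ∀ t j, γ (vf π t j) = (![π.h t, 0, 0] : Fin 3 → 𝒪) j := fun t j => by
    rw [vf, hγ]; simp [val]
  have hs : ∀ t j, γ (vs π t j) =
      if π.num (Sum.inl t) < i then (![0, ϖ, 0] : Fin 3 → 𝒪) j else 0 := fun t j => by
    rw [vs, hγ]; simp [val]
  have hx : ∀ t, γ (vx π t) = 0 := fun t => by rw [vx, hγ]; simp [val]
  have hn : ∀ t, γ (vn π t) = if π.num (Sum.inr t) < i then ϖ else 0 := fun t => by
    rw [vn, hγ]; simp [val]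
  have hb : ∀ t, γ (vb π t) = 0 := fun t => by rw [vb, hγ]; simp [val]
  refine ⟨γ.toRingHom, ?_, hC, ?_, ?_, ?_, hx⟩
  · apply Rel_le
    · intro t j he
      rw [est_false] at he
      show γ _ = 0
      rw [hs, if_neg (not_lt.mpr he)]
    · intro t k he
      rw [est_true] at he
      have h1 := stRel_map γ.toRingHom (MvPowerSeries.C (π.h t)) (vf π t) (vs π t) k
      rw [RingHom.mem_ker, h1]
      have h2 : (fun j => γ.toRingHom (vf π t j)) = ![π.h t, 0, 0] := funext fun j => hf t j
      have h3 : (fun j => γ.toRingHom (vs π t j)) = ![0, ϖ, 0] := funext fun j => by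
        have := hs t j
        rw [if_pos he] at this
        exact this
      rw [h2, h3, show γ.toRingHom (MvPowerSeries.C (π.h t)) = π.h t from hC _]
      exact stRel_eq_zero_one _ _ k
    · intro t he
      rw [est_false] at he
      show γ _ = 0
      rw [hn, if_neg (not_lt.mpr he)]
    · intro t _
      exact hx t
    · intro t
      exact hb t
  · intro t _
    show γ _ = 0
    simp only [map_sub, map_add, map_mul, map_pow, hf, hC]
    simp
  · intro t ht
    show γ _ ≠ 0
    rw [hs, if_pos ht]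
    simpa using hϖ0
  · intro t ht
    show γ _ ≠ 0
    rw [hn, if_pos ht]
    exact hϖ0

variable {Λ : Type*} [CommRing Λ] [IsDomain Λ] [Algebra Λ (PP π)]

/-- **The core.** -/
theorem core (hC1 : CompStmt)
    (hdim : ((3 * Fintype.card π.S + Fintype.card π.X + π.g + 1 : ℕ) : WithBot ℕ∞) ≤
      ringKrullDim Λ)
    (cΛ : 𝒪 → Λ) (hcΛ : ∀ a, algebraMap Λ (PP π) (cΛ a) = MvPowerSeries.C a)
    (hcΛ0 : ∀ a, cΛ a = 0 → a = 0)
    (M : Fin (π.m + 1) → Type) [∀ i, AddCommGroup (M i)] [∀ i, Module Λ (M i)]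
    [∀ i, Module (PP π) (M i)] [∀ i, IsScalarTower Λ (PP π) (M i)] [∀ i, Module.Finite Λ (M i)]
    (htf : ∀ i (s : Λ), s ≠ 0 → ∀ v : M i, s • v = 0 → v = 0)
    (hM0 : Nontrivial (M 0))
    (rel_s : ∀ i : Fin (π.m + 1), ∀ t : π.S, (i : ℕ) ≤ π.num (Sum.inl t) → ∀ j (v : M i),
      vs π t j • v = 0)
    (rel_nn : ∀ i : Fin (π.m + 1), ∀ t : π.X, (i : ℕ) ≤ π.num (Sum.inr t) → ∀ v : M i,
      vn π t • v = 0)
    (rel_b : ∀ i : Fin (π.m + 1), ∀ t : π.X, (i : ℕ) ≤ π.num (Sum.inr t) → ∀ v : M i,
      vb π t • v = 0)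
    (rel_s_st : ∀ i : Fin (π.m + 1), ∀ t : π.S, π.num (Sum.inl t) < i → ∀ j k (v : M i),
      (vs π t j * stRel (MvPowerSeries.C (π.h t)) (vf π t) (vs π t) k) • v = 0)
    (rel_nn_b : ∀ i : Fin (π.m + 1), ∀ t : π.X, π.num (Sum.inr t) < i → ∀ v : M i,
      (vn π t * vb π t) • v = 0)
    (rel_nn_x : ∀ i : Fin (π.m + 1), ∀ t : π.X, π.num (Sum.inr t) < i → ∀ v : M i,
      (vn π t * vx π t) • v = 0)
    (rel_b_x : ∀ i : Fin (π.m + 1), ∀ t : π.X, π.num (Sum.inr t) < i → ∀ v : M i,
      (vb π t * (vx π t - MvPowerSeries.C (π.c t))) • v = 0)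
    (α : ∀ i : Fin π.m, Fin 2 → (M i.castSucc → M i.succ))
    (α_add : ∀ i k v w, α i k (v + w) = α i k v + α i k w)
    (α_smul : ∀ i k (a : PP π) v, α i k (a • v) = a • α i k v)
    (ρ : ∀ i : Fin π.m, Fin 2 → (M i.succ → M i.castSucc))
    (ρ_add : ∀ i k v w, ρ i k (v + w) = ρ i k v + ρ i k w)
    (ρ_smul : ∀ i k (a : Λ) v, ρ i k (a • v) = a • ρ i k v)
    (ρ_α : ∀ i k l v, ρ i k (α i l v) = if k = l then v else 0)
    (τ : ∀ i : Fin π.m, Fin 2 → (M i.succ → M i.castSucc))
    (τ_add : ∀ i k v w, τ i k (v + w) = τ i k v + τ i k w)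
    (τ_smul : ∀ i k (a : PP π) v, τ i k (a • v) = a • τ i k v)
    (τ_surj : ∀ i v w, ∃ z, τ i 0 z = v ∧ τ i 1 z = w)
    (mat : Fin π.m → Matrix (Fin 2) (Fin 2) (PP π))
    (τ_α : ∀ i k l v, τ i k (α i l v) = mat i k l • v)
    (det_S : ∀ (i : Fin π.m) (t : π.S), π.ord i = Sum.inl t → ∃ a : PP π, ∀ v : M i.castSucc,
      (mat i).det • v =
        (a * (vf π t 0 ^ 2 + vf π t 1 * vf π t 2 - MvPowerSeries.C (π.h t) ^ 2)) • v)
    (det_X : ∀ (i : Fin π.m) (t : π.X), π.ord i = Sum.inr t → ∃ a : PP π, ∀ v : M i.castSucc,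
      (mat i).det • v = (a * vx π t) • v)
    (coker_S : ∀ (i : Fin π.m) (t : π.S), π.ord i = Sum.inl t → ∀ k (v : M i.succ),
      ∃ v₀ v₁, stRel (MvPowerSeries.C (π.h t)) (vf π t) (vs π t) k • v = α i 0 v₀ + α i 1 v₁)
    (coker_X : ∀ (i : Fin π.m) (t : π.X), π.ord i = Sum.inr t → ∀ (v : M i.succ),
      ∃ v₀ v₁, (vx π t * (vx π t - MvPowerSeries.C (π.c t))) • v = α i 0 v₀ + α i 1 v₁)
    (w : PP π →+* 𝒪)
    (w_S : ∀ t k, w (stRel (MvPowerSeries.C (π.h t)) (vf π t) (vs π t) k) = 0)
    (w_x : ∀ t, w (vx π t) = 0) (w_b : ∀ t, w (vb π t) = 0)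
    (θ : PP π) (w_θ : w θ ≠ 0)
    (θ_M : ∀ v : M (Fin.last π.m),
      θ • v ∈ RingHom.ker w • (⊤ : Submodule (PP π) (M (Fin.last π.m)))) : False := by
  haveI : ∀ i, Module.Finite (PP π) (M i) := fun i =>
    Module.Finite.of_restrictScalars_finite Λ (PP π) (M i)
  -- the invariant
  have inv : ∀ i : Fin (π.m + 1), ∀ q' : Ideal (PP π), q'.IsPrime → Rel π (est π i) ≤ q' →
      Module.annihilator (PP π) (M i) ≤ q' := by
    intro i
    induction i using Fin.induction with
    | zero =>
      have h1 : Module.annihilator (PP π) (M 0) ≤ maximalIdeal (PP π) := by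
        apply IsLocalRing.le_maximalIdeal
        intro h
        rw [Ideal.eq_top_iff_one, Module.mem_annihilator] at h
        obtain ⟨v, hv⟩ := exists_ne (0 : M 0)
        exact hv (by simpa using h v)
      obtain ⟨Q, hQ, hle, -, hΛ, hd⟩ := exists_minprime (Λ := Λ) (M := M 0) (htf 0) _ h1
      intro q' hq' hR
      refine hle.trans (hC1 𝒪 π (est π 0) Q hQ ?_ ?_ (hdim.trans hd) q' hq' hR)
      · apply Rel_le
        · intro t j _
          exact hle (Module.mem_annihilator.mpr (rel_s 0 t (Nat.zero_le _) j))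
        · intro t k he
          rw [est_true] at he
          exact absurd he (Nat.not_lt_zero _)
        · intro t _
          exact hle (Module.mem_annihilator.mpr (rel_nn 0 t (Nat.zero_le _)))
        · intro t he
          rw [est_true] at he
          exact absurd he (Nat.not_lt_zero _)
        · intro t
          exact hle (Module.mem_annihilator.mpr (rel_b 0 t (Nat.zero_le _)))
      · intro a ha
        exact hcΛ0 a (hΛ _ (by rw [hcΛ]; exact ha))
    | succ i ih =>
      obtain ⟨γ, hγR, hγC, hγq, hγs, hγn, hγx⟩ := exists_test π i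
      have hη : (RingHom.ker γ).IsPrime := RingHom.ker_isPrime γ
      have hannη : Module.annihilator (PP π) (M i.castSucc) ≤ RingHom.ker γ := ih _ hη hγR
      -- the cokernel
      let N : Submodule (PP π) (M i.succ) :=
        { carrier := {v | ∃ v₀ v₁, v = α i 0 v₀ + α i 1 v₁}
          add_mem' := by
            rintro _ _ ⟨v₀, v₁, rfl⟩ ⟨w₀, w₁, rfl⟩
            refine ⟨v₀ + w₀, v₁ + w₁, ?_⟩
            rw [α_add i, α_add i]
            abel
          zero_mem' := by
            refine ⟨0, 0, ?_⟩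
            have h0 : ∀ k, α i k 0 = 0 := fun k => by
              have := α_smul i k 0 0
              rwa [zero_smul, zero_smul] at this
            rw [h0, h0, add_zero]
          smul_mem' := by
            rintro a _ ⟨v₀, v₁, rfl⟩
            refine ⟨a • v₀, a • v₁, ?_⟩
            rw [smul_add, α_smul i, α_smul i] }
      have hN : ∀ v, v ∈ N ↔ ∃ v₀ v₁, v = α i 0 v₀ + α i 1 v₁ := fun v => Iff.rfl
      have hααΛ : ∀ k (s : Λ) v, α i k (s • v) = s • α i k v := fun k s v => by
        rw [← algebraMap_smul (PP π) s v, α_smul i, algebraMap_smul]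
      have htfC : ∀ s : Λ, s ≠ 0 → ∀ v : M i.succ ⧸ N, s • v = 0 → v = 0 := by
        intro s hs v hv
        obtain ⟨v, rfl⟩ := Submodule.Quotient.mk_surjective N v
        rw [← Submodule.Quotient.mk_smul, Submodule.Quotient.mk_eq_zero, hN] at hv
        obtain ⟨v₀, v₁, hv⟩ := hv
        have h0 : s • ρ i 0 v = v₀ := by
          rw [← ρ_smul i, hv, ρ_add i, ρ_α i, ρ_α i]; simp
        have h1 : s • ρ i 1 v = v₁ := by
          rw [← ρ_smul i, hv, ρ_add i, ρ_α i, ρ_α i]; simp
        rw [Submodule.Quotient.mk_eq_zero, hN]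
        refine ⟨ρ i 0 v, ρ i 1 v, ?_⟩
        have h2 : s • (v - (α i 0 (ρ i 0 v) + α i 1 (ρ i 1 v))) = 0 := by
          rw [smul_sub, smul_add, ← hααΛ, ← hααΛ, h0, h1, hv, sub_self]
        exact sub_eq_zero.mp (htf _ s hs _ h2)
      have hannC : Module.annihilator (PP π) (M i.succ) ≤
          Module.annihilator (PP π) (M i.succ ⧸ N) := by
        intro a ha
        rw [Module.mem_annihilator] at ha ⊢
        intro v
        obtain ⟨v, rfl⟩ := Submodule.Quotient.mk_surjective N v
        rw [← Submodule.Quotient.mk_smul, ha, Submodule.Quotient.mk_zero]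
      have hdetη : (mat i).det ∈ RingHom.ker γ := by
        rcases ht : π.ord i with t | t
        · obtain ⟨a, ha⟩ := det_S i t ht
          have h1 : (mat i).det - a * (vf π t 0 ^ 2 + vf π t 1 * vf π t 2 -
              MvPowerSeries.C (π.h t) ^ 2) ∈ RingHom.ker γ := by
            apply hannη
            rw [Module.mem_annihilator]
            intro v
            rw [sub_smul, sub_eq_zero]
            exact ha v
          have h2 : π.num (Sum.inl t) = i := by rw [← ht]; exact num_ord π i
          rw [RingHom.mem_ker, map_sub, map_mul, hγq t h2, mul_zero, sub_zero] at h1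
          exact h1
        · obtain ⟨a, ha⟩ := det_X i t ht
          have h1 : (mat i).det - a * vx π t ∈ RingHom.ker γ := by
            apply hannη
            rw [Module.mem_annihilator]
            intro v
            rw [sub_smul, sub_eq_zero]
            exact ha v
          rw [RingHom.mem_ker, map_sub, map_mul, hγx t, mul_zero, sub_zero] at h1
          exact h1
      have hkey : Module.annihilator (PP π) (M i.succ ⧸ N) ≤ RingHom.ker γ := by
        intro s hs
        refine key (τ i) (α i) (mat i) (τ_smul i) (τ_add i) (τ_α i)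
          (τ_surj i) (RingHom.ker γ) hannη hdetη s fun v => ?_
        rw [Module.mem_annihilator] at hs
        have := hs (Submodule.Quotient.mk v)
        rwa [← Submodule.Quotient.mk_smul, Submodule.Quotient.mk_eq_zero, hN] at this
      obtain ⟨Q, hQ, hle, hQη, hΛ, hd⟩ := exists_minprime (Λ := Λ) (M := M i.succ ⧸ N) htfC _ hkey
      have hmem : ∀ a : PP π, (∀ v : M i.succ, a • v = 0) → a ∈ Q := fun a ha =>
        hle (hannC (Module.mem_annihilator.mpr ha))
      have hmemN : ∀ a : PP π, (∀ v : M i.succ, ∃ v₀ v₁, a • v = α i 0 v₀ + α i 1 v₁) → a ∈ Q := by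
        intro a ha
        refine hle (Module.mem_annihilator.mpr fun v => ?_)
        obtain ⟨v, rfl⟩ := Submodule.Quotient.mk_surjective N v
        rw [← Submodule.Quotient.mk_smul, Submodule.Quotient.mk_eq_zero, hN]
        exact ha v
      have hnotc : ∀ t : π.X, vx π t - MvPowerSeries.C (π.c t) ∉ Q := by
        intro t h
        have h1 := hQη h
        rw [RingHom.mem_ker, map_sub, hγx, hγC, zero_sub, neg_eq_zero] at h1
        exact π.c_ne t h1
      have hval : ((i.succ : Fin (π.m + 1)) : ℕ) = (i : ℕ) + 1 := rfl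
      intro q' hq' hR
      refine (hannC.trans hle).trans
        (hC1 𝒪 π (est π i.succ) Q hQ ?_ ?_ (hdim.trans hd) q' hq' hR)
      · apply Rel_le
        · intro t j he
          rw [est_false] at he
          exact hmem _ (rel_s i.succ t he j)
        · intro t k he
          rw [est_true] at he
          rcases Nat.lt_succ_iff_lt_or_eq.mp (hval ▸ he) with hlt | heq
          · have h1 := hmem _ (rel_s_st i.succ t he 1 k)
            exact (hQ.mem_or_mem h1).resolve_left fun h => hγs t hlt (hQη h)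
          · exact hmemN _ (coker_S i t (num_eq π heq) k)
        · intro t he
          rw [est_false] at he
          exact hmem _ (rel_nn i.succ t he)
        · intro t he
          rw [est_true] at he
          rcases Nat.lt_succ_iff_lt_or_eq.mp (hval ▸ he) with hlt | heq
          · have h1 := hmem _ (rel_nn_x i.succ t he)
            exact (hQ.mem_or_mem h1).resolve_left fun h => hγn t hlt (hQη h)
          · have h1 := hmemN _ (coker_X i t (num_eq π heq))
            exact (hQ.mem_or_mem h1).resolve_right (hnotc t)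
        · intro t
          rcases lt_or_ge (π.num (Sum.inr t)) (i.succ : Fin (π.m + 1)) with hlt' | hge
          · rcases Nat.lt_succ_iff_lt_or_eq.mp (hval ▸ hlt') with hlt | heq
            · have h1 := hmem _ (rel_nn_b i.succ t hlt')
              exact (hQ.mem_or_mem h1).resolve_left fun h => hγn t hlt (hQη h)
            · have h1 := hmem _ (rel_b_x i.succ t hlt')
              exact (hQ.mem_or_mem h1).resolve_right (hnotc t)
          · exact hmem _ (rel_b i.succ t hge)
      · intro a ha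
        exact hcΛ0 a (hΛ _ (by rw [hcΛ]; exact ha))
  have hker : (RingHom.ker w).IsPrime := RingHom.ker_isPrime w
  have hend : Module.annihilator (PP π) (M (Fin.last π.m)) ≤ RingHom.ker w := by
    refine inv (Fin.last π.m) _ hker (Rel_le π ?_ ?_ ?_ ?_ ?_)
    · intro t j he
      rw [est_false] at he
      exact absurd (num_lt π _) (not_lt.mpr he)
    · intro t k _
      exact w_S t k
    · intro t he
      rw [est_false] at he
      exact absurd (num_lt π _) (not_lt.mpr he)
    · intro t _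
      exact w_x t
    · intro t
      exact w_b t
  exact w_θ (mem_of_smul_le (RingHom.ker w) hend θ θ_M)

end

end Fermat.Agent.Supp
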