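import Fermat.Agent.Supp.Alg

/-!
# Modules given by matrices
-/

set_option autoImplicit false

namespace Fermat.Agent.Supp

section

variable {Λ P : Type*} [CommRing Λ] [CommRing P] {d d' d'' : ℕ}

/-- `Λ^d` with the action of `P` through `A`. -/
def LM (_A : P →+* Matrix (Fin d) (Fin d) Λ) : Type _ := Fin d → Λ

namespace LM

variable (A : P →+* Matrix (Fin d) (Fin d) Λ) (A' : P →+* Matrix (Fin d') (Fin d') Λ)
  (A'' : P →+* Matrix (Fin d'') (Fin d'') Λ)

instance : AddCommGroup (LM A) := inferInstanceAs (AddCommGroup (Fin d → Λ))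
instance : Module Λ (LM A) := inferInstanceAs (Module Λ (Fin d → Λ))
instance : Module.Finite Λ (LM A) := inferInstanceAs (Module.Finite Λ (Fin d → Λ))

instance : Module P (LM A) where
  smul f v := (A f).mulVec v
  one_smul v := by
    show (A 1).mulVec v = v
    rw [map_one]; exact Matrix.one_mulVec v
  mul_smul f g v := by
    show (A (f * g)).mulVec v = (A f).mulVec ((A g).mulVec v)
    rw [map_mul]; exact (Matrix.mulVec_mulVec v (A f) (A g)).symm
  smul_zero f := by
    show (A f).mulVec (0 : Fin d → Λ) = (0 : Fin d → Λ)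
    exact Matrix.mulVec_zero _
  smul_add f v w := by
    show (A f).mulVec (v + w : Fin d → Λ) = ((A f).mulVec v + (A f).mulVec w : Fin d → Λ)
    exact Matrix.mulVec_add _ _ _
  add_smul f g v := by
    show (A (f + g)).mulVec v = ((A f).mulVec v + (A g).mulVec v : Fin d → Λ)
    rw [map_add]; exact Matrix.add_mulVec _ _ _
  zero_smul v := by
    show (A 0).mulVec v = (0 : Fin d → Λ)
    rw [map_zero]; exact Matrix.zero_mulVec _

theorem smul_def (f : P) (v : LM A) : f • v = ((A f).mulVec v : Fin d → Λ) := rfl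

/-- the map given by a matrix -/
def mv (G : Matrix (Fin d') (Fin d) Λ) (v : LM A) : LM A' := (G.mulVec v : Fin d' → Λ)

theorem mv_add (G : Matrix (Fin d') (Fin d) Λ) (v w : LM A) :
    mv A A' G (v + w) = mv A A' G v + mv A A' G w := Matrix.mulVec_add _ _ _

theorem mv_smul_of (G : Matrix (Fin d') (Fin d) Λ) (f : P) (h : A' f * G = G * A f) (v : LM A) :
    mv A A' G (f • v) = f • mv A A' G v := by
  have h1 : G.mulVec ((A f).mulVec v) = (A' f).mulVec (G.mulVec v) :=
    (Matrix.mulVec_mulVec v G (A f)).trans ((congrArg (fun B => B.mulVec v) h.symm).trans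
      (Matrix.mulVec_mulVec v (A' f) G).symm)
  exact h1

theorem mv_smul (G : Matrix (Fin d') (Fin d) Λ) (s : Λ) (v : LM A) :
    mv A A' G (s • v) = s • mv A A' G v := Matrix.mulVec_smul _ _ _

theorem mv_mv (G : Matrix (Fin d') (Fin d) Λ) (G' : Matrix (Fin d'') (Fin d') Λ) (v : LM A) :
    mv A' A'' G' (mv A A' G v) = mv A A'' (G' * G) v := Matrix.mulVec_mulVec v G' G

theorem mv_one (v : LM A) : mv A A 1 v = v := Matrix.one_mulVec _

theorem mv_zero_left (v : LM A) : mv A A' 0 v = 0 := Matrix.zero_mulVec _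

theorem mv_self (f : P) (v : LM A) : mv A A (A f) v = f • v := rfl

theorem torsionFree [IsDomain Λ] (s : Λ) (hs : s ≠ 0) (v : LM A) (h : s • v = 0) : v = 0 := by
  have h1 : ∀ i, s * (v : Fin d → Λ) i = 0 := fun i => congrFun (h : (s • (v : Fin d → Λ)) = 0) i
  have h2 : (v : Fin d → Λ) = 0 := funext fun i => (mul_eq_zero.mp (h1 i)).resolve_left hs
  exact h2

theorem smul_eq_zero_of {f : P} (h : A f = 0) (v : LM A) : f • v = 0 := by
  rw [smul_def, h]
  exact Matrix.zero_mulVec _

theorem psi_smul (ψ : Λ →+* P) (hψ : ∀ s, A (ψ s) = s • 1) (s : Λ) (v : LM A) :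
    ψ s • v = s • v := by
  rw [smul_def, hψ, Matrix.smul_mulVec, Matrix.one_mulVec]
  rfl

theorem isScalarTower [Algebra Λ P] (hψ : ∀ s, A (algebraMap Λ P s) = s • 1) :
    IsScalarTower Λ P (LM A) where
  smul_assoc s f v := by
    rw [Algebra.smul_def, mul_smul, psi_smul A (algebraMap Λ P) hψ]

theorem nontrivial [Nontrivial Λ] (hd : 0 < d) : Nontrivial (LM A) := by
  haveI : Nonempty (Fin d) := ⟨⟨0, hd⟩⟩
  exact inferInstanceAs (Nontrivial (Fin d → Λ))

theorem smul_mem_of (η : Ideal P) (ψ : Λ →+* P) (hψ : ∀ s, A (ψ s) = s • 1) (f : P) (K : Ideal Λ)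
    (hK : ∀ s ∈ K, ψ s ∈ η) (h : ∀ i j, A f i j ∈ K) (v : LM A) :
    f • v ∈ η • (⊤ : Submodule P (LM A)) := by
  classical
  let e : Fin d → LM A := fun i => (Pi.single i 1 : Fin d → Λ)
  have h2 : f • v = ∑ i, (∑ j, A f i j * (v : Fin d → Λ) j) • e i := by
    have h4 : ∀ u : Fin d → Λ, u = ∑ i, u i • (Pi.single i 1 : Fin d → Λ) := by
      intro u
      funext k
      rw [Finset.sum_apply, Finset.sum_eq_single k]
      · simp
      · intro b _ hb
        simp [Pi.single_eq_of_ne (Ne.symm hb)]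
      · intro h; exact absurd (Finset.mem_univ k) h
    exact h4 ((A f).mulVec (v : Fin d → Λ))
  rw [h2]
  refine Submodule.sum_mem _ fun i _ => ?_
  rw [← psi_smul A ψ hψ]
  refine Submodule.smul_mem_smul (hK _ ?_) Submodule.mem_top
  exact Ideal.sum_mem _ fun j _ => Ideal.mul_mem_right _ _ (h i j)

end LM

end

end Fermat.Agent.Supp
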