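import Mathlib
import Fermat.Agent.Patch.Limit

/-!
# Simultaneous ultralimits of modules and maps
-/

set_option autoImplicit false
set_option linter.unusedSectionVars false

namespace Fermat.Agent.Supp

open Filter IsLocalRing Fermat.Agent.Patch

section one

variable {Λ P : Type*} [CommRing Λ] [CommRing P] {J : Ideal Λ} {φ : Λ →+* P} {d d' d'' : ℕ}
  {N N' N'' : Type*} [AddCommGroup N] [Module P N] [AddCommGroup N'] [Module P N']
  [AddCommGroup N''] [Module P N'']

/-- `g` is linear over `Λ` (acting through `φ`). -/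
def IsLin (φ : Λ →+* P) (g : N →+ N') : Prop := ∀ (c : Λ) (x : N), g (φ c • x) = φ c • g x

theorem IsLin.comp {g : N →+ N'} {g' : N' →+ N''} (hg : IsLin φ g) (hg' : IsLin φ g') :
    IsLin φ (g'.comp g) := fun c x => by
  rw [AddMonoidHom.comp_apply, hg, hg', AddMonoidHom.comp_apply]

theorem IsLin.add {g g' : N →+ N'} (hg : IsLin φ g) (hg' : IsLin φ g') :
    IsLin φ (g + g') := fun c x => by
  rw [AddMonoidHom.add_apply, hg, hg', AddMonoidHom.add_apply, smul_add]

theorem IsLin.id : IsLin φ (AddMonoidHom.id N) := fun _ _ => rfl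

/-- multiplication by an element of `P` -/
def sm (N : Type*) [AddCommGroup N] [Module P N] (f : P) : N →+ N := DistribSMul.toAddMonoidHom N f

@[simp] theorem sm_apply (f : P) (x : N) : sm N f x = f • x := rfl

theorem sm_one (N : Type*) [AddCommGroup N] [Module P N] : sm N (1 : P) = AddMonoidHom.id N := by
  ext x; simp

theorem sm_mul (N : Type*) [AddCommGroup N] [Module P N] (f g : P) :
    sm N (f * g) = (sm N f).comp (sm N g) := by
  ext x; simp [mul_smul]

theorem sm_add (N : Type*) [AddCommGroup N] [Module P N] (f g : P) :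
    sm N (f + g) = sm N f + sm N g := by
  ext x; simp [add_smul]

theorem IsLin.sm (f : P) : IsLin φ (sm N f) := fun c x => by
  simp only [sm_apply]
  rw [smul_comm]

/-- matrix of `g`, well defined modulo `J`. -/
noncomputable def hmat (L : Lev J φ d N) (L' : Lev J φ d' N') (g : N →+ N') :
    Matrix (Fin d') (Fin d) Λ :=
  Matrix.of fun i j => (L'.b_span (g (L.b j))).choose i

theorem hmat_spec (L : Lev J φ d N) (L' : Lev J φ d' N') (g : N →+ N') (j : Fin d) :
    g (L.b j) = ∑ i, φ (hmat L L' g i j) • L'.b i :=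
  (L'.b_span (g (L.b j))).choose_spec

theorem hmat_congr {L : Lev J φ d N} {L' : Lev J φ d' N'} {g : N →+ N'} {m : Fin d' → Λ}
    {j : Fin d} (h : g (L.b j) = ∑ i, φ (m i) • L'.b i) (i : Fin d') :
    hmat L L' g i j - m i ∈ J := by
  apply L'.congr_of_eq (c := fun i => hmat L L' g i j) (c' := m)
  rw [← hmat_spec, h]

theorem hmat_add (L : Lev J φ d N) (L' : Lev J φ d' N') (g h : N →+ N') (i : Fin d') (j : Fin d) :
    hmat L L' (g + h) i j - (hmat L L' g i j + hmat L L' h i j) ∈ J := by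
  apply hmat_congr (m := fun i => hmat L L' g i j + hmat L L' h i j)
  simp only [map_add, add_smul, Finset.sum_add_distrib, ← hmat_spec, AddMonoidHom.add_apply]

theorem hmat_comp (L : Lev J φ d N) (L' : Lev J φ d' N') (L'' : Lev J φ d'' N'') (g : N →+ N')
    (g' : N' →+ N'') (hg' : IsLin φ g') (i : Fin d'') (j : Fin d) :
    hmat L L'' (g'.comp g) i j - (hmat L' L'' g' * hmat L L' g) i j ∈ J := by
  apply hmat_congr (m := fun i => (hmat L' L'' g' * hmat L L' g) i j)
  rw [AddMonoidHom.comp_apply, hmat_spec L L' g j, map_sum]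
  have h1 : ∀ k, g' (φ (hmat L L' g k j) • L'.b k) =
      ∑ i, φ (hmat L' L'' g' i k * hmat L L' g k j) • L''.b i := by
    intro k
    rw [hg', hmat_spec L' L'' g' k, Finset.smul_sum]
    refine Finset.sum_congr rfl fun i _ => ?_
    rw [smul_smul, map_mul, mul_comm]
  simp only [h1]
  rw [Finset.sum_comm]
  refine Finset.sum_congr rfl fun i _ => ?_
  rw [Matrix.mul_apply, map_sum, Finset.sum_smul]

theorem hmat_id (L : Lev J φ d N) (i j : Fin d) :
    hmat L L (AddMonoidHom.id N) i j - (1 : Matrix (Fin d) (Fin d) Λ) i j ∈ J := by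
  apply hmat_congr (m := fun i => (1 : Matrix (Fin d) (Fin d) Λ) i j)
  rw [AddMonoidHom.id_apply, Finset.sum_eq_single j]
  · rw [Matrix.one_apply_eq, map_one, one_smul]
  · intro k _ hk
    rw [Matrix.one_apply_ne hk, map_zero, zero_smul]
  · intro h; exact absurd (Finset.mem_univ j) h

theorem hmat_sm_phi (L : Lev J φ d N) (s : Λ) (i j : Fin d) :
    hmat L L (sm N (φ s)) i j - (s • (1 : Matrix (Fin d) (Fin d) Λ)) i j ∈ J := by
  apply hmat_congr (m := fun i => (s • (1 : Matrix (Fin d) (Fin d) Λ)) i j)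
  rw [sm_apply, Finset.sum_eq_single j]
  · rw [Matrix.smul_apply, Matrix.one_apply_eq, smul_eq_mul, mul_one]
  · intro k _ hk
    rw [Matrix.smul_apply, Matrix.one_apply_ne hk, smul_zero, map_zero, zero_smul]
  · intro h; exact absurd (Finset.mem_univ j) h

/-- elements of `K N` have coordinates in `K` -/
theorem exists_coord (L' : Lev J φ d' N') (K : Ideal Λ) (y : N')
    (hy : y ∈ (K.map φ) • (⊤ : Submodule P N')) :
    ∃ c : Fin d' → Λ, (∀ i, c i ∈ K) ∧ y = ∑ i, φ (c i) • L'.b i := by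
  refine Submodule.smul_induction_on hy ?_ ?_
  · intro a ha n _
    refine Submodule.span_induction ?_ ?_ ?_ ?_ ha (p := fun a _ => ∀ n : N', ∃ c : Fin d' → Λ,
      (∀ i, c i ∈ K) ∧ a • n = ∑ i, φ (c i) • L'.b i) n
    · rintro _ ⟨k, hk, rfl⟩ n
      obtain ⟨c, hc⟩ := L'.b_span n
      refine ⟨fun i => k * c i, fun i => Ideal.mul_mem_right _ _ hk, ?_⟩
      rw [hc, Finset.smul_sum]
      refine Finset.sum_congr rfl fun i _ => ?_
      rw [smul_smul, map_mul]
    · intro n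
      exact ⟨0, fun i => K.zero_mem, by simp⟩
    · intro a a' _ _ h h' n
      obtain ⟨c, hc, hcn⟩ := h n
      obtain ⟨c', hc', hcn'⟩ := h' n
      refine ⟨c + c', fun i => K.add_mem (hc i) (hc' i), ?_⟩
      simp only [Pi.add_apply, map_add, add_smul, Finset.sum_add_distrib, hcn, hcn']
    · intro r a _ h n
      obtain ⟨c, hc, hcn⟩ := h (r • n)
      refine ⟨c, hc, ?_⟩
      rw [← hcn, smul_smul, smul_eq_mul, mul_comm]
  · rintro y y' ⟨c, hc, rfl⟩ ⟨c', hc', rfl⟩
    refine ⟨c + c', fun i => K.add_mem (hc i) (hc' i), ?_⟩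
    simp only [Pi.add_apply, map_add, add_smul, Finset.sum_add_distrib]

theorem hmat_mem (L : Lev J φ d N) (L' : Lev J φ d' N') (g : N →+ N') (K : Ideal Λ) (j : Fin d)
    (h : g (L.b j) ∈ (K.map φ) • (⊤ : Submodule P N')) (i : Fin d') :
    hmat L L' g i j ∈ K ⊔ J := by
  obtain ⟨c, hc, hcn⟩ := exists_coord L' K _ h
  have h2 := hmat_congr hcn i
  have h3 : hmat L L' g i j = c i + (hmat L L' g i j - c i) := by ring
  rw [h3]
  exact Submodule.add_mem_sup (hc i) h2

/-- the element with given coordinates -/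
def evv (L : Lev J φ d N) (u : Fin d → Λ) : N := ∑ i, φ (u i) • L.b i

theorem evv_surj (L : Lev J φ d N) (x : N) : ∃ u, evv L u = x :=
  ⟨(L.b_span x).choose, (L.b_span x).choose_spec.symm⟩

theorem evv_add (L : Lev J φ d N) (u v : Fin d → Λ) : evv L (u + v) = evv L u + evv L v := by
  simp only [evv, Pi.add_apply, map_add, add_smul, Finset.sum_add_distrib]

theorem evv_congr (L : Lev J φ d N) {u v : Fin d → Λ} (h : evv L u = evv L v) (i : Fin d) :
    u i - v i ∈ J := L.congr_of_eq h i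

theorem map_evv (L : Lev J φ d N) (L' : Lev J φ d' N') (g : N →+ N') (hg : IsLin φ g)
    (u : Fin d → Λ) : g (evv L u) = evv L' ((hmat L L' g).mulVec u) := by
  rw [evv, map_sum, evv]
  have h1 : ∀ k, g (φ (u k) • L.b k) = ∑ i, φ (hmat L L' g i k * u k) • L'.b i := by
    intro k
    rw [hg, hmat_spec L L' g k, Finset.smul_sum]
    refine Finset.sum_congr rfl fun i _ => ?_
    rw [smul_smul, map_mul, mul_comm]
  simp only [h1]
  rw [Finset.sum_comm]
  refine Finset.sum_congr rfl fun i _ => ?_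
  rw [Matrix.mulVec, dotProduct, map_sum, Finset.sum_smul]

end one

/-! ## Limits -/

section lim

variable {Λ : Type*} [CommRing Λ] [IsLocalRing Λ] [IsNoetherianRing Λ]
  [IsAdicComplete (maximalIdeal Λ) Λ] [Finite (ResidueField Λ)]

/-- the ultrafilter -/
noncomputable def UF : Ultrafilter ℕ := hyperfilter ℕ

theorem UF_le : (UF : Filter ℕ) ≤ atTop := Nat.hyperfilter_le_atTop

theorem exists_lim (a : ℕ → Λ) : ∃ l, IsULim UF (maximalIdeal Λ) a l :=
  exists_ulim (fun k => finite_quotient_pow k) a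

/-- the limit -/
noncomputable def ulim (a : ℕ → Λ) : Λ := (exists_lim a).choose

theorem ulim_spec (a : ℕ → Λ) : IsULim UF (maximalIdeal Λ) a (ulim a) := (exists_lim a).choose_spec

theorem ulim_eq {a : ℕ → Λ} {l : Λ} (h : IsULim UF (maximalIdeal Λ) a l) : ulim a = l :=
  (ulim_spec a).unique h

theorem ulim_add (a b : ℕ → Λ) : ulim (fun n => a n + b n) = ulim a + ulim b :=
  ulim_eq ((ulim_spec a).add (ulim_spec b))

theorem ulim_mul (a b : ℕ → Λ) : ulim (fun n => a n * b n) = ulim a * ulim b :=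
  ulim_eq ((ulim_spec a).mul (ulim_spec b))

theorem ulim_const (c : Λ) : ulim (fun _ => c) = c := ulim_eq (IsULim.const c)

theorem ulim_sum {ι : Type*} (s : Finset ι) (a : ι → ℕ → Λ) :
    ulim (fun n => ∑ i ∈ s, a i n) = ∑ i ∈ s, ulim (a i) :=
  ulim_eq (IsULim.sum s fun i _ => ulim_spec (a i))

/-- limits as a ring homomorphism -/
noncomputable def uh : (ℕ → Λ) →+* Λ :=
  RingHom.mk' ⟨⟨ulim, ulim_const 1⟩, ulim_mul⟩ ulim_add

theorem uh_apply (a : ℕ → Λ) : uh a = ulim a := rfl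

/-- limit of vectors -/
noncomputable def vlim {d : ℕ} (u : ℕ → Fin d → Λ) : Fin d → Λ := fun i => ulim fun n => u n i

theorem vlim_add {d : ℕ} (u v : ℕ → Fin d → Λ) :
    vlim (fun n => u n + v n) = vlim u + vlim v := funext fun _ => ulim_add _ _

theorem vlim_const {d : ℕ} (v : Fin d → Λ) : vlim (fun _ => v) = v :=
  funext fun _ => ulim_const _

theorem ulim_congr {a b : ℕ → Λ} (h : ∀ᶠ n in (UF : Filter ℕ), a n = b n) : ulim a = ulim b := by
  apply ulim_eq
  intro k
  filter_upwards [h, ulim_spec b k] with n h1 h2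
  rwa [h1]

theorem isULim_congr_of_mem {J : ℕ → Ideal Λ} (hJ : ∀ n, J n ≤ maximalIdeal Λ ^ n) {a b : ℕ → Λ}
    {l : Λ} (hab : ∀ n, a n - b n ∈ J n) (hb : IsULim UF (maximalIdeal Λ) b l) :
    IsULim UF (maximalIdeal Λ) a l := by
  have h1 := (isULim_zero_of_mem UF_le (fun n => hJ n (hab n))).add hb
  simpa using h1

theorem ulim_congr_of_mem {J : ℕ → Ideal Λ} (hJ : ∀ n, J n ≤ maximalIdeal Λ ^ n) {a b : ℕ → Λ}
    (hab : ∀ n, a n - b n ∈ J n) : ulim a = ulim b :=
  ulim_eq (isULim_congr_of_mem hJ hab (ulim_spec b))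

theorem ulim_mem {J : ℕ → Ideal Λ} (hJ : ∀ n, J n ≤ maximalIdeal Λ ^ n) {a : ℕ → Λ} {K : Ideal Λ}
    (h : ∀ n, a n ∈ K ⊔ J n) : ulim a ∈ K := by
  apply mem_of_forall_mem_sup_pow
  intro k
  obtain ⟨n, hn1, hn2⟩ := ((ulim_spec a k).and (UF_le (eventually_ge_atTop k))).exists
  have h2 : K ⊔ J n ≤ K ⊔ maximalIdeal Λ ^ k :=
    sup_le_sup le_rfl ((hJ n).trans (Ideal.pow_le_pow_right hn2))
  have h3 := Ideal.sub_mem _ (h2 (h n))
    (Ideal.mem_sup_right (S := K) (T := maximalIdeal Λ ^ k) hn1)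
  simpa using h3

theorem vlim_congr {J : ℕ → Ideal Λ} (hJ : ∀ n, J n ≤ maximalIdeal Λ ^ n) {d : ℕ}
    {u v : ℕ → Fin d → Λ} (h : ∀ n i, u n i - v n i ∈ J n) : vlim u = vlim v :=
  funext fun i => ulim_congr_of_mem hJ fun n => h n i

end lim

section mats

variable {Λ P : Type*} [CommRing Λ] [IsLocalRing Λ] [IsNoetherianRing Λ]
  [IsAdicComplete (maximalIdeal Λ) Λ] [Finite (ResidueField Λ)]
  [CommRing P] [IsLocalRing P] [IsNoetherianRing P]
  [IsAdicComplete (maximalIdeal P) P] [Finite (ResidueField P)]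
  {J : ℕ → Ideal Λ} {φ : ℕ → (Λ →+* P)} {d d' d'' : ℕ}
  {N N' N'' : ℕ → Type*} [∀ n, AddCommGroup (N n)] [∀ n, Module P (N n)]
  [∀ n, AddCommGroup (N' n)] [∀ n, Module P (N' n)]
  [∀ n, AddCommGroup (N'' n)] [∀ n, Module P (N'' n)]

/-- limit matrix of a sequence of maps -/
noncomputable def MM (L : ∀ n, Lev (J n) (φ n) d (N n)) (L' : ∀ n, Lev (J n) (φ n) d' (N' n))
    (g : ∀ n, N n →+ N' n) : Matrix (Fin d') (Fin d) Λ :=
  Matrix.of fun i j => ulim fun n => hmat (L n) (L' n) (g n) i j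

variable (hJ : ∀ n, J n ≤ maximalIdeal Λ ^ n) (L : ∀ n, Lev (J n) (φ n) d (N n))
  (L' : ∀ n, Lev (J n) (φ n) d' (N' n)) (L'' : ∀ n, Lev (J n) (φ n) d'' (N'' n))

include hJ

theorem MM_add (g h : ∀ n, N n →+ N' n) : MM L L' (fun n => g n + h n) = MM L L' g + MM L L' h := by
  ext i j
  rw [Matrix.add_apply]
  simp only [MM, Matrix.of_apply]
  rw [← ulim_add]
  exact ulim_congr_of_mem hJ fun n => hmat_add (L n) (L' n) (g n) (h n) i j

theorem MM_comp (g : ∀ n, N n →+ N' n) (g' : ∀ n, N' n →+ N'' n) (hg' : ∀ n, IsLin (φ n) (g' n)) :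
    MM L L'' (fun n => (g' n).comp (g n)) = MM L' L'' g' * MM L L' g := by
  ext i j
  rw [Matrix.mul_apply]
  simp only [MM, Matrix.of_apply]
  have h1 : ∀ k, ulim (fun n => hmat (L' n) (L'' n) (g' n) i k) *
      ulim (fun n => hmat (L n) (L' n) (g n) k j) =
      ulim fun n => hmat (L' n) (L'' n) (g' n) i k * hmat (L n) (L' n) (g n) k j := fun k =>
    (ulim_mul _ _).symm
  simp only [h1]
  rw [← ulim_sum]
  refine ulim_congr_of_mem hJ fun n => ?_
  have := hmat_comp (L n) (L' n) (L'' n) (g n) (g' n) (hg' n) i j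
  rwa [Matrix.mul_apply] at this

theorem MM_id : MM L L (fun _ => AddMonoidHom.id _) = 1 := by
  ext i j
  simp only [MM, Matrix.of_apply]
  rw [← ulim_const ((1 : Matrix (Fin d) (Fin d) Λ) i j)]
  exact ulim_congr_of_mem hJ fun n => hmat_id (L n) i j

theorem MM_sm_phi (s : Λ) : MM L L (fun n => sm (N n) (φ n s)) = s • 1 := by
  ext i j
  simp only [MM, Matrix.of_apply]
  rw [← ulim_const ((s • (1 : Matrix (Fin d) (Fin d) Λ)) i j)]
  exact ulim_congr_of_mem hJ fun n => hmat_sm_phi (L n) s i j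

theorem MM_mem (g : ∀ n, N n →+ N' n) (K : Ideal Λ)
    (h : ∀ n x, g n x ∈ (K.map (φ n)) • (⊤ : Submodule P (N' n))) (i : Fin d') (j : Fin d) :
    MM L L' g i j ∈ K := by
  simp only [MM, Matrix.of_apply]
  exact ulim_mem hJ fun n => hmat_mem (L n) (L' n) (g n) K j (h n _) i

theorem MM_eq_zero (g : ∀ n, N n →+ N' n) (h : ∀ n x, g n x = 0) : MM L L' g = 0 := by
  ext i j
  have := MM_mem hJ L L' g ⊥ (fun n x => by rw [h]; exact Submodule.zero_mem _) i j
  simpa using this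

/-- continuity of the action of `P` -/
theorem MM_sm_lim (f : ℕ → P) (F : P) (hF : IsULim UF (maximalIdeal P) f F) :
    MM L L (fun n => sm (N n) (f n)) = MM L L (fun n => sm (N n) F) := by
  have h0 : MM L L (fun n => sm (N n) (f n - F)) = 0 := by
    ext i j
    simp only [MM, Matrix.of_apply, Matrix.zero_apply]
    apply ulim_eq
    intro k
    filter_upwards [hF (Nat.card (Fin d → ResidueField Λ) * k),
      UF_le (eventually_ge_atTop k)] with n hn hkn
    rw [sub_zero]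
    have h3 : sm (N n) (f n - F) ((L n).b j) ∈
        (((maximalIdeal Λ) ^ k).map (φ n)) • (⊤ : Submodule P (N n)) :=
      (L n).smul_mem _ le_rfl k _ hn _
    have h4 := hmat_mem (L n) (L n) (sm (N n) (f n - F)) _ j h3 i
    have h5 : (maximalIdeal Λ) ^ k ⊔ J n ≤ (maximalIdeal Λ) ^ k :=
      sup_le le_rfl ((hJ n).trans (Ideal.pow_le_pow_right hkn))
    exact h5 h4
  have h1 := MM_add hJ L L (fun n => sm (N n) (f n - F)) (fun n => sm (N n) F)
  rw [h0, zero_add] at h1
  rw [← h1]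
  congr 1
  funext n
  ext x
  simp [sub_smul]

/-- the action of `P` in the limit -/
noncomputable def AA : P →+* Matrix (Fin d) (Fin d) Λ :=
  RingHom.mk' ⟨⟨fun f => MM L L (fun n => sm (N n) f), by
    simp only [sm_one]
    exact MM_id hJ L⟩, fun f g => by
    show MM L L _ = MM L L _ * MM L L _
    rw [← MM_comp hJ L L L _ _ (fun n => IsLin.sm f)]
    simp only [sm_mul]⟩ (fun f g => by
    show MM L L _ = MM L L _ + MM L L _
    rw [← MM_add hJ L L]
    simp only [sm_add])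

theorem AA_apply (f : P) : AA hJ L f = MM L L (fun n => sm (N n) f) := rfl

theorem AA_lim (f : ℕ → P) : AA hJ L (ulim f) = MM L L (fun n => sm (N n) (f n)) :=
  (MM_sm_lim hJ L f _ (ulim_spec f)).symm

omit hJ [IsAdicComplete (maximalIdeal Λ) Λ] [Finite (ResidueField Λ)] [IsLocalRing Λ]
  [IsNoetherianRing Λ] in
/-- the structure map in the limit -/
noncomputable def psi (φ : ℕ → (Λ →+* P)) : Λ →+* P :=
  RingHom.mk' ⟨⟨fun s => ulim fun n => φ n s, by
    simp only [map_one]; exact ulim_const 1⟩, fun s t => by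
    show ulim _ = ulim _ * ulim _
    rw [← ulim_mul]
    simp only [map_mul]⟩ (fun s t => by
    show ulim _ = ulim _ + ulim _
    rw [← ulim_add]
    simp only [map_add])

theorem AA_psi (s : Λ) : AA hJ L (psi φ s) = s • 1 := by
  rw [← MM_sm_phi hJ L s]
  exact AA_lim hJ L fun n => φ n s

/-- a `P`-linear sequence of maps intertwines the actions -/
theorem MM_intertwine (g : ∀ n, N n →+ N' n) (hg : ∀ n (f : P) x, g n (f • x) = f • g n x) (f : P) :
    AA hJ L' f * MM L L' g = MM L L' g * AA hJ L f := by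
  rw [AA_apply, AA_apply, ← MM_comp hJ L L' L' _ _ (fun n => IsLin.sm f),
    ← MM_comp hJ L L L' _ _ (fun n c x => hg n _ _)]
  congr 1
  funext n
  ext x
  simp [hg]

omit hJ in
theorem MM_mulVec (g : ∀ n, N n →+ N' n) (u : ℕ → Fin d → Λ) :
    (MM L L' g).mulVec (vlim u) = vlim fun n => (hmat (L n) (L' n) (g n)).mulVec (u n) := by
  funext i
  simp only [MM, vlim, Matrix.mulVec, dotProduct, Matrix.of_apply]
  simp only [← ulim_mul]
  rw [← ulim_sum]

/-- linear equations pass to the limit: surjectivity -/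
theorem MM_surj (τ : Fin 2 → ∀ n, N' n →+ N n) (hlin : ∀ k n, IsLin (φ n) (τ k n))
    (hs : ∀ n v w, ∃ z, τ 0 n z = v ∧ τ 1 n z = w) (v w : Fin d → Λ) :
    ∃ z, (MM L' L (τ 0)).mulVec z = v ∧ (MM L' L (τ 1)).mulVec z = w := by
  have h1 : ∀ n, ∃ z : Fin d' → Λ, evv (L n) ((hmat (L' n) (L n) (τ 0 n)).mulVec z) =
      evv (L n) v ∧ evv (L n) ((hmat (L' n) (L n) (τ 1 n)).mulVec z) = evv (L n) w := by
    intro n
    obtain ⟨y, hy0, hy1⟩ := hs n (evv (L n) v) (evv (L n) w)
    obtain ⟨z, rfl⟩ := evv_surj (L' n) y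
    refine ⟨z, ?_, ?_⟩
    · rw [← map_evv _ _ _ (hlin 0 n), hy0]
    · rw [← map_evv _ _ _ (hlin 1 n), hy1]
  choose z hz0 hz1 using h1
  refine ⟨vlim z, ?_, ?_⟩
  · rw [MM_mulVec, vlim_congr hJ fun n i => evv_congr (L n) (hz0 n) i, vlim_const]
  · rw [MM_mulVec, vlim_congr hJ fun n i => evv_congr (L n) (hz1 n) i, vlim_const]

/-- linear equations pass to the limit: divisibility -/
theorem MM_range (α : Fin 2 → ∀ n, N n →+ N' n) (hlin : ∀ k n, IsLin (φ n) (α k n))
    (g : ∀ n, N'' n →+ N' n) (hg : ∀ n, IsLin (φ n) (g n))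
    (hs : ∀ n v, ∃ v₀ v₁, g n v = α 0 n v₀ + α 1 n v₁) (v : Fin d'' → Λ) :
    ∃ v₀ v₁, (MM L'' L' g).mulVec v =
      (MM L L' (α 0)).mulVec v₀ + (MM L L' (α 1)).mulVec v₁ := by
  have h1 : ∀ n, ∃ v₀ v₁ : Fin d → Λ, evv (L' n) ((hmat (L'' n) (L' n) (g n)).mulVec v) =
      evv (L' n) ((hmat (L n) (L' n) (α 0 n)).mulVec v₀ +
        (hmat (L n) (L' n) (α 1 n)).mulVec v₁) := by
    intro n
    obtain ⟨y₀, y₁, hy⟩ := hs n (evv (L'' n) v)
    obtain ⟨v₀, rfl⟩ := evv_surj (L n) y₀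
    obtain ⟨v₁, rfl⟩ := evv_surj (L n) y₁
    refine ⟨v₀, v₁, ?_⟩
    rw [evv_add, ← map_evv _ _ _ (hlin 0 n), ← map_evv _ _ _ (hlin 1 n), ← map_evv _ _ _ (hg n), hy]
  choose v₀ v₁ hv using h1
  refine ⟨vlim v₀, vlim v₁, ?_⟩
  rw [MM_mulVec, MM_mulVec, ← vlim_add]
  conv_lhs => rw [← vlim_const v]
  rw [MM_mulVec]
  exact vlim_congr hJ fun n i => evv_congr (L' n) (hv n) i

end mats

end Fermat.Agent.Supp
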