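import Fermat.Agent.Supp.Spec
import Fermat.Agent.Supp.ULev
import Fermat.Agent.Patch.Main

/-!
# Taylor--Wiles levels
-/

set_option autoImplicit false
set_option linter.unusedSectionVars false
set_option linter.style.haveILetI false

namespace Fermat.Agent.Supp

open IsLocalRing Fermat.Agent.Patch

section

variable {𝒪 : Type} [CommRing 𝒪] [IsLocalRing 𝒪] [IsNoetherianRing 𝒪]
  [IsAdicComplete (maximalIdeal 𝒪) 𝒪]

/-- common structure map for all modules -/
theorem exists_phi {Δ : Type} [CommGroup Δ] [Finite Δ] (p : ℕ) [Fact p.Prime]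
    (hp : (p : 𝒪) ∈ maximalIdeal 𝒪) (hΔ : IsPGroup p Δ) {r : ℕ} (δ : Fin r → Δ)
    (hδ : Subgroup.closure (Set.range δ) = ⊤) (n : ℕ)
    (χ : Δ →* (Fin r → Multiplicative (ZMod (p ^ n))))
    (hχ : ∀ j, χ (δ j) = Pi.mulSingle j (Multiplicative.ofAdd 1))
    {R : Type} [CommRing R] [IsLocalRing R] [IsHausdorff (maximalIdeal R) R] [Algebra 𝒪 R]
    (κ : Δ →* R) (hκ : ∀ γ, κ γ - 1 ∈ maximalIdeal R)
    {P : Type} [CommRing P] [IsLocalRing P] [IsAdicComplete (maximalIdeal P) P] [Algebra 𝒪 P]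
    [IsLocalHom (algebraMap 𝒪 P)] (π : P →ₐ[𝒪] R) (hπ : Function.Surjective π) :
    ∃ (J : Ideal (MvPowerSeries (Fin r) 𝒪)) (φ : MvPowerSeries (Fin r) 𝒪 →ₐ[𝒪] P),
      J ≤ maximalIdeal _ ^ n ∧
      (∀ j, π (φ (MvPowerSeries.X j)) = κ (δ j) - 1) ∧
      (∀ c, ∃ a, π (φ c) = MonoidAlgebra.lift 𝒪 R Δ κ a) ∧
      (∀ {N : Type} [AddCommGroup N] [Module R N] [Module P N]
        (_ : ∀ (f : P) (x : N), f • x = π f • x) {d : ℕ} (b : Fin d → N)
        (_ : IsBasis (𝒪 := 𝒪) κ b),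
        Nonempty (Lev J (φ : MvPowerSeries (Fin r) 𝒪 →+* P) d N)) := by
  classical
  obtain ⟨ev, hev, hker⟩ := exists_ev p hp hΔ δ n χ hχ
  have hsurj : Function.Surjective ev := by
    apply ev_surjective δ hδ
    intro j
    exact ⟨1 + MvPowerSeries.X j, by
      show ev (1 + MvPowerSeries.X j) = _
      rw [map_add, map_one, hev, add_sub_cancel]⟩
  choose y hy using fun j => hπ (κ (δ j) - 1)
  have hym : ∀ j, y j ∈ maximalIdeal P := by
    intro j
    rw [mem_maximalIdeal, mem_nonunits_iff]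
    intro h
    have h1 := h.map π
    rw [hy] at h1
    exact (mem_nonunits_iff.mp ((mem_maximalIdeal _).mp (hκ (δ j)))) h1
  obtain ⟨φ, hφ, -⟩ := exists_eval (A := 𝒪) (R := P) y hym
  set K : MonoidAlgebra 𝒪 Δ →ₐ[𝒪] R := MonoidAlgebra.lift 𝒪 R Δ κ with hK
  have hKδ : ∀ γ, K (MonoidAlgebra.of 𝒪 Δ γ) = κ γ := fun γ => by simp [hK]
  have heq : π.comp φ = K.comp ev := by
    apply algHom_eq_of_X (maximalIdeal R) inferInstance
    · intro j
      rw [AlgHom.comp_apply, hφ, hy]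
      exact hκ _
    · intro j
      rw [AlgHom.comp_apply, hφ, hy, AlgHom.comp_apply, hev, map_sub, map_one, hKδ]
  have heq' : ∀ c, π (φ c) = K (ev c) := fun c => by
    rw [← AlgHom.comp_apply, heq, AlgHom.comp_apply]
  refine ⟨RingHom.ker ev, φ, hker, fun j => by rw [hφ, hy], fun c => ⟨ev c, heq' c⟩, ?_⟩
  intro N _ _ _ hPN d b hb
  refine ⟨⟨b, ?_, ?_⟩⟩
  · intro x
    obtain ⟨u, hu⟩ := hb.2 x
    choose c hc using fun i => hsurj (u i)
    refine ⟨c, ?_⟩
    rw [← hu]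
    refine Finset.sum_congr rfl fun i _ => ?_
    rw [RingHom.coe_coe, hPN, heq', hc]
  · intro c
    have h1 : ∑ i, (φ : MvPowerSeries (Fin r) 𝒪 →+* P) (c i) • b i = ∑ i, K (ev (c i)) • b i := by
      refine Finset.sum_congr rfl fun i _ => ?_
      rw [RingHom.coe_coe, hPN, heq']
    rw [h1]
    have h2 : ∑ i, K ((0 : Fin d → MonoidAlgebra 𝒪 Δ) i) • b i = 0 := by simp
    constructor
    · intro h i
      have h3 : (fun i => ev (c i)) = 0 := hb.1 (by
        show ∑ i, K (ev (c i)) • b i = ∑ i, K ((0 : Fin d → MonoidAlgebra 𝒪 Δ) i) • b i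
        rw [h, h2])
      exact congrFun h3 i
    · intro h
      have h3 : ∀ i, ev (c i) = 0 := fun i => h i
      simp [h3]

end

section

variable {𝒪 : Type} [CommRing 𝒪] [IsDomain 𝒪] [IsDiscreteValuationRing 𝒪]
  [IsAdicComplete (maximalIdeal 𝒪) 𝒪] [Finite (ResidueField 𝒪)] {π : Params 𝒪} {n : ℕ}

/-- the presentation -/
theorem CDatum.exists_surj (X : CDatum π n) :
    ∃ q : PP π →ₐ[𝒪] X.R, Function.Surjective q ∧
      (∀ t i, q (vf π t i) = X.f t i) ∧ (∀ t i, q (vs π t i) = X.s t i) ∧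
      (∀ t, q (vx π t) = X.x t) ∧ (∀ t, q (vn π t) = X.nn t) ∧ (∀ t, q (vb π t) = X.b t) ∧
      (∀ s ∈ maximalIdeal (PP π), q s ∈ maximalIdeal X.R) := by
  classical
  let val : Var π → X.R := Sum.elim
    (fun q => if q.2.1 then X.s q.1 q.2.2 else X.f q.1 q.2.2)
    (Sum.elim (fun q => (![X.x q.1, X.nn q.1, X.b q.1] : Fin 3 → X.R) q.2) X.y)
  obtain ⟨q, hq, hqm⟩ := exists_eval (A := 𝒪) (R := X.R) (σ := Var π) val (by
    rintro (⟨t, b, i⟩ | ⟨t, i⟩ | j)
    · cases b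
      · exact X.f_mem _ _
      · exact X.s_mem _ _
    · fin_cases i
      · exact X.x_mem _
      · exact X.nn_mem _
      · exact X.b_mem _
    · exact X.y_mem j)
  have h1 : ∀ t i, q (vf π t i) = X.f t i := fun t i => by rw [vf, hq]; simp [val]
  have h2 : ∀ t i, q (vs π t i) = X.s t i := fun t i => by rw [vs, hq]; simp [val]
  have h3 : ∀ t, q (vx π t) = X.x t := fun t => by rw [vx, hq]; simp [val]
  have h4 : ∀ t, q (vn π t) = X.nn t := fun t => by rw [vn, hq]; simp [val]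
  have h5 : ∀ t, q (vb π t) = X.b t := fun t => by rw [vb, hq]; simp [val]
  have h6 : ∀ j, q (vy π j) = X.y j := fun j => by rw [vy, hq]; simp [val]
  have hC : ∀ a : 𝒪, q (MvPowerSeries.C a) = algebraMap 𝒪 X.R a := fun a => q.commutes a
  refine ⟨q, ?_, h1, h2, h3, h4, h5, hqm⟩
  apply surjective_of_maximalIdeal_le (q : PP π →+* X.R) hqm
  · intro b
    obtain ⟨a, ha⟩ := X.residue_surj b
    exact ⟨MvPowerSeries.C a, by rw [RingHom.coe_coe, hC]; exact ha⟩
  · have hX : ∀ v : Var π, q (MvPowerSeries.X v) ∈ (maximalIdeal (PP π)).map (q : PP π →+* X.R) :=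
      fun v => Ideal.mem_map_of_mem (q : PP π →+* X.R) (DefRing.X_mem_maximalIdeal v)
    refine X.gen.trans (sup_le_sup_right (sup_le ?_ ?_) _)
    · rw [Ideal.map_le_iff_le_comap]
      intro a ha
      rw [Ideal.mem_comap, ← hC]
      exact Ideal.mem_map_of_mem (q : PP π →+* X.R) (C_mem_maximalIdeal_iff'.mpr ha)
    · rw [Ideal.span_le]
      rintro _ (((((⟨t, i, rfl⟩ | ⟨t, i, rfl⟩) | ⟨t, rfl⟩) | ⟨t, rfl⟩) | ⟨t, rfl⟩) | ⟨j, rfl⟩)
      · rw [← h1]; exact hX _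
      · rw [← h2]; exact hX _
      · rw [← h3]; exact hX _
      · rw [← h4]; exact hX _
      · rw [← h5]; exact hX _
      · rw [← h6]; exact hX _

theorem CDatum.wW_mem (X : CDatum π n) (x : X.R) (hx : x ∈ maximalIdeal X.R) :
    X.wW x ∈ maximalIdeal 𝒪 := by
  by_contra h
  have hu : IsUnit (X.wW x) := by
    by_contra h'
    exact h ((mem_maximalIdeal _).mpr h')
  have h1 : IsUnit (x - algebraMap 𝒪 X.R (X.wW x)) := by
    by_contra h'
    have h2 := (mem_maximalIdeal _).mpr h'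
    have h3 := Ideal.sub_mem _ hx h2
    rw [sub_sub_cancel] at h3
    exact (mem_nonunits_iff.mp ((mem_maximalIdeal _).mp h3)) (hu.map _)
  have h4 := h1.map X.wW
  rw [map_sub, X.wW_alg, sub_self] at h4
  exact not_isUnit_zero h4

/-- the augmentation ideal is generated by `κ (δ j) - 1` -/
theorem CDatum.aug_le (X : CDatum π n) : Ideal.span {z : X.R | ∃ γ, z = X.κ γ - 1} ≤
    Ideal.span (Set.range fun j => X.κ (X.δ j) - 1) := by
  rw [Ideal.span_le]
  rintro _ ⟨γ, rfl⟩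
  have hγ : γ ∈ Subgroup.closure (Set.range X.δ) := by rw [X.closure_δ]; trivial
  show X.κ γ - 1 ∈ Ideal.span (Set.range fun j => X.κ (X.δ j) - 1)
  induction hγ using Subgroup.closure_induction with
  | mem x hx => obtain ⟨j, rfl⟩ := hx; exact Ideal.subset_span ⟨j, rfl⟩
  | one => rw [map_one, sub_self]; exact Ideal.zero_mem _
  | mul x y _ _ hx hy =>
    have h : X.κ (x * y) - 1 = X.κ x * (X.κ y - 1) + (X.κ x - 1) := by rw [map_mul]; ring
    rw [h]
    exact Ideal.add_mem _ (Ideal.mul_mem_left _ _ hy) hx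
  | inv x _ hx =>
    have h0 : X.κ x⁻¹ * X.κ x = 1 := by rw [← map_mul, inv_mul_cancel, map_one]
    have h : X.κ x⁻¹ - 1 = -(X.κ x⁻¹ * (X.κ x - 1)) := by rw [mul_sub, h0]; ring
    rw [h]
    exact Submodule.neg_mem _ (Ideal.mul_mem_left _ _ hx)

end

end Fermat.Agent.Supp
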