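import Fermat.Agent.Supp.Core
import Fermat.Agent.Supp.LM
import Fermat.Agent.Supp.Level

/-!
# The main theorem of the support argument
-/

set_option autoImplicit false
set_option linter.unusedSectionVars false
set_option linter.style.haveILetI false

namespace Fermat.Agent.Supp

open Filter IsLocalRing Fermat.Agent.Patch

/-- limits of ring homomorphisms -/
theorem ulim_hom {P 𝒪 : Type*} [CommRing P] [IsLocalRing P] [IsNoetherianRing P]
    [IsAdicComplete (maximalIdeal P) P] [Finite (ResidueField P)]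
    [CommRing 𝒪] [IsLocalRing 𝒪] [IsNoetherianRing 𝒪]
    [IsAdicComplete (maximalIdeal 𝒪) 𝒪] [Finite (ResidueField 𝒪)]
    (w : ℕ → (P →+* 𝒪)) (hw : ∀ n, ∀ x ∈ maximalIdeal P, w n x ∈ maximalIdeal 𝒪) (f : ℕ → P) :
    ulim (fun n => w n (ulim f)) = ulim (fun n => w n (f n)) := by
  apply ulim_eq
  intro k
  filter_upwards [ulim_spec (fun n => w n (f n)) k, ulim_spec f k] with n h1 h2
  have h3 : w n (f n - ulim f) ∈ maximalIdeal 𝒪 ^ k := by
    have h4 : (maximalIdeal P ^ k).map (w n) ≤ maximalIdeal 𝒪 ^ k := by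
      rw [Ideal.map_pow]
      exact Ideal.pow_right_mono (by
        rw [Ideal.map_le_iff_le_comap]
        exact fun x hx => hw n x hx) k
    exact h4 (Ideal.mem_map_of_mem _ h2)
  have h5 : w n (ulim f) - ulim (fun n => w n (f n)) =
      (w n (f n) - ulim (fun n => w n (f n))) - w n (f n - ulim f) := by
    rw [map_sub]; ring
  rw [h5]
  exact Ideal.sub_mem _ h1 h3

theorem chain_main (hC1 : CompStmt) : ChainMain := by
  classical
  intro 𝒪 _ _ _ _ _ π hX
  haveI : Fact π.p.Prime := ⟨π.p_prime⟩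
  -- constant ranks
  obtain ⟨dd, hdd⟩ : ∃ dd : Fin (π.m + 1) → ℕ, ∀ m, ∃ n, m ≤ n ∧
      ∀ i : Fin (π.m + 1), (hX n).some.d i = dd i := by
    obtain ⟨y, hy⟩ := Finite.exists_infinite_fiber
      (fun n : ℕ => (fun i : Fin (π.m + 1) => (⟨(hX n).some.d i,
        Nat.lt_succ_of_le ((hX n).some.d_le i (Nat.lt_succ_iff.mp i.2))⟩ : Fin (π.D + 1))))
    refine ⟨fun i => y i, fun m => ?_⟩
    rw [Set.infinite_coe_iff] at hy
    obtain ⟨n, hn, hmn⟩ := hy.exists_gt m
    exact ⟨n, hmn.le, fun i => congrArg Fin.val (congrFun hn i)⟩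
  choose nn hnn hd using hdd
  let X : ∀ m, CDatum π (nn m) := fun m => (hX (nn m)).some
  have hd' : ∀ m (i : Fin (π.m + 1)), (X m).d i = dd i := fun m i => hd m i
  have hΛdom : IsDomain (MvPowerSeries (Fin π.r) 𝒪) := NoZeroDivisors.to_isDomain _
  have hPfin : Finite (ResidueField (PP π)) := finite_residueField_mvPowerSeries 𝒪 (Var π)
  have hΛfin : Finite (ResidueField (MvPowerSeries (Fin π.r) 𝒪)) :=
    finite_residueField_mvPowerSeries 𝒪 (Fin π.r)
  have hPloc : IsLocalHom (algebraMap 𝒪 (PP π)) := by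
    constructor
    intro a ha
    rw [MvPowerSeries.algebraMap_apply, MvPowerSeries.isUnit_iff_constantCoeff,
      MvPowerSeries.constantCoeff_C] at ha
    exact ha
  choose q hq qf qs qx qn qb qm using fun m => (X m).exists_surj
  choose J φ hJ' hφX hφ hL using fun m => exists_phi π.p π.p_mem (X m).isPGroup (X m).δ
    (X m).closure_δ (nn m) (X m).χ (X m).χ_δ (X m).κ (X m).κ_mem (q m) (hq m)
  have hJ : ∀ m, J m ≤ maximalIdeal (MvPowerSeries (Fin π.r) 𝒪) ^ m := fun m =>
    (hJ' m).trans (Ideal.pow_le_pow_right (hnn m))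
  let φ' : ∀ m, MvPowerSeries (Fin π.r) 𝒪 →+* PP π := fun m =>
    (φ m : MvPowerSeries (Fin π.r) 𝒪 →+* PP π)
  let _ : ∀ m i, Module (PP π) ((X m).A i) := fun m i =>
    Module.compHom _ (q m : PP π →+* (X m).R)
  have hsmul : ∀ m i (f : PP π) (y : (X m).A i), f • y = q m f • y := fun m i f y => rfl
  have hqC : ∀ m (a : 𝒪), q m (MvPowerSeries.C a) = algebraMap 𝒪 (X m).R a := fun m a =>
    (q m).commutes a
  let NN : Fin (π.m + 1) → ℕ → Type := fun i m => (X m).A i
  have hLev : ∀ (i : Fin (π.m + 1)) m, Nonempty (Lev (J m) (φ' m) (dd i) (NN i m)) := by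
    intro i m
    have h1 := hL m (hsmul m i) ((X m).bA i) ((X m).bA_basis i (Nat.lt_succ_iff.mp i.2))
    rw [hd' m i] at h1
    exact h1
  let L : ∀ (i : Fin (π.m + 1)) m, Lev (J m) (φ' m) (dd i) (NN i m) := fun i m => (hLev i m).some
  -- the limits
  let A : ∀ i : Fin (π.m + 1), PP π →+* Matrix (Fin (dd i)) (Fin (dd i))
    (MvPowerSeries (Fin π.r) 𝒪) := fun i => AA hJ (L i)
  let ψ : MvPowerSeries (Fin π.r) 𝒪 →+* PP π := psi φ'
  have hψ : ∀ i s, A i (ψ s) = s • 1 := fun i s => AA_psi hJ (L i) s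
  letI : Algebra (MvPowerSeries (Fin π.r) 𝒪) (PP π) := ψ.toAlgebra
  haveI : ∀ i, IsScalarTower (MvPowerSeries (Fin π.r) 𝒪) (PP π) (LM (A i)) := fun i =>
    LM.isScalarTower (A i) (hψ i)
  have hzero : ∀ (i : Fin (π.m + 1)) (f : PP π), (∀ m (y : (X m).A i), q m f • y = 0) →
      ∀ v : LM (A i), f • v = 0 := by
    intro i f hf
    apply LM.smul_eq_zero_of
    exact MM_eq_zero hJ (L i) (L i) _ fun m x => hf m x
  have hlinP : ∀ {m : ℕ} {i j : ℕ} (g : (X m).A i →+ (X m).A j),
      (∀ (a : (X m).R) v, g (a • v) = a • g v) → IsLin (φ' m) g := fun g hg c x => hg _ _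
  -- the ring homomorphism `w`
  let w' : ∀ m, PP π →+* 𝒪 := fun m => (X m).wW.comp (q m : PP π →+* (X m).R)
  have hw'm : ∀ m, ∀ x ∈ maximalIdeal (PP π), w' m x ∈ maximalIdeal 𝒪 := fun m x hx =>
    (X m).wW_mem _ (qm m x hx)
  let w : PP π →+* 𝒪 := (uh (Λ := 𝒪)).comp (Pi.ringHom w')
  have hw : ∀ f, w f = ulim fun m => w' m f := fun f => rfl
  have hwlim : ∀ f : ℕ → PP π, w (ulim f) = ulim fun m => w' m (f m) := fun f =>
    ulim_hom w' hw'm f
  -- lifts of `θ`
  choose θ' hθ' using fun m => hq m (X m).θ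
  -- lifts of the matrices
  choose mat' hmat' using fun m (i : ℕ) (k l : Fin 2) => hq m ((X m).mat i k l)
  have hdet' : ∀ m (i : ℕ), q m (Matrix.of (mat' m i)).det = ((X m).mat i).det := by
    intro m i
    have h1 : q m (Matrix.of (mat' m i)).det =
        ((q m : PP π →+* (X m).R).mapMatrix (Matrix.of (mat' m i))).det :=
      RingHom.map_det (q m : PP π →+* (X m).R) _
    rw [h1]
    congr 1
    ext k l
    exact hmat' m i k l
  let mat : Fin π.m → Matrix (Fin 2) (Fin 2) (PP π) := fun i =>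
    Matrix.of fun k l => ulim fun m => mat' m i k l
  have hmatdet : ∀ i : Fin π.m, (mat i).det = ulim fun m => (Matrix.of (mat' m i)).det := by
    intro i
    have h1 := RingHom.map_det (uh (Λ := PP π))
      (Matrix.of fun k l => (fun m => mat' m i k l) : Matrix (Fin 2) (Fin 2) (ℕ → PP π))
    have h2 : (uh (Λ := PP π)).mapMatrix
        (Matrix.of fun k l => (fun m => mat' m i k l) : Matrix (Fin 2) (Fin 2) (ℕ → PP π)) =
        mat i := by
      ext k l; rfl
    rw [h2] at h1
    rw [← h1, uh_apply]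
    congr 1
  -- determinants
  have hdet : ∀ (i : Fin π.m) (f : PP π) (a : ∀ m, (X m).R),
      (∀ m, ((X m).mat i).det = a m * q m f) →
      ∃ a : PP π, ∀ v : LM (A i.castSucc), (mat i).det • v = (a * f) • v := by
    intro i f a ha
    choose a' ha' using fun m => hq m (a m)
    refine ⟨ulim a', fun v => ?_⟩
    have h1 : ulim a' * f = ulim fun m => a' m * f := by rw [ulim_mul, ulim_const]
    rw [LM.smul_def, LM.smul_def, hmatdet, h1]
    show (AA hJ (L i.castSucc) _).mulVec _ = (AA hJ (L i.castSucc) _).mulVec _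
    rw [AA_lim, AA_lim]
    congr 2
    funext m
    ext x
    rw [sm_apply, sm_apply]
    show q m _ • x = q m _ • x
    rw [hdet', map_mul, ha', ha]
  have hcoker : ∀ (i : Fin π.m) (f : PP π),
      (∀ m (v : (X m).A (i + 1)), ∃ v₀ v₁, q m f • v = (X m).α i 0 v₀ + (X m).α i 1 v₁) →
      ∀ v : LM (A i.succ), ∃ v₀ v₁, f • v =
        LM.mv (A i.castSucc) (A i.succ)
          (MM (L i.castSucc) (L i.succ) fun m => (X m).α i 0) v₀ +
        LM.mv (A i.castSucc) (A i.succ)
          (MM (L i.castSucc) (L i.succ) fun m => (X m).α i 1) v₁ := by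
    intro i f hf v
    exact MM_range hJ (L i.castSucc) (L i.succ) (L i.succ) (fun k m => (X m).α i k)
      (fun k m => hlinP _ fun a v => (X m).α_smul i i.2 k a v)
      (fun m => sm ((X m).A (i + 1)) f) (fun m => IsLin.sm f) hf v
  refine core π hC1 ?_ (MvPowerSeries.C (σ := Fin π.r)) ?_ ?_ (fun i => LM (A i))
    (fun i => LM.torsionFree (A i)) (LM.nontrivial (A 0) ?_)
    ?_ ?_ ?_ ?_ ?_ ?_ ?_
    (fun i k => LM.mv (A i.castSucc) (A i.succ)
      (MM (L i.castSucc) (L i.succ) fun m => (X m).α i k))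
    (fun i k => LM.mv_add _ _ _) ?_
    (fun i k => LM.mv (A i.succ) (A i.castSucc)
      (MM (L i.succ) (L i.castSucc) fun m => (X m).ρ i k))
    (fun i k => LM.mv_add _ _ _) (fun i k => LM.mv_smul _ _ _) ?_
    (fun i k => LM.mv (A i.succ) (A i.castSucc)
      (MM (L i.succ) (L i.castSucc) fun m => (X m).τ i k))
    (fun i k => LM.mv_add _ _ _) ?_ ?_ mat ?_ ?_ ?_ ?_ ?_ w ?_ ?_ ?_ (ulim θ') ?_ ?_
  · -- dimension
    have h1 := Patch.dim_lambda 𝒪 π.r
    have h2 : 3 * Fintype.card π.S + Fintype.card π.X + π.g + 1 = π.r + 1 := by rw [π.r_eq]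
    rw [h2]
    exact_mod_cast h1
  · -- constants
    intro a
    show psi φ' (MvPowerSeries.C a) = _
    show ulim (fun m => φ' m (MvPowerSeries.C a)) = _
    have h1 : ∀ m, φ' m (MvPowerSeries.C a) = MvPowerSeries.C a := fun m => (φ m).commutes a
    simp only [h1]
    exact ulim_const _
  · intro a ha
    exact MvPowerSeries.C_injective (by rw [ha, map_zero])
  · rw [← hd' 0 0]
    exact (X 0).d_zero
  · -- rel_s
    intro i t hit j
    exact hzero i _ fun m y => by
      rw [qs]; exact (X m).rel_s i (Nat.lt_succ_iff.mp i.2) t hit j y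
  · intro i t hit
    exact hzero i _ fun m y => by
      rw [qn]; exact (X m).rel_nn i (Nat.lt_succ_iff.mp i.2) t hit y
  · intro i t hit
    exact hzero i _ fun m y => by
      rw [qb]; exact (X m).rel_b i (Nat.lt_succ_iff.mp i.2) t hit y
  · intro i t hit j k
    exact hzero i _ fun m y => by
      have h1 := stRel_map (q m : PP π →+* (X m).R) (MvPowerSeries.C (π.h t)) (vf π t) (vs π t) k
      rw [map_mul, qs]
      rw [RingHom.coe_coe] at h1
      rw [h1, hqC]
      simp only [qf, qs]
      exact (X m).rel_s_st i (Nat.lt_succ_iff.mp i.2) t hit j k y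
  · intro i t hit
    exact hzero i _ fun m y => by
      rw [map_mul, qn, qb]; exact (X m).rel_nn_b i (Nat.lt_succ_iff.mp i.2) t hit y
  · intro i t hit
    exact hzero i _ fun m y => by
      rw [map_mul, qn, qx]; exact (X m).rel_nn_x i (Nat.lt_succ_iff.mp i.2) t hit y
  · intro i t hit
    exact hzero i _ fun m y => by
      rw [map_mul, map_sub, qb, qx, hqC]
      exact (X m).rel_b_x i (Nat.lt_succ_iff.mp i.2) t hit y
  · -- α_smul
    intro i k a v
    refine LM.mv_smul_of _ _ _ _ ?_ v
    exact MM_intertwine hJ (L i.castSucc) (L i.succ) _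
      (fun m f x => (X m).α_smul i i.2 k (q m f) x) a
  · -- ρ_α
    intro i k l v
    rw [LM.mv_mv]
    have hρlin : ∀ m, IsLin (φ' m) ((X m).ρ i k) := by
      intro m c x
      obtain ⟨a, ha⟩ := hφ m c
      show (X m).ρ i k (q m (φ m c) • x) = q m (φ m c) • (X m).ρ i k x
      rw [ha]
      exact (X m).ρ_smul i i.2 k a x
    rw [← MM_comp hJ (L i.castSucc) (L i.succ) (L i.castSucc) _ _ hρlin]
    by_cases hkl : k = l
    · rw [if_pos hkl]
      have h1 : (fun m => ((X m).ρ i k).comp ((X m).α i l)) =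
          fun m => AddMonoidHom.id ((X m).A i) := by
        funext m
        ext x
        rw [AddMonoidHom.comp_apply, (X m).ρ_α i i.2, if_pos hkl]
        rfl
      have h2 : MM (L i.castSucc) (L i.castSucc) (fun m => ((X m).ρ i k).comp ((X m).α i l)) = 1 := by
        rw [h1]; exact MM_id hJ (L i.castSucc)
      rw [h2]
      exact LM.mv_one _ _
    · rw [if_neg hkl]
      have h2 : MM (L i.castSucc) (L i.castSucc) (fun m => ((X m).ρ i k).comp ((X m).α i l)) = 0 := by
        apply MM_eq_zero hJ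
        intro m x
        rw [AddMonoidHom.comp_apply, (X m).ρ_α i i.2, if_neg hkl]
      rw [h2]
      exact LM.mv_zero_left _ _ _
  · -- τ_smul
    intro i k a v
    refine LM.mv_smul_of _ _ _ _ ?_ v
    exact MM_intertwine hJ (L i.succ) (L i.castSucc) _
      (fun m f x => (X m).τ_smul i i.2 k (q m f) x) a
  · -- τ_surj
    intro i v w
    exact MM_surj hJ (L i.castSucc) (L i.succ) (fun k m => (X m).τ i k)
      (fun k m => hlinP _ fun a v => (X m).τ_smul i i.2 k a v)
      (fun m v w => (X m).τ_surj i i.2 v w) v w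
  · -- τ_α
    intro i k l v
    rw [LM.mv_mv]
    rw [← MM_comp hJ (L i.castSucc) (L i.succ) (L i.castSucc) _ _
      (fun m => hlinP _ fun a v => (X m).τ_smul i i.2 k a v)]
    have h1 : (fun m => ((X m).τ i k).comp ((X m).α i l)) =
        fun m => sm ((X m).A i) (mat' m i k l) := by
      funext m
      ext x
      rw [AddMonoidHom.comp_apply, (X m).τ_α i i.2, sm_apply, hsmul, hmat']
    have h2 : MM (L i.castSucc) (L i.castSucc) (fun m => ((X m).τ i k).comp ((X m).α i l)) =
        A i.castSucc (mat i k l) := by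
      rw [h1]
      exact (AA_lim hJ (L i.castSucc) fun m => mat' m i k l).symm
    rw [h2]
    exact LM.mv_self _ _ _
  · -- det_S
    intro i t ht
    choose a ha using fun m => (X m).det_S i t ht
    refine hdet i _ a fun m => ?_
    rw [ha]
    simp only [map_sub, map_add, map_mul, map_pow, qf, hqC]
  · intro i t ht
    choose a ha using fun m => (X m).det_X i t ht
    refine hdet i _ a fun m => ?_
    rw [ha, qx]
  · -- coker_S
    intro i t ht k
    refine hcoker i _ fun m v => ?_
    have h1 := stRel_map (q m : PP π →+* (X m).R) (MvPowerSeries.C (π.h t)) (vf π t) (vs π t) k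
    rw [RingHom.coe_coe] at h1
    rw [h1, hqC]
    simp only [qf, qs]
    exact (X m).coker_S i t ht k v
  · intro i t ht
    refine hcoker i _ fun m v => ?_
    rw [map_mul, map_sub, qx, hqC]
    exact (X m).coker_X i t ht v
  · -- w_S
    intro t k
    rw [hw]
    have h1 : ∀ m, w' m (stRel (MvPowerSeries.C (π.h t)) (vf π t) (vs π t) k) = 0 := by
      intro m
      have h1 := stRel_map (q m : PP π →+* (X m).R) (MvPowerSeries.C (π.h t)) (vf π t) (vs π t) k
      show (X m).wW ((q m : PP π →+* (X m).R) _) = 0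
      rw [h1]
      simp only [RingHom.coe_coe, hqC, qf, qs]
      exact (X m).wW_S t k
    simp only [h1]
    exact ulim_const 0
  · intro t
    rw [hw]
    have h1 : ∀ m, w' m (vx π t) = 0 := fun m => by
      show (X m).wW (q m _) = 0
      rw [qx, (X m).wW_x]
    simp only [h1]
    exact ulim_const 0
  · intro t
    rw [hw]
    have h1 : ∀ m, w' m (vb π t) = 0 := fun m => by
      show (X m).wW (q m _) = 0
      rw [qb, (X m).wW_b]
    simp only [h1]
    exact ulim_const 0
  · -- w θ
    rw [hwlim]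
    have h1 : ∀ m, w' m (θ' m) = π.cθ := fun m => by
      show (X m).wW (q m _) = _
      rw [hθ', (X m).θ_wW]
    simp only [h1]
    rw [ulim_const]
    exact π.cθ_ne
  · -- θ
    intro v
    refine LM.smul_mem_of (A (Fin.last π.m)) (RingHom.ker w) ψ (hψ _) _
      (Ideal.span (Set.range MvPowerSeries.X)) ?_ ?_ v
    · intro s hs
      have h2 : Ideal.span (Set.range (MvPowerSeries.X : Fin π.r → MvPowerSeries (Fin π.r) 𝒪)) ≤
          (RingHom.ker w).comap ψ := by
        rw [Ideal.span_le]
        rintro _ ⟨j, rfl⟩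
        show w (ulim fun m => φ' m (MvPowerSeries.X j)) = 0
        rw [hwlim]
        have h1 : ∀ m, w' m (φ' m (MvPowerSeries.X j)) = 0 := fun m => by
          show (X m).wW (q m (φ m (MvPowerSeries.X j))) = 0
          rw [hφX, map_sub, (X m).wW_κ, map_one, sub_self]
        simp only [h1]
        exact ulim_const 0
      exact h2 hs
    · show ∀ i j, AA hJ (L (Fin.last π.m)) (ulim θ') i j ∈ _
      rw [AA_lim]
      refine MM_mem hJ _ _ _ _ fun m x => ?_
      show q m (θ' m) • x ∈ _
      rw [hθ']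
      have h1 := Submodule.smul_mono_left ((X m).aug_le) ((X m).θ_A x)
      refine Submodule.smul_induction_on h1 ?_ ?_
      · intro a ha y _
        refine Submodule.span_induction (p := fun a _ => ∀ y : (X m).A π.m,
          a • y ∈ (Ideal.span (Set.range MvPowerSeries.X)).map (φ' m) •
            (⊤ : Submodule (PP π) ((X m).A π.m))) ?_ ?_ ?_ ?_ ha y
        · rintro _ ⟨j, rfl⟩ y
          show ((X m).κ ((X m).δ j) - 1) • y ∈ _
          rw [← hφX, ← hsmul]
          exact Submodule.smul_mem_smul (Ideal.mem_map_of_mem _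
            (Ideal.subset_span ⟨j, rfl⟩)) Submodule.mem_top
        · intro y
          rw [zero_smul]; exact Submodule.zero_mem _
        · intro a a' _ _ h h' y
          rw [add_smul]; exact Submodule.add_mem _ (h y) (h' y)
        · intro r a _ h y
          rw [smul_eq_mul, mul_comm, mul_smul]
          exact h (r • y)
      · intro x y hx hy
        exact Submodule.add_mem _ hx hy

end Fermat.Agent.Supp
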