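import Fermat.Agent.Supp.ToricPoly
import Fermat.Agent.Patch.Limit
import Fermat.Agent.Patch.Eval

/-!
# Kernels of monomial substitutions: power series
-/

set_option autoImplicit false

namespace Fermat.Agent.Supp

open MvPolynomial IsLocalRing

section PS

variable {k σ τ : Type*} [CommRing k] [IsLocalRing k] [IsNoetherianRing k]
  [IsAdicComplete (maximalIdeal k) k] [Fintype σ] [Finite τ]
  {D : σ → Prop} [DecidablePred D] {c : σ → k} {M : σ → (τ →₀ ℕ)}

/-- power series whose coefficients of weight `< N` vanish -/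
def wfil (k : Type*) [CommRing k] (ω : τ → ℕ) (N : ℕ) : Ideal (MvPowerSeries τ k) where
  carrier := {F | ∀ E : τ →₀ ℕ, wgt ω E < N → MvPowerSeries.coeff E F = 0}
  zero_mem' E _ := by simp
  add_mem' ha hb E hE := by rw [map_add, ha E hE, hb E hE, add_zero]
  smul_mem' x y hy E hE := by
    classical
    rw [smul_eq_mul, MvPowerSeries.coeff_mul]
    refine Finset.sum_eq_zero fun q hq => ?_
    have h2 : q.1 + q.2 = E := Finset.HasAntidiagonal.mem_antidiagonal.mp hq
    have h3 : wgt ω q.1 + wgt ω q.2 = wgt ω E := by rw [← map_add, h2]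
    rw [hy q.2 (by omega), mul_zero]

omit [IsLocalRing k] [IsNoetherianRing k] [IsAdicComplete (maximalIdeal k) k] [Finite τ] in
theorem mem_wfil {ω : τ → ℕ} {N : ℕ} {F : MvPowerSeries τ k} :
    F ∈ wfil k ω N ↔ ∀ E : τ →₀ ℕ, wgt ω E < N → MvPowerSeries.coeff E F = 0 := Iff.rfl

omit [IsLocalRing k] [IsNoetherianRing k] [IsAdicComplete (maximalIdeal k) k] [Finite τ] in
theorem wfil_mul (ω : τ → ℕ) (N N' : ℕ) : wfil k ω N * wfil k ω N' ≤ wfil k ω (N + N') := by
  classical
  rw [Ideal.mul_le]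
  intro x hx y hy
  rw [mem_wfil]
  intro E hE
  rw [MvPowerSeries.coeff_mul]
  refine Finset.sum_eq_zero fun q hq => ?_
  have h2 : q.1 + q.2 = E := Finset.HasAntidiagonal.mem_antidiagonal.mp hq
  have h3 : wgt ω q.1 + wgt ω q.2 = wgt ω E := by rw [← map_add, h2]
  by_cases h : wgt ω q.1 < N
  · rw [hx q.1 h, zero_mul]
  · rw [hy q.2 (by omega), mul_zero]

omit [IsLocalRing k] [IsNoetherianRing k] [IsAdicComplete (maximalIdeal k) k] [Finite τ] in
theorem wfil_pow (ω : τ → ℕ) (N : ℕ) : wfil k ω 1 ^ N ≤ wfil k ω N := by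
  induction N with
  | zero =>
    intro F _
    rw [mem_wfil]
    intro E hE
    omega
  | succ N ih =>
    rw [pow_succ]
    exact (Ideal.mul_mono_left ih).trans (wfil_mul ω N 1)

omit [IsLocalRing k] [IsNoetherianRing k] [IsAdicComplete (maximalIdeal k) k] [Finite τ]
  [Fintype σ] in
theorem mimg_mem_wfil (ω : τ → ℕ) (hω : ∀ v, ¬ D v → wgt ω (M v) = 1) (v : σ) :
    (mimg D c M v : MvPowerSeries τ k) ∈ wfil k ω 1 := by
  classical
  rw [mem_wfil]
  intro E hE
  rw [MvPolynomial.coeff_coe, mimg]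
  split_ifs with hv
  · rw [coeff_zero]
  · rw [coeff_monomial, if_neg]
    intro h
    rw [← h, hω v hv] at hE
    omega

theorem exists_Theta (ω : τ → ℕ) (hω : ∀ v, ¬ D v → wgt ω (M v) = 1) :
    ∃ Θ : MvPowerSeries σ k →ₐ[k] MvPowerSeries τ k,
      ∀ v, Θ (MvPowerSeries.X v) = (mimg D c M v : MvPowerSeries τ k) := by
  have hloc : IsLocalHom (algebraMap k (MvPowerSeries τ k)) := by
    constructor
    intro a ha
    have : IsUnit (MvPowerSeries.C a : MvPowerSeries τ k) := ha
    rwa [MvPowerSeries.isUnit_iff_constantCoeff, MvPowerSeries.constantCoeff_C] at this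
  obtain ⟨Θ, hΘ, -⟩ := Patch.exists_eval (A := k) (R := MvPowerSeries τ k) (σ := σ)
    (fun v => (mimg D c M v : MvPowerSeries τ k)) (by
      intro v
      rw [mem_maximalIdeal, mem_nonunits_iff, MvPowerSeries.isUnit_iff_constantCoeff,
        ← MvPowerSeries.coeff_zero_eq_constantCoeff_apply,
        mimg_mem_wfil ω hω v 0 (by rw [map_zero]; omega)]
      exact not_isUnit_zero)
  exact ⟨Θ, hΘ⟩

omit [IsLocalRing k] [IsNoetherianRing k] [IsAdicComplete (maximalIdeal k) k] [Finite τ]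
  [Fintype σ] in
theorem Theta_coe (Θ : MvPowerSeries σ k →ₐ[k] MvPowerSeries τ k)
    (hΘ : ∀ v, Θ (MvPowerSeries.X v) = (mimg D c M v : MvPowerSeries τ k))
    (p : MvPolynomial σ k) : Θ (p : MvPowerSeries σ k) = (mth D c M p : MvPowerSeries τ k) := by
  induction p using MvPolynomial.induction_on with
  | C a =>
    rw [MvPolynomial.coe_C, MvPolynomial.algHom_C, MvPolynomial.algebraMap_eq, MvPolynomial.coe_C]
    exact Θ.commutes a
  | add p q hp hq => rw [MvPolynomial.coe_add, map_add, hp, hq, map_add, MvPolynomial.coe_add]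
  | mul_X p v hp =>
    rw [MvPolynomial.coe_mul, map_mul, hp, MvPolynomial.coe_X, hΘ, map_mul, MvPolynomial.coe_mul,
      mth, aeval_X]

/-- **Kernel of a monomial substitution of power series.** -/
theorem mem_of_Theta_eq_zero (Θ : MvPowerSeries σ k →ₐ[k] MvPowerSeries τ k)
    (hΘ : ∀ v, Θ (MvPowerSeries.X v) = (mimg D c M v : MvPowerSeries τ k))
    (ω : τ → ℕ) (hω : ∀ v, ¬ D v → wgt ω (M v) = 1)
    {I : Ideal (MvPolynomial σ k)} (hc : ∀ v, c v * c v = 1) (hdead : ∀ v, D v → X v ∈ I)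
    (hI : ∀ m m', Alive D m → Alive D m' → mexp M m = mexp M m' →
      MvPolynomial.C (msgn c m) * monomial m 1 - MvPolynomial.C (msgn c m') * monomial m' 1 ∈ I)
    (f : MvPowerSeries σ k) (hf : Θ f = 0) :
    f ∈ I.map (MvPolynomial.coeToMvPowerSeries.ringHom (σ := σ) (R := k)) := by
  classical
  apply Patch.mem_of_forall_mem_sup_pow
  intro N
  set p : MvPolynomial σ k := MvPowerSeries.truncTotal N f with hp
  have h1 : f - (p : MvPowerSeries σ k) ∈
      (Ideal.span (Set.range (MvPowerSeries.X : σ → MvPowerSeries σ k))) ^ N := by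
    apply DefRing.mem_span_X_pow_of_coeff
    intro e he
    rw [map_sub, MvPolynomial.coeff_coe, hp, MvPowerSeries.coeff_truncTotal _ he, sub_self]
  have h2 : Θ (f - (p : MvPowerSeries σ k)) ∈ wfil k ω N := by
    have h3 : Ideal.span (Set.range (MvPowerSeries.X : σ → MvPowerSeries σ k)) ≤
        (wfil k ω 1).comap Θ := by
      rw [Ideal.span_le]
      rintro _ ⟨v, rfl⟩
      show Θ (MvPowerSeries.X v) ∈ wfil k ω 1
      rw [hΘ]
      exact mimg_mem_wfil ω hω v
    have h4 := (Ideal.pow_right_mono h3 N).trans (Ideal.le_comap_pow _ N)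
    exact wfil_pow ω N (h4 h1)
  have h3 : mth D c M p = 0 := by
    ext E
    rw [coeff_zero]
    by_cases hE : wgt ω E < N
    · have h4 := h2 E hE
      rw [map_sub, hf, zero_sub, Theta_coe Θ hΘ, map_neg, MvPolynomial.coeff_coe,
        neg_eq_zero] at h4
      exact h4
    · refine coeff_mth_eq_zero ω hω N p ?_ E (not_lt.mp hE)
      intro m hm
      rw [hp, MvPowerSeries.coeff_truncTotal_eq_zero _ hm]
  have h4 := mem_of_mth_eq_zero hc hdead hI p h3
  have h5 : f = (p : MvPowerSeries σ k) + (f - (p : MvPowerSeries σ k)) := by ring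
  rw [h5]
  refine Submodule.add_mem_sup (Ideal.mem_map_of_mem _ h4) ?_
  refine Ideal.pow_right_mono ?_ N h1
  rw [Ideal.span_le]
  rintro _ ⟨v, rfl⟩
  exact DefRing.X_mem_maximalIdeal v

end PS

end Fermat.Agent.Supp
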