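import Mathlib

/-!
# Kernels of monomial substitutions: polynomials
-/

set_option autoImplicit false

namespace Fermat.Agent.Supp

open MvPolynomial

section Poly

variable {C σ τ : Type*} [CommRing C] [Fintype σ] (D : σ → Prop) [DecidablePred D]
  (c : σ → C) (M : σ → (τ →₀ ℕ))

/-- monomial substitution: the variables `v` with `D v` are killed, the others are mapped to
`c v` times a monomial -/
noncomputable def mimg (v : σ) : MvPolynomial τ C := if D v then 0 else monomial (M v) (c v)

/-- the substitution homomorphism -/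
noncomputable def mth : MvPolynomial σ C →ₐ[C] MvPolynomial τ C := aeval (mimg D c M)

theorem mth_X (v : σ) : mth D c M (X v) = mimg D c M v := aeval_X _ _

/-- exponent map -/
noncomputable def mexp (m : σ →₀ ℕ) : τ →₀ ℕ := ∑ v, m v • M v

/-- sign -/
noncomputable def msgn (m : σ →₀ ℕ) : C := ∏ v, c v ^ m v

/-- exponents which do not involve the killed variables -/
def Alive (m : σ →₀ ℕ) : Prop := ∀ v, D v → m v = 0

omit [Fintype σ] in
theorem prod_monomial (s : Finset σ) (E : σ → (τ →₀ ℕ)) (a : σ → C) :
    ∏ v ∈ s, (monomial (E v) (a v) : MvPolynomial τ C) = monomial (∑ v ∈ s, E v) (∏ v ∈ s, a v) := by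
  classical
  induction s using Finset.induction_on with
  | empty => rfl
  | insert v s hv ih =>
    rw [Finset.prod_insert hv, ih, monomial_mul, Finset.sum_insert hv, Finset.prod_insert hv]

theorem mth_monomial_alive {m : σ →₀ ℕ} (hm : Alive D m) :
    mth D c M (monomial m 1) = monomial (mexp M m) (msgn c m) := by
  rw [mth, aeval_monomial, map_one, one_mul, Finsupp.prod_fintype _ _ (fun v => pow_zero _), mexp,
    msgn, ← prod_monomial]
  refine Finset.prod_congr rfl fun v _ => ?_
  rw [mimg]
  split_ifs with hv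
  · rw [hm v hv, pow_zero, pow_zero, zero_smul]; rfl
  · rw [monomial_pow]

theorem mth_monomial_dead {m : σ →₀ ℕ} (hm : ¬ Alive D m) : mth D c M (monomial m 1) = 0 := by
  rw [Alive] at hm
  push Not at hm
  obtain ⟨v, hv, hmv⟩ := hm
  rw [mth, aeval_monomial, map_one, one_mul, Finsupp.prod_fintype _ _ (fun v => pow_zero _)]
  refine Finset.prod_eq_zero (Finset.mem_univ v) ?_
  rw [mimg, if_pos hv, zero_pow hmv]

omit [Fintype σ] [DecidablePred D] in
theorem monomial_mem_of_dead {I : Ideal (MvPolynomial σ C)} (hdead : ∀ v, D v → X v ∈ I)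
    {m : σ →₀ ℕ} (hm : ¬ Alive D m) : monomial m (1 : C) ∈ I := by
  rw [Alive] at hm
  push Not at hm
  obtain ⟨v, hv, hmv⟩ := hm
  have h : m = (m - Finsupp.single v 1) + Finsupp.single v 1 := by
    rw [tsub_add_cancel_of_le]
    rw [Finsupp.single_le_iff]
    omega
  rw [h, show (monomial ((m - Finsupp.single v 1) + Finsupp.single v 1) (1 : C)) =
    monomial (m - Finsupp.single v 1) 1 * X v by rw [X, monomial_mul, one_mul]]
  exact Ideal.mul_mem_left _ _ (hdead v hv)

open Classical in
/-- linear section -/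
noncomputable def msec : MvPolynomial τ C →ₗ[C] MvPolynomial σ C :=
  (basisMonomials τ C).constr C (fun E => if h : ∃ m, Alive D m ∧ mexp M m = E then
    MvPolynomial.C (msgn c h.choose) * monomial h.choose 1 else 0)

omit [DecidablePred D] in
theorem msec_monomial (m : σ →₀ ℕ) (hm : Alive D m) :
    ∃ m', Alive D m' ∧ mexp M m' = mexp M m ∧
      msec D c M (monomial (mexp M m) 1) = MvPolynomial.C (msgn c m') * monomial m' 1 := by
  classical
  have hex : ∃ m', Alive D m' ∧ mexp M m' = mexp M m := ⟨m, hm, rfl⟩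
  refine ⟨hex.choose, hex.choose_spec.1, hex.choose_spec.2, ?_⟩
  have h := (basisMonomials τ C).constr_basis C
    (fun E => if h : ∃ m, Alive D m ∧ mexp M m = E then
    MvPolynomial.C (msgn c h.choose) * monomial h.choose 1 else (0 : MvPolynomial σ C)) (mexp M m)
  rw [coe_basisMonomials] at h
  rw [msec, h, dif_pos hex]

variable {D c M}

theorem msgn_mul_self (hc : ∀ v, c v * c v = 1) (m : σ →₀ ℕ) : msgn c m * msgn c m = 1 := by
  rw [msgn, ← Finset.prod_mul_distrib]
  refine Finset.prod_eq_one fun v _ => ?_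
  rw [← mul_pow, hc, one_pow]

theorem sub_msec_mem {I : Ideal (MvPolynomial σ C)} (hc : ∀ v, c v * c v = 1)
    (hdead : ∀ v, D v → X v ∈ I)
    (hI : ∀ m m', Alive D m → Alive D m' → mexp M m = mexp M m' →
      MvPolynomial.C (msgn c m) * monomial m 1 - MvPolynomial.C (msgn c m') * monomial m' 1 ∈ I)
    (p : MvPolynomial σ C) : p - msec D c M (mth D c M p) ∈ I := by
  classical
  induction p using MvPolynomial.induction_on' with
  | monomial m a =>
    have h1 : (monomial m a : MvPolynomial σ C) = a • monomial m 1 := by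
      rw [smul_monomial, smul_eq_mul, mul_one]
    rw [h1, map_smul, map_smul, ← smul_sub, smul_eq_C_mul]
    refine Ideal.mul_mem_left _ _ ?_
    by_cases hm : Alive D m
    · rw [mth_monomial_alive D c M hm]
      have h2 : (monomial (mexp M m) (msgn c m) : MvPolynomial τ C) =
          msgn c m • monomial (mexp M m) 1 := by
        rw [smul_monomial, smul_eq_mul, mul_one]
      rw [h2, map_smul]
      obtain ⟨m', hm', he, hs⟩ := msec_monomial D c M m hm
      rw [hs, smul_eq_C_mul]
      have h3 := Ideal.mul_mem_left _ (MvPolynomial.C (msgn c m)) (hI m m' hm hm' he.symm)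
      have h4 : (MvPolynomial.C (msgn c m) * MvPolynomial.C (msgn c m) : MvPolynomial σ C) = 1 := by
        rw [← map_mul, msgn_mul_self hc, map_one]
      have h5 : (monomial m (1 : C)) - MvPolynomial.C (msgn c m) *
          (MvPolynomial.C (msgn c m') * monomial m' 1) = MvPolynomial.C (msgn c m) *
          (MvPolynomial.C (msgn c m) * monomial m 1 - MvPolynomial.C (msgn c m') * monomial m' 1) := by
        linear_combination (-(monomial m (1 : C))) * h4
      rw [h5]
      exact h3
    · rw [mth_monomial_dead D c M hm, map_zero, sub_zero]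
      exact monomial_mem_of_dead D hdead hm
  | add p q hp hq =>
    have := Ideal.add_mem _ hp hq
    rw [map_add, map_add]
    convert this using 1
    ring

/-- **Kernel of a monomial substitution.** -/
theorem mem_of_mth_eq_zero {I : Ideal (MvPolynomial σ C)} (hc : ∀ v, c v * c v = 1)
    (hdead : ∀ v, D v → X v ∈ I)
    (hI : ∀ m m', Alive D m → Alive D m' → mexp M m = mexp M m' →
      MvPolynomial.C (msgn c m) * monomial m 1 - MvPolynomial.C (msgn c m') * monomial m' 1 ∈ I)
    (p : MvPolynomial σ C) (hp : mth D c M p = 0) : p ∈ I := by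
  have := sub_msec_mem hc hdead hI p
  rwa [hp, map_zero, sub_zero] at this

/-! ### weights -/

/-- weight of an exponent -/
noncomputable def wgt (ω : τ → ℕ) : (τ →₀ ℕ) →+ ℕ := Finsupp.liftAddHom fun t => AddMonoidHom.mulRight (ω t)

theorem wgt_single (ω : τ → ℕ) (t : τ) (n : ℕ) : wgt ω (Finsupp.single t n) = n * ω t := by
  simp [wgt]

theorem wgt_mexp (ω : τ → ℕ) (hω : ∀ v, ¬ D v → wgt ω (M v) = 1) {m : σ →₀ ℕ} (hm : Alive D m) :
    wgt ω (mexp M m) = m.degree := by
  rw [mexp, map_sum, Finsupp.degree_eq_sum]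
  refine Finset.sum_congr rfl fun v _ => ?_
  rw [map_nsmul]
  by_cases hv : D v
  · rw [hm v hv, zero_smul]
  · rw [hω v hv, smul_eq_mul, mul_one]

/-- coefficients of the image vanish in large weights -/
theorem coeff_mth_eq_zero (ω : τ → ℕ) (hω : ∀ v, ¬ D v → wgt ω (M v) = 1) (N : ℕ)
    (p : MvPolynomial σ C) (hp : ∀ m, N ≤ m.degree → p.coeff m = 0) (E : τ →₀ ℕ)
    (hE : N ≤ wgt ω E) : (mth D c M p).coeff E = 0 := by
  classical
  rw [p.as_sum, map_sum, coeff_sum]
  refine Finset.sum_eq_zero fun m hm => ?_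
  have h1 : (monomial m (p.coeff m) : MvPolynomial σ C) = p.coeff m • monomial m 1 := by
    rw [smul_monomial, smul_eq_mul, mul_one]
  rw [h1, map_smul, coeff_smul]
  by_cases ha : Alive D m
  · rw [mth_monomial_alive D c M ha, coeff_monomial]
    split_ifs with h
    · rw [← h, wgt_mexp ω hω ha] at hE
      rw [hp m hE, zero_smul]
    · rw [smul_zero]
  · rw [mth_monomial_dead D c M ha, coeff_zero, smul_zero]

end Poly

end Fermat.Agent.Supp
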